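import Fermat.Agent.LT.C0.ExplicitForms
import Mathlib.FieldTheory.IsAlgClosed.AlgebraicClosure

/-!
# The explicit family over an arbitrary ring

The identities of `ExplicitForms` over every commutative ring, the existence of a pair `(U, V)`
with prescribed invariants away from characteristic `2, 3, 5`, and the consequences for integers.
-/

set_option autoImplicit false

noncomputable section

namespace Fermat.Agent.LT.C0

open Fermat.Agent.Switch35

theorem map_discForm {R S : Type*} [CommRing R] [CommRing S] (f : R →+* S) (U V : R) :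
    f (discForm U V) = discForm (f U) (f V) := by
  simp [discForm, cuspForm2, map_ofNat]

section Universal

variable {R : Type*} [CommRing R]

/-- An identity over `ℚ`-algebras holds in every commutative ring. -/
theorem universal_four_vars
    (F G : ∀ (S : Type) [CommRing S], S → S → S → S → S)
    (hFG : ∀ U V a b : MvPolynomial (Fin 4) ℚ, F _ U V a b = G _ U V a b)
    (hF : ∀ (S T : Type) [CommRing S] [CommRing T] (φ : S →+* T) (U V a b : S),
      φ (F S U V a b) = F T (φ U) (φ V) (φ a) (φ b))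
    (hG : ∀ (S T : Type) [CommRing S] [CommRing T] (φ : S →+* T) (U V a b : S),
      φ (G S U V a b) = G T (φ U) (φ V) (φ a) (φ b))
    (S : Type) [CommRing S] (U V a b : S) : F S U V a b = G S U V a b := by
  have key : F (MvPolynomial (Fin 4) ℤ) (.X 0) (.X 1) (.X 2) (.X 3) =
      G (MvPolynomial (Fin 4) ℤ) (.X 0) (.X 1) (.X 2) (.X 3) := by
    apply MvPolynomial.map_injective (Int.castRingHom ℚ) Int.cast_injective
    rw [hF, hG]
    exact hFG _ _ _ _
  have h := congrArg (MvPolynomial.eval₂Hom (Int.castRingHom S) ![U, V, a, b]) key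
  rw [hF, hG] at h
  simpa using h

end Universal

variable (S : Type) [CommRing S]

theorem fourExplicit_forms' (U V a b : S) :
    fourExplicit (fourForm U V) (sixForm U V) a b =
      fourForm (utForm U V a b) (vtForm U V a b) :=
  universal_four_vars (fun S _ U V a b => fourExplicit (fourForm U V) (sixForm U V) a b)
    (fun S _ U V a b => fourForm (utForm U V a b) (vtForm U V a b))
    (fun U V a b => fourExplicit_forms U V a b)
    (fun S T _ _ φ U V a b => by rw [map_fourExplicit, map_fourForm, map_sixForm])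
    (fun S T _ _ φ U V a b => by rw [map_fourForm, map_utForm, map_vtForm]) S U V a b

theorem discForm_deform' (U V a b : S) :
    discForm (utForm U V a b) (vtForm U V a b) =
      discForm U V * cuspPoly (fourForm U V) (sixForm U V) a b ^ 5 :=
  universal_four_vars (fun S _ U V a b => discForm (utForm U V a b) (vtForm U V a b))
    (fun S _ U V a b => discForm U V * cuspPoly (fourForm U V) (sixForm U V) a b ^ 5)
    (fun U V a b => discForm_deform U V a b)
    (fun S T _ _ φ U V a b => by rw [map_discForm, map_utForm, map_vtForm])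
    (fun S T _ _ φ U V a b => by
      rw [map_mul, map_pow, map_discForm, map_cuspPoly, map_fourForm, map_sixForm]) S U V a b

section Field

variable {K : Type} [Field K] [IsAlgClosed K]

open Polynomial in
/-- Every nondegenerate pair of invariants comes from a pair `(U, V)`. -/
theorem exists_pair (h2 : (2 : K) ≠ 0) (h3 : (3 : K) ≠ 0) (h5 : (5 : K) ≠ 0) {C₄ C₆ : K}
    (hd : C₄ ^ 3 ≠ C₆ ^ 2) : ∃ U V : K, fourForm U V = C₄ ∧ sixForm U V = C₆ := by
  have h1728 : (1728 : K) ≠ 0 := by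
    rw [show (1728 : K) = 2 ^ 6 * 3 ^ 3 by norm_num]
    exact mul_ne_zero (pow_ne_zero _ h2) (pow_ne_zero _ h3)
  have both : ∀ b : K, fourForm 1 b = 0 → sixForm 1 b = 0 → False := by
    intro b hf hs
    have h := forms_relation (1 : K) b
    rw [hf, hs] at h
    have h' : (1728 : K) * discForm 1 b = 0 := by rw [← h]; ring
    exact one_ne_zero (eq_zero_of_fourForm_eq_zero h5 hf ((mul_eq_zero.mp h').resolve_left h1728)).1
  have e4 : fourForm (1 : K[X]) X = X ^ 4 - C 12 * X ^ 3 + C 14 * X ^ 2 + C 12 * X + C 1 := by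
    simp only [fourForm, map_ofNat, map_one]; ring
  have e6 : sixForm (1 : K[X]) X
      = -(X ^ 6 - C 18 * X ^ 5 + C 75 * X ^ 4 + C 75 * X ^ 2 + C 18 * X + C 1) := by
    simp only [sixForm, map_ofNat, map_one]; ring
  rcases eq_or_ne C₄ 0 with rfl | hC4
  · have hdeg : (fourForm (1 : K[X]) X).natDegree = 4 := by rw [e4]; compute_degree!
    obtain ⟨b, hb⟩ := IsAlgClosed.exists_root (fourForm (1 : K[X]) X)
      (by
        intro h
        rw [natDegree_eq_of_degree_eq_some h] at hdeg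
        exact absurd hdeg (by norm_num))
    rw [IsRoot, ← coe_evalRingHom, map_fourForm] at hb
    simp only [coe_evalRingHom, eval_one, eval_X] at hb
    obtain ⟨U, hU⟩ := IsAlgClosed.exists_pow_nat_eq (C₆ / sixForm 1 b) (show 0 < 6 by norm_num)
    refine ⟨U * 1, U * b, ?_, ?_⟩
    · rw [fourForm_scale, hb, mul_zero]
    · rw [sixForm_scale, hU, div_mul_cancel₀ _ (both b hb)]
  rcases eq_or_ne C₆ 0 with rfl | hC6
  · have hdeg : (sixForm (1 : K[X]) X).natDegree = 6 := by
      rw [e6, natDegree_neg]; compute_degree!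
    obtain ⟨b, hb⟩ := IsAlgClosed.exists_root (sixForm (1 : K[X]) X)
      (by
        intro h
        rw [natDegree_eq_of_degree_eq_some h] at hdeg
        exact absurd hdeg (by norm_num))
    rw [IsRoot, ← coe_evalRingHom, map_sixForm] at hb
    simp only [coe_evalRingHom, eval_one, eval_X] at hb
    obtain ⟨U, hU⟩ := IsAlgClosed.exists_pow_nat_eq (C₄ / fourForm 1 b) (show 0 < 4 by norm_num)
    refine ⟨U * 1, U * b, ?_, ?_⟩
    · rw [fourForm_scale, hU, div_mul_cancel₀ _ (fun h => both b h hb)]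
    · rw [sixForm_scale, hb, mul_zero]
  set P : K[X] := C (C₆ ^ 2) * fourForm 1 X ^ 3 - C (C₄ ^ 3) * sixForm 1 X ^ 2 with hP
  have hlead : C₆ ^ 2 - C₄ ^ 3 ≠ 0 := sub_ne_zero.mpr hd.symm
  have hdeg : P.natDegree = 12 := by
    rw [hP, e4, e6, neg_sq]
    compute_degree!
  obtain ⟨b, hb⟩ := IsAlgClosed.exists_root P
    (by
      intro h
      rw [natDegree_eq_of_degree_eq_some h] at hdeg
      exact absurd hdeg (by norm_num))
  have hb' : C₆ ^ 2 * fourForm 1 b ^ 3 = C₄ ^ 3 * sixForm 1 b ^ 2 := by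
    rw [IsRoot, hP, eval_sub, eval_mul, eval_mul, eval_C, eval_C, eval_pow, eval_pow,
      ← coe_evalRingHom, map_fourForm, map_sixForm] at hb
    simpa [sub_eq_zero] using hb
  have hf : fourForm 1 b ≠ 0 := fun h => both b h (by
    rw [h, zero_pow (by norm_num), mul_zero, eq_comm, mul_eq_zero] at hb'
    exact pow_eq_zero_iff two_ne_zero |>.mp (hb'.resolve_left (pow_ne_zero _ hC4)))
  have hs : sixForm 1 b ≠ 0 := fun h => hf (by
    rw [h, zero_pow two_ne_zero, mul_zero, mul_eq_zero] at hb'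
    exact pow_eq_zero_iff three_ne_zero |>.mp (hb'.resolve_left (pow_ne_zero _ hC6)))
  obtain ⟨U, hU⟩ := IsAlgClosed.exists_pow_nat_eq (C₆ * fourForm 1 b / (C₄ * sixForm 1 b))
    (show 0 < 2 by norm_num)
  refine ⟨U * 1, U * b, ?_, ?_⟩
  · rw [fourForm_scale, show U ^ 4 = (U ^ 2) ^ 2 by ring, hU]
    field_simp
    linear_combination hb'
  · rw [sixForm_scale, show U ^ 6 = (U ^ 2) ^ 3 by ring, hU]
    field_simp
    linear_combination hb'

end Field

/-- `c₄(a, b) ^ 3 - c₆(a, b) ^ 2 = 1728 Δ f(a, b) ^ 5`. -/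
theorem explicit_relation {C₄ C₆ D : ℤ} (hD : D ≠ 0) (h : C₄ ^ 3 - C₆ ^ 2 = 1728 * D) (a b : ℤ) :
    fourExplicit C₄ C₆ a b ^ 3 - sixExplicit C₄ C₆ a b ^ 2 =
      1728 * (D * cuspPoly C₄ C₆ a b ^ 5) := by
  let φ := Int.castRingHom (AlgebraicClosure ℚ)
  have hne : φ C₄ ^ 3 ≠ φ C₆ ^ 2 := by
    intro e
    rw [← map_pow, ← map_pow] at e
    have e' : C₄ ^ 3 = C₆ ^ 2 := Int.cast_injective e
    omega
  obtain ⟨U, V, h4, h6⟩ := exists_pair (K := AlgebraicClosure ℚ) two_ne_zero three_ne_zero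
    (by norm_num) hne
  have hdisc : discForm U V = φ D := by
    have e := forms_relation U V
    rw [h4, h6, ← map_pow, ← map_pow, ← map_sub, h, map_mul, map_ofNat] at e
    exact (mul_left_cancel₀ (by norm_num) e).symm
  apply Int.cast_injective (α := AlgebraicClosure ℚ)
  show φ _ = φ _
  rw [map_sub, map_pow, map_pow, map_mul, map_mul, map_pow, map_ofNat, map_fourExplicit,
    map_sixExplicit, map_cuspPoly, ← h4, ← h6, fourExplicit_forms, sixExplicit_forms,
    forms_relation, discForm_deform, hdisc]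

/-- Away from the bad primes the deformed invariants have no common factor. -/
theorem not_dvd_explicit {C₄ C₆ D a b : ℤ} (h : C₄ ^ 3 - C₆ ^ 2 = 1728 * D) {q : ℕ}
    (hq : q.Prime) (h235 : q ≠ 2 ∧ q ≠ 3 ∧ q ≠ 5) (hD : ¬ (q : ℤ) ∣ D) (ha : ¬ (q : ℤ) ∣ a) :
    ¬ ((q : ℤ) ∣ fourExplicit C₄ C₆ a b ∧ (q : ℤ) ∣ cuspPoly C₄ C₆ a b) := by
  rintro ⟨hf, hc⟩
  haveI : Fact q.Prime := ⟨hq⟩
  let φ := Int.castRingHom (AlgebraicClosure (ZMod q))
  have hz : ∀ z : ℤ, φ z = 0 ↔ (q : ℤ) ∣ z := fun z => CharP.intCast_eq_zero_iff _ q z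
  have hn : ∀ n : ℕ, n.Prime → q ≠ n → ((n : ℕ) : AlgebraicClosure (ZMod q)) ≠ 0 := by
    intro n hn hne hn0
    exact hne ((Nat.prime_dvd_prime_iff_eq hq hn).mp ((CharP.cast_eq_zero_iff _ q n).mp hn0))
  have h2 : (2 : AlgebraicClosure (ZMod q)) ≠ 0 := by exact_mod_cast hn 2 Nat.prime_two h235.1
  have h3 : (3 : AlgebraicClosure (ZMod q)) ≠ 0 := by exact_mod_cast hn 3 Nat.prime_three h235.2.1
  have h5 : (5 : AlgebraicClosure (ZMod q)) ≠ 0 := by exact_mod_cast hn 5 Nat.prime_five h235.2.2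
  have h1728 : (1728 : AlgebraicClosure (ZMod q)) ≠ 0 := by
    rw [show (1728 : AlgebraicClosure (ZMod q)) = 2 ^ 6 * 3 ^ 3 by norm_num]
    exact mul_ne_zero (pow_ne_zero _ h2) (pow_ne_zero _ h3)
  have hne : φ C₄ ^ 3 ≠ φ C₆ ^ 2 := by
    intro e
    rw [← sub_eq_zero, ← map_pow, ← map_pow, ← map_sub, h, map_mul, map_ofNat, mul_eq_zero] at e
    exact e.elim h1728 (fun e => hD ((hz D).mp e))
  obtain ⟨U, V, h4, h6⟩ := exists_pair h2 h3 h5 hne
  have hdisc : discForm U V ≠ 0 := by
    intro e0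
    have e := forms_relation U V
    rw [h4, h6, e0, mul_zero] at e
    exact hne (sub_eq_zero.mp e)
  have e4 : fourForm (utForm U V (φ a) (φ b)) (vtForm U V (φ a) (φ b)) = 0 := by
    rw [← fourExplicit_forms', h4, h6, ← map_fourExplicit, hz]
    exact hf
  have ed : discForm (utForm U V (φ a) (φ b)) (vtForm U V (φ a) (φ b)) = 0 := by
    rw [discForm_deform', h4, h6, ← map_cuspPoly, (hz _).mpr hc, zero_pow (by norm_num), mul_zero]
  obtain ⟨hu, hv⟩ := eq_zero_of_fourForm_eq_zero h5 e4 ed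
  obtain ⟨s, hs⟩ := IsAlgClosed.exists_pow_nat_eq (5 : AlgebraicClosure (ZMod q)) two_pos
  rcases utForm_ne_zero_or h2 h3 h5 hs (a := φ a) (b := φ b) (.inl fun e => ha ((hz a).mp e)) hdisc
    with e | e
  · exact e hu
  · exact e hv

end Fermat.Agent.LT.C0
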