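import Fermat.Agent.LT.C0.ExplicitForms
import Fermat.Agent.LT.C0.Pair
import Fermat.Agent.Switch35.FiveMap
import Fermat.Agent.LR.ChangeVar
import Fermat.Agent.ECFrob.Main
import Fermat.Agent.ECTorsion.Galois
import Fermat.Agent.Galois.Decomposition

/-!
# Members of the family have congruent traces mod `5`
-/

set_option autoImplicit false

noncomputable section

open WeierstrassCurve WeierstrassCurve.Affine
open scoped WeierstrassCurve.Affine
open Fermat.Agent.Switch35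

namespace Fermat.Agent.LT.C0

local notation "L" => AlgebraicClosure ℚ

local instance fact_prime_five_ltC0 : Fact (Nat.Prime 5) := ⟨by norm_num⟩

theorem fourFam_eq_fourExplicit {C₄ C₆ : L} (hd : C₄ ^ 3 ≠ C₆ ^ 2) (a b : L) :
    fourFam C₄ C₆ a b = fourExplicit C₄ C₆ a b ∧ sixFam C₄ C₆ a b = sixExplicit C₄ C₆ a b := by
  obtain ⟨U, V, rfl, rfl⟩ := exists_pair (K := L) two_ne_zero three_ne_zero (by norm_num) hd
  exact ⟨by rw [fourFam_forms, fourExplicit_forms], by rw [sixFam_forms, sixExplicit_forms]⟩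

theorem modCurve_baseChange (E : WeierstrassCurve ℚ) (C₄ C₆ : ℚ) :
    (modCurve E C₄ C₆)⁄L = modCurve (E⁄L) (algebraMap ℚ L C₄) (algebraMap ℚ L C₆) := by
  ext <;> simp [modCurve, WeierstrassCurve.baseChange, WeierstrassCurve.map, WeierstrassCurve.b₂,
    WeierstrassCurve.c₄, WeierstrassCurve.b₄, WeierstrassCurve.c₆, WeierstrassCurve.b₆, map_ofNat]

theorem eq_of_invariants {K : Type*} [Field K] [CharZero K] {E F : WeierstrassCurve K}
    (h1 : E.a₁ = F.a₁) (h2 : E.a₂ = F.a₂) (h3 : E.a₃ = F.a₃) (h4 : E.c₄ = F.c₄)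
    (h6 : E.c₆ = F.c₆) : E = F := by
  simp only [WeierstrassCurve.c₄, WeierstrassCurve.b₂, WeierstrassCurve.b₄, h1, h2, h3] at h4
  have e4 : E.a₄ = F.a₄ := by linear_combination (-1 / 48 : K) * h4
  simp only [WeierstrassCurve.c₆, WeierstrassCurve.b₂, WeierstrassCurve.b₄, WeierstrassCurve.b₆,
    h1, h2, h3, e4] at h6
  ext
  · exact h1
  · exact h2
  · exact h3
  · exact e4
  · linear_combination (-1 / 864 : K) * h6

theorem exists_variableChange {K : Type*} [Field K] [CharZero K] {E F : WeierstrassCurve K}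
    (u : Kˣ) (h4 : (u : K) ^ 4 * F.c₄ = E.c₄) (h6 : (u : K) ^ 6 * F.c₆ = E.c₆) :
    ∃ C : VariableChange K, C • E = F := by
  set s : K := ((u : K) * F.a₁ - E.a₁) / 2 with hs
  set r : K := ((u : K) ^ 2 * F.a₂ - E.a₂ + s * E.a₁ + s ^ 2) / 3 with hr
  set t : K := ((u : K) ^ 3 * F.a₃ - E.a₃ - r * E.a₁) / 2 with ht
  have hu := u.ne_zero
  refine ⟨⟨u, r, s, t⟩, eq_of_invariants ?_ ?_ ?_ ?_ ?_⟩
  · simp only [variableChange_a₁, Units.val_inv_eq_inv_val, hs]
    field_simp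
    ring
  · simp only [variableChange_a₂, Units.val_inv_eq_inv_val, hr]
    field_simp
    ring
  · simp only [variableChange_a₃, Units.val_inv_eq_inv_val, ht]
    field_simp
    ring
  · rw [variableChange_c₄, ← h4, Units.val_inv_eq_inv_val]
    field_simp
  · rw [variableChange_c₆, ← h6, Units.val_inv_eq_inv_val]
    field_simp

theorem isFivePair_map {E : WeierstrassCurve ℚ} (σ : L ≃ₐ[ℚ] L) {p : L × L}
    (hp : IsFivePair (E⁄L) p) : IsFivePair (E⁄L) (σ p.1, σ p.2) := by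
  have h4 : σ (E⁄L).c₄ = (E⁄L).c₄ := by simp [WeierstrassCurve.baseChange]
  have h6 : σ (E⁄L).c₆ = (E⁄L).c₆ := by simp [WeierstrassCurve.baseChange]
  refine ⟨?_, ?_⟩
  · have e := congrArg σ.toAlgHom.toRingHom hp.1
    rw [map_fourForm] at e
    exact e.trans h4
  · have e := congrArg σ.toAlgHom.toRingHom hp.2
    rw [map_sixForm] at e
    exact e.trans h6

theorem map_fiveX_fiveY (E : WeierstrassCurve ℚ) (σ : L ≃ₐ[ℚ] L) (p : L × L) :
    σ (fiveX (E⁄L) p) = fiveX (E⁄L) (σ p.1, σ p.2) ∧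
      σ (fiveY (E⁄L) p) = fiveY (E⁄L) (σ p.1, σ p.2) := by
  constructor <;> simp [fiveX, fiveY, WeierstrassCurve.baseChange, map_ofNat]

theorem map_deformPair (σ : L ≃ₐ[ℚ] L) (a b : ℤ) (p : L × L) :
    deformPair (a : L) (b : L) (σ p.1, σ p.2) =
      (σ (deformPair (a : L) (b : L) p).1, σ (deformPair (a : L) (b : L) p).2) := by
  have hu := map_utForm σ.toAlgHom.toRingHom p.1 p.2 (a : L) (b : L)
  have hv := map_vtForm σ.toAlgHom.toRingHom p.1 p.2 (a : L) (b : L)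
  simp only [map_intCast] at hu hv
  exact Prod.ext hu.symm hv.symm

/-- The deformation gives an injective equivariant map on `5`-torsion. -/
theorem exists_deform_torsionMap (E F : WeierstrassCurve ℚ) (hΔ : E.Δ ≠ 0) (h4 : E.c₄ ≠ 0)
    (h6 : E.c₆ ≠ 0) (hF : F.Δ ≠ 0) (a b : ℤ) (he : F⁄L = famCurve (E⁄L) (a : L) (b : L)) :
    ∃ T : Submodule.torsionBy ℤ (E⁄L).Point ((5 : ℕ) : ℤ) →+
        Submodule.torsionBy ℤ (F⁄L).Point ((5 : ℕ) : ℤ),
      Function.Injective T ∧ ∀ (σ : L ≃ₐ[ℚ] L) x, T (σ • x) = σ • T x := by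
  classical
  have hΔ' : (E⁄L).Δ ≠ 0 := by simpa [WeierstrassCurve.baseChange] using hΔ
  have h4' : (E⁄L).c₄ ≠ 0 := by simpa [WeierstrassCurve.baseChange] using h4
  have h6' : (E⁄L).c₆ ≠ 0 := by simpa [WeierstrassCurve.baseChange] using h6
  have key : ∀ V : WeierstrassCurve L, V = famCurve (E⁄L) (a : L) (b : L) → V.Δ ≠ 0 →
      ∃ T : Submodule.torsionBy ℤ (E⁄L).Point ((5 : ℕ) : ℤ) →+
          Submodule.torsionBy ℤ V.toAffine.Point ((5 : ℕ) : ℤ),
        Function.Injective T ∧ ∀ (x : Submodule.torsionBy ℤ (E⁄L).Point ((5 : ℕ) : ℤ)) (p : L × L)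
          (hp : IsFivePair (E⁄L) p), fivePoint hΔ' p hp = x.1 →
          ∃ h, (T x).1 = Affine.Point.some
            (fiveX V (deformPair (a : L) (b : L) p)) (fiveY V (deformPair (a : L) (b : L) p)) h := by
    rintro V rfl hV
    refine ⟨torsionMap hΔ' hV h4' h6', fun P Q h => Subtype.ext
      (deformPoint_injective hΔ' hV h4' h6' (mem_torsionBy_five.mp P.2)
        (mem_torsionBy_five.mp Q.2) (congrArg Subtype.val h)), fun x p hp hx => ?_⟩
    refine ⟨(hp.deform (a : L) (b : L)).nonsingular hV, ?_⟩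
    show deformPoint hΔ' hV x.1 = _
    rw [← hx, deformPoint_fivePoint]
    rfl
  obtain ⟨T, hT, hTp⟩ := key (F⁄L) he (by simpa [WeierstrassCurve.baseChange] using hF)
  refine ⟨T, hT, fun σ x => ?_⟩
  rcases eq_or_ne x 0 with rfl | hx
  · rw [smul_zero, map_zero, smul_zero]
  obtain ⟨p, hp, hpx⟩ := exists_fivePair hΔ' (P := x.1) (fun h => hx (Subtype.ext h))
    (mem_torsionBy_five.mp x.2)
  obtain ⟨h1, e1⟩ := hTp x p hp hpx
  have hσx : fivePoint hΔ' _ (isFivePair_map σ hp) = (σ • x).1 := by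
    show _ = σ • x.1
    rw [← hpx, fivePoint, fivePoint, Point.algEquiv_smul_def, Point.map_some,
      Point.some.injEq]
    exact ⟨(map_fiveX_fiveY E σ p).1.symm, (map_fiveX_fiveY E σ p).2.symm⟩
  obtain ⟨h2, e2⟩ := hTp (σ • x) _ (isFivePair_map σ hp) hσx
  apply Subtype.ext
  show _ = σ • (T x).1
  rw [e2, e1, Point.algEquiv_smul_def, Point.map_some, Point.some.injEq, map_deformPair]
  exact ⟨(map_fiveX_fiveY F σ _).1.symm, (map_fiveX_fiveY F σ _).2.symm⟩

/-- Integral models in the family have traces congruent mod `5` at the good primes. -/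
theorem apOfModel_congr_five (W W' : WeierstrassCurve ℤ) (hΔ : W.Δ ≠ 0) (h4 : W.c₄ ≠ 0)
    (h6 : W.c₆ ≠ 0) (hΔ' : W'.Δ ≠ 0) {a b : ℤ} {l : ℤ} (hl : l ≠ 0)
    (e4 : l ^ 4 * W'.c₄ = fourExplicit W.c₄ W.c₆ a b)
    (e6 : l ^ 6 * W'.c₆ = sixExplicit W.c₄ W.c₆ a b)
    {ℓ : ℕ} (hℓ : ℓ.Prime) (hg : W.IsGoodPrimeFor ℓ) (hg' : W'.IsGoodPrimeFor ℓ) (h5 : ℓ ≠ 5) :
    (5 : ℤ) ∣ W'.apOfModel ℓ - W.apOfModel ℓ := by
  classical
  set E := W.map (Int.castRingHom ℚ) with hE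
  set E' := W'.map (Int.castRingHom ℚ) with hE'
  set F := modCurve E ((fourExplicit W.c₄ W.c₆ a b : ℤ) : ℚ)
    ((sixExplicit W.c₄ W.c₆ a b : ℤ) : ℚ) with hFd
  have hlu : ((l : ℚ)⁻¹) ≠ 0 := inv_ne_zero (Int.cast_ne_zero.2 hl)
  have hlq : (l : ℚ) ≠ 0 := Int.cast_ne_zero.2 hl
  obtain ⟨C, hC⟩ := exists_variableChange (E := E') (F := F) (Units.mk0 _ hlu)
    (by rw [hFd, modCurve_c₄, hE', WeierstrassCurve.map_c₄, ← e4]
        push_cast [eq_intCast, Units.val_mk0]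
        field_simp)
    (by rw [hFd, modCurve_c₆, hE', WeierstrassCurve.map_c₆, ← e6]
        push_cast [eq_intCast, Units.val_mk0]
        field_simp)
  have hEΔ : E.Δ ≠ 0 := by simpa [hE] using hΔ
  have hE'Δ : E'.Δ ≠ 0 := by simpa [hE'] using hΔ'
  have hFΔ : F.Δ ≠ 0 := by
    rw [← hC, variableChange_Δ]
    exact mul_ne_zero (pow_ne_zero _ (Units.ne_zero _)) hE'Δ
  have hd : ((W.c₄ : L)) ^ 3 ≠ (W.c₆ : L) ^ 2 := by
    intro h
    have h' : W.c₄ ^ 3 = W.c₆ ^ 2 := by exact_mod_cast h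
    have := W.c_relation
    rw [h', sub_self, mul_eq_zero] at this
    exact hΔ (this.resolve_left (by norm_num))
  have he : F⁄L = famCurve (E⁄L) (a : L) (b : L) := by
    have h4L : (E⁄L).c₄ = (W.c₄ : L) := by simp [hE, WeierstrassCurve.baseChange]
    have h6L : (E⁄L).c₆ = (W.c₆ : L) := by simp [hE, WeierstrassCurve.baseChange]
    rw [hFd, modCurve_baseChange, famCurve, h4L, h6L, (fourFam_eq_fourExplicit hd _ _).1,
      (fourFam_eq_fourExplicit hd _ _).2, map_intCast, map_intCast]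
    congr 1
    · exact map_fourExplicit (Int.castRingHom L) _ _ _ _
    · exact map_sixExplicit (Int.castRingHom L) _ _ _ _
  obtain ⟨T, hT, hTσ⟩ : ∃ T : Submodule.torsionBy ℤ (E⁄L).Point ((5 : ℕ) : ℤ) →+
      Submodule.torsionBy ℤ ((C • E')⁄L).Point ((5 : ℕ) : ℤ),
      Function.Injective T ∧ ∀ (σ : L ≃ₐ[ℚ] L) x, T (σ • x) = σ • T x := by
    rw [hC]
    exact exists_deform_torsionMap E F hEΔ (by simpa [hE] using h4) (by simpa [hE] using h6)
      hFΔ a b he
  let S : Submodule.torsionBy ℤ (E⁄L).Point ((5 : ℕ) : ℤ) →+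
      Submodule.torsionBy ℤ (E'⁄L).Point ((5 : ℕ) : ℤ) :=
    AddMonoidHom.mk'
      (fun x => ⟨LR.cvBasePoint (K := L) E' C (T x).1, by
        have := (T x).2
        rw [Submodule.mem_torsionBy_iff] at this ⊢
        exact (map_zsmul (LR.cvBasePoint (K := L) E' C) _ _).symm.trans
          (by rw [this]; exact map_zero _)⟩)
      (fun x y => by
        apply Subtype.ext
        show LR.cvBasePoint E' C (T (x + y)).1 = _
        rw [map_add]
        exact map_add (LR.cvBasePoint (K := L) E' C) _ _)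
  have hS : Function.Injective S := fun x y h =>
    hT (Subtype.ext (LR.cvBasePoint_injective E' C (congrArg Subtype.val h)))
  have hSσ : ∀ (σ : L ≃ₐ[ℚ] L) x, S (σ • x) = σ • S x := fun σ x => by
    apply Subtype.ext
    show LR.cvBasePoint E' C (T (σ • x)).1 = σ • LR.cvBasePoint E' C (T x).1
    rw [hTσ]
    exact LR.cvBasePoint_smul E' C σ _
  let SL := S.toZModLinearMap 5
  haveI : Module.Finite (ZMod 5) (Submodule.torsionBy ℤ (E⁄L).Point ((5 : ℕ) : ℤ)) :=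
    Module.finite_of_finrank_eq_succ (ECTorsion.finrank_torsionBy_qbar E hEΔ 5)
  haveI : Module.Finite (ZMod 5) (Submodule.torsionBy ℤ (E'⁄L).Point ((5 : ℕ) : ℤ)) :=
    Module.finite_of_finrank_eq_succ (ECTorsion.finrank_torsionBy_qbar E' hE'Δ 5)
  let e := LinearEquiv.ofInjectiveOfFinrankEq SL hS
    ((ECTorsion.finrank_torsionBy_qbar E hEΔ 5).trans
      (ECTorsion.finrank_torsionBy_qbar E' hE'Δ 5).symm)
  obtain ⟨A, σ, hA, hσ⟩ := Galois.exists_place_isFrobeniusAt (q := ℓ) hℓ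
  have t1 := ECFrob.galoisTrace_eq_apOfModel W hℓ (by norm_num : (5 : ℕ).Prime) h5 hg A hA σ hσ
  have t2 := ECFrob.galoisTrace_eq_apOfModel W' hℓ (by norm_num : (5 : ℕ).Prime) h5 hg' A hA σ hσ
  have hconj : e.conj (Point.galoisRepModuleEnd (K := L) ℚ E 5 σ) =
      Point.galoisRepModuleEnd (K := L) ℚ E' 5 σ := by
    apply LinearMap.ext
    intro y
    obtain ⟨x, rfl⟩ := e.surjective y
    rw [LinearEquiv.conj_apply_apply, e.symm_apply_apply]
    exact hSσ σ x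
  rw [Point.galoisTrace_def] at t1 t2
  rw [← hE'] at t2
  rw [← hE] at t1
  rw [← hconj, LinearMap.trace_conj', t1] at t2
  exact_mod_cast (ZMod.intCast_eq_intCast_iff_dvd_sub (W.apOfModel ℓ) (W'.apOfModel ℓ) 5).1 t2

end Fermat.Agent.LT.C0
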