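import Fermat.Agent.LT.C0.ExplicitForms
import Fermat.Agent.LT.C0.Pair
import Fermat.Agent.Switch35.Sparse
import Fermat.Agent.Switch35.Three

/-!
# Irreducibility mod `3` along the family
-/

set_option autoImplicit false

noncomputable section

open Polynomial Filter
open Fermat.Agent.Switch35

namespace Fermat.Agent.LT.C0

theorem natDegree_sixForm_line_le {K : Type*} [Field K] [CharZero K] (U V : K) :
    (sixForm (lineU U V) (lineV U V)).natDegree ≤ 30 := by
  have hu : ∀ U V : K, (lineU U V).natDegree ≤ 5 := by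
    intro U V
    simp only [lineU, utForm, evenFive, oddFive]
    compute_degree
  have h1 := hu U V
  have h2 := hu V (-U)
  rw [← lineV_eq] at h2
  simp only [sixForm]
  generalize lineU U V = u at h1 ⊢
  generalize lineV U V = v at h2 ⊢
  compute_degree <;> omega

/-- The forms on the line, dehomogenised. -/
theorem eval_line_forms (U V : ℂ) {a b : ℂ} (hb : b ≠ 0) :
    b ^ 20 * (fourForm (lineU U V) (lineV U V)).eval (a / b) =
        fourExplicit (fourForm U V) (sixForm U V) a b ∧
      b ^ 30 * (sixForm (lineU U V) (lineV U V)).eval (a / b) =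
        sixExplicit (fourForm U V) (sixForm U V) a b := by
  have hu : utForm U V a b = b ^ 5 * utForm U V (a / b) 1 := by
    rw [← utForm_mul, mul_div_cancel₀ a hb, mul_one]
  have hv : vtForm U V a b = b ^ 5 * vtForm U V (a / b) 1 := by
    rw [← vtForm_mul, mul_div_cancel₀ a hb, mul_one]
  rw [fourExplicit_forms, sixExplicit_forms, hu, hv, fourForm_scale, sixForm_scale]
  constructor
  · rw [← coe_evalRingHom, map_fourForm]
    simp only [coe_evalRingHom, eval_lineU, eval_lineV]
    ring
  · rw [← coe_evalRingHom, map_sixForm]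
    simp only [coe_evalRingHom, eval_lineU, eval_lineV]
    ring

/-- A semistable family of models with invariants proportional to the family along a progression
has an irreducible member. -/
theorem exists_irreducible_member {C₄ C₆ : ℤ} (hd : C₄ ^ 3 ≠ C₆ ^ 2) {a b₀ l : ℤ} (ha : a ≠ 0)
    {N : ℕ} (hN : 0 < N) (W' : ℕ → WeierstrassCurve ℤ) (hΔ : ∀ k, (W' k).Δ ≠ 0)
    (h4 : ∀ k : ℕ, l ^ 2 * (W' k).c₄ = fourExplicit C₄ C₆ a (b₀ + N * k))
    (h6 : ∀ k : ℕ, l ^ 3 * (W' k).c₆ = sixExplicit C₄ C₆ a (b₀ + N * k)) :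
    ∃ k, (W' k).ModRepIsIrreducible 3 := by
  by_contra hcon
  push Not at hcon
  choose ξ hξ using fun k => exists_int_root_of_not_irreducible (W' k) (hΔ k) (hcon k)
  have hd' : (C₄ : ℂ) ^ 3 ≠ (C₆ : ℂ) ^ 2 := by exact_mod_cast hd
  obtain ⟨U, V, hU, hV⟩ := exists_pair (K := ℂ) two_ne_zero three_ne_zero (by norm_num) hd'
  have hdisc : discForm U V ≠ 0 := by
    intro e0
    have e := forms_relation U V
    rw [hU, hV, e0, mul_zero] at e
    exact hd' (sub_eq_zero.mp e)
  set g₄ := fourForm (lineU U V) (lineV U V) with hg₄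
  set g₆ := sixForm (lineU U V) (lineV U V) with hg₆
  have h0 : g₄.eval 0 = (C₄ : ℂ) ∧ g₆.eval 0 = (C₆ : ℂ) := by
    rw [hg₄, hg₆, ← coe_evalRingHom, map_fourForm, map_sixForm]
    simp [eval_lineU, eval_lineV, utForm_zero, vtForm_zero, hU, hV]
  obtain ⟨Y, hY⟩ := exists_polynomial_root g₄ g₆ (natDegree_fourForm_line_le U V)
    (natDegree_sixForm_line_le U V) (by rw [h0.1, h0.2]; exact hd') a b₀ ha N hN
    (fun k => l * ξ k) (by
      have hev : ∀ᶠ k : ℕ in atTop, (b₀ : ℂ) + (N : ℂ) * (k : ℂ) ≠ 0 := by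
        refine eventually_atTop.2 ⟨b₀.natAbs + 1, fun k hk => ?_⟩
        have hz : b₀ + (N : ℤ) * k ≠ 0 := by
          have h1 : (k : ℤ) ≤ (N : ℤ) * k :=
            le_mul_of_one_le_left (Int.natCast_nonneg k) (by exact_mod_cast hN)
          omega
        exact_mod_cast hz
      filter_upwards [hev] with k hb
      have e4 := congrArg (Int.castRingHom ℂ) (h4 k)
      have e6 := congrArg (Int.castRingHom ℂ) (h6 k)
      rw [map_mul, map_pow, map_fourExplicit] at e4
      rw [map_mul, map_pow, map_sixExplicit] at e6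
      simp only [eq_intCast, Int.cast_add, Int.cast_mul, Int.cast_natCast] at e4 e6
      obtain ⟨l4, l6⟩ := eval_line_forms U V (a := (a : ℂ)) hb
      rw [eval_progPoly (natDegree_fourForm_line_le U V) hb,
        eval_progPoly (natDegree_sixForm_line_le U V) hb, l4, l6, hU, hV, ← e4, ← e6,
        Int.cast_mul, threeQuartic_scale_two]
      have hk := congrArg (Int.cast (R := ℂ)) (hξ k)
      simp only [threeQuartic, Int.cast_sub, Int.cast_mul, Int.cast_pow, Int.cast_ofNat,
        Int.cast_zero] at hk ⊢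
      rw [hk, mul_zero])
  exact threeQuartic_line_ne_zero hdisc Y hY

end Fermat.Agent.LT.C0
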