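import Fermat.Prelude.Def_FLTPrelim_ModularRep

/-!
# The curves fed into the descent

`IsThreeAdmissible W`: a semistable model with irreducible mod `3` representation whose
discriminant is a cube in `ℚ₃(√-3)`, and which is either good supersingular or multiplicative
at `3`.
-/

set_option autoImplicit false

namespace Fermat.Agent.LT.C0

/-- `Δ = 3 ^ (3 m) u` with `u ≡ ±1 mod 9`: up to sign, a cube in `ℚ₃`. -/
def IsCubeClassThree (Δ : ℤ) : Prop :=
  ∃ (m : ℕ) (u : ℤ), Δ = 3 ^ (3 * m) * u ∧ ((9 : ℤ) ∣ u - 1 ∨ (9 : ℤ) ∣ u + 1)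

/-- The hypotheses on the curve `W''` of the descent. -/
structure IsThreeAdmissible (W : WeierstrassCurve ℤ) : Prop where
  delta_ne_zero : W.Δ ≠ 0
  semistable : W.IsSemistableModel
  irreducible : W.ModRepIsIrreducible 3
  cube : IsCubeClassThree W.Δ
  local_three : (¬ (3 : ℤ) ∣ W.Δ ∧ (3 : ℤ) ∣ W.c₄) ∨ ((3 : ℤ) ∣ W.Δ ∧ ¬ (3 : ℤ) ∣ W.c₄)

end Fermat.Agent.LT.C0
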