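import Mathlib.AlgebraicGeometry.EllipticCurve.Weierstrass
import Mathlib.Tactic
import Mathlib.Data.Int.GCD

/-!
# An integral model with prescribed invariants

Multiplicative at `3`, congruent to a scaled integral model at `2`.
-/

set_option autoImplicit false

open WeierstrassCurve

namespace Fermat.Agent.LT.C0

private lemma dvd_of_coprime {m n x : ℤ} (h : IsCoprime m n) (h1 : m ∣ x) (h2 : n ∣ x) :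
    m * n ∣ x := h.mul_dvd h1 h2

/-- `G₄, G₆` are the invariants of an integral curve with discriminant `D`. -/
theorem exists_integral_model (W : WeierstrassCurve ℤ) {G₄ G₆ D l : ℤ}
    (hrel : G₄ ^ 3 - G₆ ^ 2 = 1728 * D) (h3 : ¬ (3 : ℤ) ∣ G₄) (hD : (3 : ℤ) ∣ D)
    (h4 : (2 : ℤ) ^ 11 ∣ G₄ - l ^ 4 * W.c₄) (h6 : (2 : ℤ) ^ 11 ∣ G₆ - l ^ 6 * W.c₆) :
    ∃ W' : WeierstrassCurve ℤ, W'.c₄ = G₄ ∧ W'.c₆ = G₆ ∧ W'.Δ = D := by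
  have hcop4 : IsCoprime ((3 : ℤ) ^ 4) G₄ :=
    (Int.prime_three.coprime_iff_not_dvd.mpr h3).pow_left
  obtain ⟨x, y, hxy⟩ := hcop4
  have hcop : IsCoprime ((2 : ℤ) ^ 11) ((3 : ℤ) ^ 4) := by
    rw [Int.isCoprime_iff_gcd_eq_one]; norm_num
  obtain ⟨i, j, hij⟩ := hcop
  -- `B₂ ≡ l² b₂ (mod 2¹¹)` and `B₂ ≡ -G₆/G₄ (mod 3⁴)`
  set B₂ : ℤ := l ^ 2 * W.b₂ * (j * 3 ^ 4) + -G₆ * y * (i * 2 ^ 11) with hB₂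
  have hB2 : (2 : ℤ) ^ 11 ∣ B₂ - l ^ 2 * W.b₂ :=
    ⟨-(l ^ 2 * W.b₂ * i) - G₆ * y * i, by rw [hB₂]; linear_combination (l ^ 2 * W.b₂) * hij⟩
  have hB3 : (3 : ℤ) ^ 4 ∣ B₂ * G₄ + G₆ :=
    ⟨l ^ 2 * W.b₂ * j * G₄ + G₆ * y * j * G₄ + G₆ * x, by
      rw [hB₂]; linear_combination (-(G₆ * y * G₄)) * hij - G₆ * hxy⟩
  have hD4 : (3 : ℤ) ^ 4 ∣ G₄ ^ 3 - G₆ ^ 2 := by
    obtain ⟨d, hd⟩ := hD
    exact ⟨64 * d, by rw [hrel, hd]; ring⟩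
  have hcop' : IsCoprime ((3 : ℤ) ^ 4) G₄ := ⟨x, y, hxy⟩
  have hsq : (3 : ℤ) ^ 4 ∣ B₂ ^ 2 - G₄ := by
    refine IsCoprime.dvd_of_dvd_mul_left (hcop'.pow_right (n := 2)) ?_
    have h := dvd_sub (dvd_mul_of_dvd_left hB3 (B₂ * G₄ - G₆)) hD4
    rwa [show G₄ ^ 2 * (B₂ ^ 2 - G₄) = (B₂ * G₄ + G₆) * (B₂ * G₄ - G₆) - (G₄ ^ 3 - G₆ ^ 2) by ring]
  obtain ⟨u2, hu2⟩ := hB2
  obtain ⟨u4, hu4⟩ := h4
  obtain ⟨u6, hu6⟩ := h6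
  have h24 : (24 : ℤ) ∣ B₂ ^ 2 - G₄ := by
    rw [show (24 : ℤ) = 2 ^ 3 * 3 by norm_num]
    refine dvd_of_coprime (by rw [Int.isCoprime_iff_gcd_eq_one]; norm_num) ?_
      ((dvd_pow_self 3 (by norm_num)).trans hsq)
    refine ⟨3 * (l ^ 4 * W.b₄) + 256 * (u2 * (B₂ + l ^ 2 * W.b₂)) - 256 * u4, ?_⟩
    have ec : W.c₄ = W.b₂ ^ 2 - 24 * W.b₄ := rfl
    linear_combination (B₂ + l ^ 2 * W.b₂) * hu2 - hu4 - l ^ 4 * ec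
  obtain ⟨B₄, hB₄⟩ := h24
  have hB4 : (2 : ℤ) ^ 8 ∣ B₄ - l ^ 4 * W.b₄ := by
    have hc : IsCoprime ((2 : ℤ) ^ 8) 3 := by rw [Int.isCoprime_iff_gcd_eq_one]; norm_num
    refine hc.dvd_of_dvd_mul_left ?_
    refine ⟨u2 * (B₂ + l ^ 2 * W.b₂) - u4, ?_⟩
    have ec : W.c₄ = W.b₂ ^ 2 - 24 * W.b₄ := rfl
    apply mul_left_cancel₀ (show (8 : ℤ) ≠ 0 by norm_num)
    linear_combination (B₂ + l ^ 2 * W.b₂) * hu2 - hu4 - hB₄ - l ^ 4 * ec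
  have hB4' : (3 : ℤ) ^ 3 ∣ B₄ := by
    have hc : IsCoprime ((3 : ℤ) ^ 3) 8 := by rw [Int.isCoprime_iff_gcd_eq_one]; norm_num
    refine hc.dvd_of_dvd_mul_left ?_
    obtain ⟨w, hw⟩ := hsq
    exact ⟨w, mul_left_cancel₀ (show (3 : ℤ) ≠ 0 by norm_num) (by linear_combination hw - hB₄)⟩
  have h216 : (216 : ℤ) ∣ -B₂ ^ 3 + 36 * B₂ * B₄ - G₆ := by
    rw [show (216 : ℤ) = 2 ^ 3 * 3 ^ 3 by norm_num]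
    refine dvd_of_coprime (by rw [Int.isCoprime_iff_gcd_eq_one]; norm_num) ?_ ?_
    · obtain ⟨u8, hu8⟩ := hB4
      have ec : W.c₆ = -W.b₂ ^ 3 + 36 * W.b₂ * W.b₄ - 216 * W.b₆ := rfl
      refine ⟨27 * (l ^ 6 * W.b₆) - 256 * (u2 * (B₂ ^ 2 + B₂ * (l ^ 2 * W.b₂) + (l ^ 2 * W.b₂) ^ 2))
        + 36 * 256 * (u2 * B₄) + 36 * 32 * (l ^ 2 * W.b₂ * u8) - 256 * u6, ?_⟩
      linear_combination
        (-(B₂ ^ 2 + B₂ * (l ^ 2 * W.b₂) + (l ^ 2 * W.b₂) ^ 2) + 36 * B₄) * hu2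
        + 36 * (l ^ 2 * W.b₂) * hu8 - hu6 - l ^ 6 * ec
    · refine IsCoprime.dvd_of_dvd_mul_left
        ((hcop'.of_isCoprime_of_dvd_left (pow_dvd_pow 3 (by norm_num : 3 ≤ 4))).pow_right (n := 3)) ?_
      have h34 : (3 : ℤ) ^ 3 ∣ (3 : ℤ) ^ 4 := pow_dvd_pow 3 (by norm_num)
      have a1 := dvd_mul_of_dvd_left (h34.trans hB3)
        (-((B₂ * G₄) ^ 2 - B₂ * G₄ * G₆ + G₆ ^ 2))
      have a2 := dvd_mul_of_dvd_left (h34.trans hD4) G₆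
      have a3 := dvd_mul_of_dvd_left hB4' (36 * B₂ * G₄ ^ 3)
      have h := dvd_add (dvd_sub a1 a2) a3
      rwa [show (B₂ * G₄ + G₆) * (-((B₂ * G₄) ^ 2 - B₂ * G₄ * G₆ + G₆ ^ 2))
        - (G₄ ^ 3 - G₆ ^ 2) * G₆ + B₄ * (36 * B₂ * G₄ ^ 3)
        = G₄ ^ 3 * (-B₂ ^ 3 + 36 * B₂ * B₄ - G₆) by ring] at h
  obtain ⟨B₆, hB₆⟩ := h216
  have hB6 : (4 : ℤ) ∣ B₆ - l ^ 6 * W.b₆ := by
    obtain ⟨u8, hu8⟩ := hB4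
    have ec : W.c₆ = -W.b₂ ^ 3 + 36 * W.b₂ * W.b₄ - 216 * W.b₆ := rfl
    have h : (32 : ℤ) ∣ 216 * (B₆ - l ^ 6 * W.b₆) := by
      refine ⟨-64 * (u2 * (B₂ ^ 2 + B₂ * (l ^ 2 * W.b₂) + (l ^ 2 * W.b₂) ^ 2))
        + 36 * 64 * (u2 * B₄) + 36 * 8 * (l ^ 2 * W.b₂ * u8) - 64 * u6, ?_⟩
      linear_combination
        (-(B₂ ^ 2 + B₂ * (l ^ 2 * W.b₂) + (l ^ 2 * W.b₂) ^ 2) + 36 * B₄) * hu2
        + 36 * (l ^ 2 * W.b₂) * hu8 - hu6 - l ^ 6 * ec - hB₆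
    omega
  -- coefficients
  set A₁ : ℤ := l * W.a₁ with hA₁
  set A₃ : ℤ := l ^ 3 * W.a₃ with hA₃
  obtain ⟨A₂, hA₂⟩ : (4 : ℤ) ∣ B₂ - A₁ ^ 2 :=
    ⟨512 * u2 + l ^ 2 * W.a₂, by
      have ec : W.b₂ = W.a₁ ^ 2 + 4 * W.a₂ := rfl
      rw [hA₁]; linear_combination hu2 + l ^ 2 * ec⟩
  obtain ⟨A₄, hA₄⟩ : (2 : ℤ) ∣ B₄ - A₁ * A₃ := by
    obtain ⟨u8, hu8⟩ := hB4
    exact ⟨128 * u8 + l ^ 4 * W.a₄, by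
      have ec : W.b₄ = 2 * W.a₄ + W.a₁ * W.a₃ := rfl
      rw [hA₁, hA₃]; linear_combination hu8 + l ^ 4 * ec⟩
  obtain ⟨A₆, hA₆⟩ : (4 : ℤ) ∣ B₆ - A₃ ^ 2 := by
    obtain ⟨u, hu⟩ := hB6
    exact ⟨u + l ^ 6 * W.a₆, by
      have ec : W.b₆ = W.a₃ ^ 2 + 4 * W.a₆ := rfl
      rw [hA₃]; linear_combination hu + l ^ 6 * ec⟩
  refine ⟨⟨A₁, A₂, A₃, A₄, A₆⟩, ?_⟩
  set W' : WeierstrassCurve ℤ := ⟨A₁, A₂, A₃, A₄, A₆⟩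
  have e2 : W'.b₂ = B₂ := by
    show A₁ ^ 2 + 4 * A₂ = B₂
    linear_combination -hA₂
  have e4 : W'.b₄ = B₄ := by
    show 2 * A₄ + A₁ * A₃ = B₄
    linear_combination -hA₄
  have e6 : W'.b₆ = B₆ := by
    show A₃ ^ 2 + 4 * A₆ = B₆
    linear_combination -hA₆
  have c4 : W'.c₄ = G₄ := by rw [WeierstrassCurve.c₄, e2, e4]; linear_combination hB₄
  have c6 : W'.c₆ = G₆ := by rw [WeierstrassCurve.c₆, e2, e4, e6]; linear_combination hB₆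
  refine ⟨c4, c6, mul_left_cancel₀ (show (1728 : ℤ) ≠ 0 by norm_num) ?_⟩
  rw [W'.c_relation, c4, c6, hrel]

end Fermat.Agent.LT.C0
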