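import Fermat.Agent.LT.C0.CuspCert
import Fermat.Agent.LT.C0.Pair
import Fermat.Agent.LT.C0.Model
import Fermat.Agent.LT.C0.Defs
import Fermat.Prelude.Def_FLTPrelim_Modularity

/-!
# The switched curves when `3` divides the discriminant

For a semistable `W` with `3 ^ 10 ∣ Δ` the members of the family with the same `5`-torsion
at suitable parameters `(a, b₀ + N k)` have semistable integral models, multiplicative at `3`, with
discriminant in the cube class at `3`.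
-/

set_option autoImplicit false

open WeierstrassCurve

namespace Fermat.Agent.LT.C0

theorem fourExplicit_mul {R : Type*} [CommRing R] (C₄ C₆ a b c : R) :
    fourExplicit C₄ C₆ (c * a) (c * b) = c ^ 20 * fourExplicit C₄ C₆ a b := by
  simp only [fourExplicit]; ring

theorem cuspPoly_mul {R : Type*} [CommRing R] (C₄ C₆ a b c : R) :
    cuspPoly C₄ C₆ (c * a) (c * b) = c ^ 12 * cuspPoly C₄ C₆ a b := by
  simp only [cuspPoly]; ring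

theorem explicit_zero_one {R : Type*} [CommRing R] (C₄ C₆ : R) :
    fourExplicit C₄ C₆ 0 1 = C₄ ∧ sixExplicit C₄ C₆ 0 1 = C₆ ∧ cuspPoly C₄ C₆ 0 1 = 1 := by
  refine ⟨?_, ?_, ?_⟩
  · simp [fourExplicit]
  · simp [sixExplicit]
  · simp [cuspPoly]

/-- Near `(0, 1)` the family is the curve itself. -/
theorem explicit_congr_self (C₄ C₆ : ℤ) {a b : ℤ} (n : ℕ) (ha : (n : ℤ) ∣ a)
    (hb : (n : ℤ) ∣ b - 1) :
    (n : ℤ) ∣ fourExplicit C₄ C₆ a b - C₄ ∧ (n : ℤ) ∣ sixExplicit C₄ C₆ a b - C₆ ∧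
      (n : ℤ) ∣ cuspPoly C₄ C₆ a b - 1 := by
  let φ := Int.castRingHom (ZMod n)
  have ha' : φ a = 0 := (ZMod.intCast_zmod_eq_zero_iff_dvd a n).2 ha
  have hb' : φ b = 1 := by
    have h := (ZMod.intCast_zmod_eq_zero_iff_dvd (b - 1) n).2 hb
    rwa [Int.cast_sub, Int.cast_one, sub_eq_zero] at h
  obtain ⟨h4, h6, hc⟩ := explicit_zero_one (φ C₄) (φ C₆)
  refine ⟨?_, ?_, ?_⟩ <;> refine (ZMod.intCast_zmod_eq_zero_iff_dvd _ n).1 ?_
  · show φ (fourExplicit C₄ C₆ a b - C₄) = 0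
    rw [map_sub, map_fourExplicit, ha', hb', h4, sub_self]
  · show φ (sixExplicit C₄ C₆ a b - C₆) = 0
    rw [map_sub, map_sixExplicit, ha', hb', h6, sub_self]
  · show φ (cuspPoly C₄ C₆ a b - 1) = 0
    rw [map_sub, map_cuspPoly, ha', hb', hc, map_one, sub_self]

/-- Near the cusp the family is highly divisible by `3`. -/
theorem explicit_congr_cusp {C₄ C₆ : ℤ} (h : (3 : ℤ) ^ 13 ∣ C₄ ^ 3 - C₆ ^ 2) {a b c r : ℤ}
    (ha : (3 : ℤ) ^ 22 ∣ a - c * C₄) (hb : (3 : ℤ) ^ 22 ∣ b + c * C₆ * (11 + 9 * r)) :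
    (3 : ℤ) ^ 22 ∣
        fourExplicit C₄ C₆ a b - c ^ 20 * C₄ * (C₆ ^ 2) ^ 10 * (12 + 9 * r) ^ 20 ∧
      (3 : ℤ) ^ 22 ∣
        cuspPoly C₄ C₆ a b - c ^ 12 * (C₆ ^ 2) ^ 6 * ((12 + 9 * r) ^ 11 * (9 * r)) := by
  obtain ⟨e, he⟩ := h
  let φ := Int.castRingHom (ZMod (3 ^ 22))
  have hz : ∀ z : ℤ, φ z = 0 ↔ (3 : ℤ) ^ 22 ∣ z := fun z => by
    have h := ZMod.intCast_zmod_eq_zero_iff_dvd z (3 ^ 22)
    rw [Nat.cast_pow] at h
    exact h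
  have ha' : φ a = φ (c * C₄) := by
    rw [← sub_eq_zero, ← map_sub, hz]
    exact ha
  have hb' : φ b = φ (c * (-C₆ * (11 + 9 * r))) := by
    rw [← sub_eq_zero, ← map_sub, hz, show b - c * (-C₆ * (11 + 9 * r)) =
      b + c * C₆ * (11 + 9 * r) by ring]
    exact hb
  have hC : C₄ ^ 3 = C₆ ^ 2 + 3 ^ 13 * e := by rw [← he]; ring
  have h31 : φ ((3 : ℤ) ^ 31) = 0 := (hz _).2 (pow_dvd_pow 3 (by norm_num))
  have h22 : φ ((3 : ℤ) ^ 22) = 0 := (hz _).2 dvd_rfl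
  constructor
  · rw [← hz, map_sub, map_fourExplicit, ha', hb', ← map_fourExplicit, ← map_sub, hz,
      fourExplicit_mul, fourHom_eq, hC, fourHom_expand]
    exact ⟨c ^ 20 * C₄ * 3 ^ 9 * e * fourErr (C₆ ^ 2) e r, by ring⟩
  · rw [← hz, map_sub, map_cuspPoly, ha', hb', ← map_cuspPoly, ← map_sub, hz, cuspPoly_mul,
      cuspHom_eq, hC, cuspHom_expand]
    exact ⟨c ^ 12 * e * cuspErr (C₆ ^ 2) e r, by ring⟩

private lemma exists_class : ∀ (d : ZMod 9) (j : Fin 3), d ^ 6 = 1 →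
    ∃ u : ZMod 9, u ^ 6 = 1 ∧
      (d * (4 + 3 * (3 ^ (j : ℕ) * u)) * u ^ 5 = 1 ∨
        d * (4 + 3 * (3 ^ (j : ℕ) * u)) * u ^ 5 = -1) := by
  decide

private lemma unit_nine {z : ℤ} (h : ¬ (3 : ℤ) ∣ z) : (z : ZMod 9) ^ 6 = 1 := by
  have key : ∀ x : ZMod 9, (ZMod.castHom (show 3 ∣ 9 by norm_num) (ZMod 3) x) ≠ 0 → x ^ 6 = 1 := by
    decide
  refine key _ ?_
  rw [map_intCast]
  exact fun h0 => h ((ZMod.intCast_zmod_eq_zero_iff_dvd z 3).1 h0)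

private lemma not_three_dvd_of_unit {z : ℤ} (h : (z : ZMod 9) ^ 6 = 1) : ¬ (3 : ℤ) ∣ z := by
  rintro ⟨w, rfl⟩
  have key : ∀ x : ZMod 9, (3 * x) ^ 6 ≠ 1 := by decide
  refine key (w : ZMod 9) ?_
  push_cast at h
  exact h

/-- The switched curves. -/
theorem exists_switch_three (W : WeierstrassCurve ℤ) (hW : W.IsSemistableModel) (hΔ : W.Δ ≠ 0)
    (h3 : (3 : ℤ) ^ 10 ∣ W.Δ) :
    ∃ (a b₀ : ℤ) (N : ℕ), a ≠ 0 ∧ 0 < N ∧ ∀ k : ℤ, ∃ W' : WeierstrassCurve ℤ,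
      (3 : ℤ) ^ 20 * W'.c₄ = fourExplicit W.c₄ W.c₆ a (b₀ + N * k) ∧
      (3 : ℤ) ^ 30 * W'.c₆ = sixExplicit W.c₄ W.c₆ a (b₀ + N * k) ∧
      W'.Δ ≠ 0 ∧ W'.IsSemistableModel ∧ (3 : ℤ) ∣ W'.Δ ∧ ¬ (3 : ℤ) ∣ W'.c₄ ∧
      IsCubeClassThree W'.Δ := by
  obtain ⟨v, d, hd, hD⟩ := (Int.finiteMultiplicity_iff.2 ⟨by norm_num, hΔ⟩ :
    FiniteMultiplicity (3 : ℤ) W.Δ).exists_eq_pow_mul_and_not_dvd |>
      fun ⟨d, h1, h2⟩ => (⟨_, d, h2, h1⟩ : ∃ (v : ℕ) (d : ℤ), ¬ (3 : ℤ) ∣ d ∧ W.Δ = 3 ^ v * d)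
  have hv : 10 ≤ v := by
    by_contra hlt
    push Not at hlt
    apply hd
    obtain ⟨e, he⟩ := h3
    refine ⟨3 ^ (9 - v) * e, mul_left_cancel₀ (pow_ne_zero v (show (3 : ℤ) ≠ 0 by norm_num)) ?_⟩
    rw [← hD, he, ← mul_assoc, ← mul_assoc, ← pow_succ, ← pow_add]
    congr 2
    omega
  have hC4 : ¬ (3 : ℤ) ∣ W.c₄ :=
    hW 3 Nat.prime_three ((dvd_pow_self (3 : ℤ) (by norm_num)).trans h3)
  have h13 : (3 : ℤ) ^ 13 ∣ W.c₄ ^ 3 - W.c₆ ^ 2 := by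
    rw [← W.c_relation, show (1728 : ℤ) = 3 ^ 3 * 64 by norm_num, hD]
    refine (pow_dvd_pow 3 (show 13 ≤ 3 + v by omega)).trans ⟨64 * d, ?_⟩
    rw [pow_add]; ring
  have hC6 : ¬ (3 : ℤ) ∣ W.c₆ := fun h => hC4 (Int.prime_three.dvd_of_dvd_pow (n := 3)
    ((dvd_sub_left (dvd_pow h two_ne_zero)).1 ((dvd_pow_self 3 (by norm_num)).trans h13)))
  -- the parameters
  set a : ℤ := (10 * d) ^ 22 with ha
  have hd0 : d ≠ 0 := fun h => hd (h ▸ dvd_zero _)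
  have ha0 : a ≠ 0 := pow_ne_zero _ (mul_ne_zero (by norm_num) hd0)
  have h3a : ¬ (3 : ℤ) ∣ a := fun h => by
    rcases Int.prime_three.dvd_or_dvd (Int.prime_three.dvd_of_dvd_pow h) with h | h
    · norm_num at h
    · exact hd h
  obtain ⟨i₄, j₄, h₄⟩ : IsCoprime ((3 : ℤ) ^ 22) W.c₄ :=
    (Int.prime_three.coprime_iff_not_dvd.mpr hC4).pow_left
  set c : ℤ := a * j₄ with hc
  have hac : (3 : ℤ) ^ 22 ∣ a - c * W.c₄ := ⟨a * i₄, by rw [hc]; linear_combination -a * h₄⟩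
  have hc3 : ¬ (3 : ℤ) ∣ c := fun h => h3a <| by
    have := (dvd_sub_left (h.mul_right W.c₄)).1 ((dvd_pow_self (3 : ℤ) (by norm_num)).trans hac)
    exact this
  obtain ⟨i, j', hij⟩ : IsCoprime ((3 : ℤ) ^ 22) a :=
    (Int.prime_three.coprime_iff_not_dvd.mpr h3a).pow_left
  set j : ℕ := (v + 2) % 3 with hj
  obtain ⟨u₀, hu₀, hu₀'⟩ := exists_class (d : ZMod 9) ⟨j, Nat.mod_lt _ (by norm_num)⟩
    (unit_nine hd)
  obtain ⟨u, rfl⟩ := ZMod.intCast_surjective u₀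
  set r : ℤ := 3 ^ j * u with hr
  set t : ℤ := -(c * W.c₆ * (11 + 9 * r)) with ht
  refine ⟨a, t * (j' * a) + i * 3 ^ 22, (3 ^ 22 * a).natAbs, ha0,
    Int.natAbs_pos.2 (mul_ne_zero (by norm_num) ha0), fun k => ?_⟩
  set N : ℤ := ((3 ^ 22 * a).natAbs : ℤ) with hN
  have hNdvd : (3 : ℤ) ^ 22 * a ∣ N := Int.dvd_natAbs.2 dvd_rfl
  set b : ℤ := t * (j' * a) + i * 3 ^ 22 + N * k with hb
  have hb3 : (3 : ℤ) ^ 22 ∣ b + c * W.c₆ * (11 + 9 * r) := by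
    have e : b + c * W.c₆ * (11 + 9 * r) = N * k + 3 ^ 22 * (i - t * i) := by
      rw [hb, ht]
      linear_combination (-(c * W.c₆ * (11 + 9 * r))) * hij
    rw [e]
    exact dvd_add (((dvd_mul_right _ a).trans hNdvd).mul_right k) (dvd_mul_right _ _)
  have hba : a ∣ b - 1 := by
    have e : b - 1 = N * k + a * (t * j' - j') := by
      rw [hb]; linear_combination hij
    rw [e]
    exact dvd_add (((dvd_mul_left a _).trans hNdvd).mul_right k) (dvd_mul_right _ _)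
  obtain ⟨h4c, hFc⟩ := explicit_congr_cusp h13 hac hb3
  set X₄ := fourExplicit W.c₄ W.c₆ a b with hX₄
  set X₆ := sixExplicit W.c₄ W.c₆ a b with hX₆
  set F := cuspPoly W.c₄ W.c₆ a b with hF
  -- at `3`
  obtain ⟨g, hg⟩ := h4c
  obtain ⟨G₄, hG₄⟩ : (3 : ℤ) ^ 20 ∣ X₄ :=
    ⟨c ^ 20 * W.c₄ * (W.c₆ ^ 2) ^ 10 * (4 + 3 * r) ^ 20 + 9 * g, by linear_combination hg⟩
  have hG₄' : G₄ = c ^ 20 * W.c₄ * (W.c₆ ^ 2) ^ 10 * (4 + 3 * r) ^ 20 + 9 * g :=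
    mul_left_cancel₀ (pow_ne_zero 20 (show (3 : ℤ) ≠ 0 by norm_num))
      (by linear_combination hg - hG₄)
  have h4r : ¬ (3 : ℤ) ∣ 4 + 3 * r := fun h => by
    have := (dvd_add_left (dvd_mul_right _ r)).1 h
    norm_num at this
  have hG3 : ¬ (3 : ℤ) ∣ G₄ := fun h => by
    rw [hG₄', dvd_add_left (dvd_mul_of_dvd_left (by norm_num) g)] at h
    simp only [Int.prime_three.dvd_mul, Int.prime_three.dvd_pow_iff_dvd (show 20 ≠ 0 by norm_num),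
      Int.prime_three.dvd_pow_iff_dvd (show 10 ≠ 0 by norm_num),
      Int.prime_three.dvd_pow_iff_dvd (show 2 ≠ 0 by norm_num)] at h
    tauto
  obtain ⟨g', hg'⟩ := hFc
  obtain ⟨f, hf, hf9⟩ : ∃ f : ℤ, F = 3 ^ (13 + j) * f ∧
      (f : ZMod 9) = (4 + 3 * (3 ^ j * (u : ZMod 9))) ^ 11 * (u : ZMod 9) := by
    refine ⟨c ^ 12 * (W.c₆ ^ 2) ^ 6 * (4 + 3 * r) ^ 11 * u + 3 ^ (9 - j) * g', ?_, ?_⟩
    · have e : (3 : ℤ) ^ (13 + j) * (3 ^ (9 - j) * g') = 3 ^ 22 * g' := by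
        rw [← mul_assoc, ← pow_add]
        congr 2
        omega
      rw [mul_add, e, pow_add]
      linear_combination hg'
        + c ^ 12 * (W.c₆ ^ 2) ^ 6 * ((12 + 9 * r) ^ 11 * 9) * hr
    · have e9 : ((3 : ZMod 9) ^ (9 - j)) = 0 := by
        obtain ⟨e, he⟩ := pow_dvd_pow (3 : ZMod 9) (show 2 ≤ 9 - j by omega)
        rw [he, show (3 : ZMod 9) ^ 2 = 0 by decide, zero_mul]
      push_cast
      rw [e9, hr]
      push_cast
      rw [show (c : ZMod 9) ^ 12 = ((c : ZMod 9) ^ 6) ^ 2 by ring, unit_nine hc3,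
        show ((W.c₆ : ZMod 9) ^ 2) ^ 6 = ((W.c₆ : ZMod 9) ^ 6) ^ 2 by ring, unit_nine hC6]
      ring
  have hf3 : ¬ (3 : ℤ) ∣ f := by
    refine not_three_dvd_of_unit ?_
    rw [hf9]
    have h4u : (4 + 3 * (3 ^ j * (u : ZMod 9))) ^ 6 = 1 := by
      have h := unit_nine h4r
      rw [hr] at h
      push_cast at h
      exact h
    rw [mul_pow, ← pow_mul, mul_comm 11 6, pow_mul, h4u, hu₀, one_pow, one_mul]
  -- the discriminant
  have hrel := explicit_relation hΔ W.c_relation.symm a b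
  rw [← hX₄, ← hX₆, ← hF] at hrel
  set D' : ℤ := 3 ^ (v + 5 + 5 * j) * (d * f ^ 5) with hD'
  have hDF : W.Δ * F ^ 5 = 3 ^ 60 * D' := by
    rw [hD', hD, hf, mul_pow, ← pow_mul, show (13 + j) * 5 = 65 + 5 * j by ring]
    ring
  obtain ⟨G₆, hG₆⟩ : (3 : ℤ) ^ 30 ∣ X₆ := by
    refine (Int.pow_dvd_pow_iff (show 2 ≠ 0 by norm_num)).1 ⟨G₄ ^ 3 - 1728 * D', ?_⟩
    rw [hG₄, hDF] at hrel
    linear_combination -hrel
  have hrel' : G₄ ^ 3 - G₆ ^ 2 = 1728 * D' := by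
    rw [hG₄, hG₆, hDF] at hrel
    exact mul_left_cancel₀ (pow_ne_zero 60 (show (3 : ℤ) ≠ 0 by norm_num))
      (by linear_combination hrel)
  have h3D : (3 : ℤ) ∣ D' := dvd_mul_of_dvd_left (dvd_pow_self 3 (by omega)) _
  -- at `2`
  obtain ⟨i₂, l, hl⟩ : IsCoprime ((2 : ℤ) ^ 11) (3 ^ 5) := by
    rw [Int.isCoprime_iff_gcd_eq_one]; norm_num
  have h2a : ((2 ^ 11 : ℕ) : ℤ) ∣ a := by
    rw [Nat.cast_pow, ha]
    exact (pow_dvd_pow 2 (by norm_num : 11 ≤ 22)).trans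
      (pow_dvd_pow_of_dvd (dvd_mul_of_dvd_left (by norm_num) _) 22)
  obtain ⟨h24, h26, -⟩ := explicit_congr_self W.c₄ W.c₆ (2 ^ 11) h2a (h2a.trans hba)
  rw [Nat.cast_pow, Nat.cast_ofNat] at h24 h26
  have hcop : IsCoprime ((2 : ℤ) ^ 11) 3 := by rw [Int.isCoprime_iff_gcd_eq_one]; norm_num
  have hlu : (2 : ℤ) ^ 11 ∣ l * 3 ^ 5 - 1 := ⟨-i₂, by linear_combination hl⟩
  have h4m : (2 : ℤ) ^ 11 ∣ G₄ - l ^ 4 * W.c₄ := by
    refine (hcop.pow_right (n := 20)).dvd_of_dvd_mul_left ?_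
    rw [show 3 ^ 20 * (G₄ - l ^ 4 * W.c₄) = (X₄ - W.c₄) - ((l * 3 ^ 5) ^ 4 - 1 ^ 4) * W.c₄ by
      rw [hG₄]; ring]
    exact dvd_sub h24 ((hlu.trans (sub_dvd_pow_sub_pow _ _ 4)).mul_right _)
  have h6m : (2 : ℤ) ^ 11 ∣ G₆ - l ^ 6 * W.c₆ := by
    refine (hcop.pow_right (n := 30)).dvd_of_dvd_mul_left ?_
    rw [show 3 ^ 30 * (G₆ - l ^ 6 * W.c₆) = (X₆ - W.c₆) - ((l * 3 ^ 5) ^ 6 - 1 ^ 6) * W.c₆ by
      rw [hG₆]; ring]
    exact dvd_sub h26 ((hlu.trans (sub_dvd_pow_sub_pow _ _ 6)).mul_right _)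
  obtain ⟨W', e4, e6, eD⟩ := exists_integral_model W hrel' hG3 h3D h4m h6m
  refine ⟨W', by rw [e4, ← hG₄], by rw [e6, ← hG₆], ?_, ?_, by rwa [eD], by rwa [e4], ?_⟩
  · rw [eD]
    refine mul_ne_zero (pow_ne_zero _ (by norm_num)) (mul_ne_zero hd0 (pow_ne_zero _ ?_))
    exact fun h => hf3 (h ▸ dvd_zero _)
  · intro q hq hqD hq4
    rw [eD] at hqD
    rw [e4] at hq4
    by_cases hq3 : q = 3
    · subst hq3; exact hG3 hq4
    have hqX : (q : ℤ) ∣ X₄ := hG₄ ▸ dvd_mul_of_dvd_right hq4 _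
    have hqF : (q : ℤ) ∣ W.Δ ∨ (q : ℤ) ∣ F :=
      ((Nat.prime_iff_prime_int.1 hq).dvd_or_dvd (hDF ▸ dvd_mul_of_dvd_right hqD _)).imp id
        (Nat.prime_iff_prime_int.1 hq).dvd_of_dvd_pow
    by_cases hqa : (q : ℤ) ∣ a
    · obtain ⟨k4, -, kF⟩ := explicit_congr_self W.c₄ W.c₆ q hqa (hqa.trans hba)
      have hq4' : (q : ℤ) ∣ W.c₄ := (dvd_sub_right hqX).1 k4
      rcases hqF with h | h
      · exact hW q hq h hq4'
      · exact (Nat.prime_iff_prime_int.1 hq).not_dvd_one ((dvd_sub_right h).1 kF)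
    · have hq10 : ∀ z : ℤ, (q : ℤ) ∣ z → ¬ z ∣ 10 * d := fun z hz hz' =>
        hqa (dvd_pow (hz.trans hz') (by norm_num))
      have hq2 : q ≠ 2 := fun h => hq10 2 (by simp [h]) (dvd_mul_of_dvd_left (by norm_num) _)
      have hq5 : q ≠ 5 := fun h => hq10 5 (by simp [h]) (dvd_mul_of_dvd_left (by norm_num) _)
      have hqD' : ¬ (q : ℤ) ∣ W.Δ := fun h => by
        rw [hD] at h
        rcases (Nat.prime_iff_prime_int.1 hq).dvd_or_dvd h with h | h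
        · exact hq3 ((Nat.prime_dvd_prime_iff_eq hq Nat.prime_three).1
            (Int.natCast_dvd_natCast.1 ((Nat.prime_iff_prime_int.1 hq).dvd_of_dvd_pow h)))
        · exact hq10 d h (dvd_mul_left _ _)
      exact not_dvd_explicit W.c_relation.symm hq ⟨hq2, hq3, hq5⟩ hqD' hqa
        ⟨hqX, hqF.resolve_left hqD'⟩
  · rw [eD, hD']
    obtain ⟨m, hm⟩ : 3 ∣ v + 5 + 5 * j := by omega
    refine ⟨m, d * f ^ 5, by rw [hm], ?_⟩
    have e : (d : ZMod 9) * (f : ZMod 9) ^ 5 =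
        (d : ZMod 9) * (4 + 3 * (3 ^ j * (u : ZMod 9))) * (u : ZMod 9) ^ 5 := by
      rw [hf9, mul_pow, ← pow_mul]
      have h6 : (4 + 3 * (3 ^ j * (u : ZMod 9))) ^ 6 = 1 := by
        have h := unit_nine h4r
        rw [hr] at h
        push_cast at h
        exact h
      rw [show (11 * 5 : ℕ) = 6 * 9 + 1 by norm_num, pow_succ, pow_mul, h6, one_pow, one_mul,
        mul_assoc]
    rcases hu₀' with h | h
    · exact Or.inl ((ZMod.intCast_zmod_eq_zero_iff_dvd _ 9).1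
        (by push_cast; rw [e, h, sub_self]))
    · exact Or.inr ((ZMod.intCast_zmod_eq_zero_iff_dvd _ 9).1
        (by push_cast; rw [e, h, neg_add_cancel]))

end Fermat.Agent.LT.C0
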