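import Fermat.Agent.LT.C0.Defs
import Fermat.Agent.EC35.Reducible
import Fermat.Agent.Wiring.FreyModel

/-!
# Good supersingular reduction at `3`

If `3 ∤ Δ` and `3 ∣ c₄` the discriminant is `±1` modulo `9` and the mod `3` representation is
irreducible. Frey curves with `3 ∤ abc` are of this kind.
-/

set_option autoImplicit false

open WeierstrassCurve

namespace Fermat.Agent.LT.C0

lemma three_dvd_b₂ {W : WeierstrassCurve ℤ} (h4 : (3 : ℤ) ∣ W.c₄) : (3 : ℤ) ∣ W.b₂ := by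
  refine Int.prime_three.dvd_of_dvd_pow (n := 2) ?_
  rw [show W.b₂ ^ 2 = W.c₄ + 3 * (8 * W.b₄) by rw [WeierstrassCurve.c₄]; ring]
  exact dvd_add h4 (dvd_mul_right _ _)

lemma pow_three_dvd_c₆ {W : WeierstrassCurve ℤ} (h4 : (3 : ℤ) ∣ W.c₄) :
    (3 : ℤ) ^ 3 ∣ W.c₆ := by
  obtain ⟨k, hk⟩ := three_dvd_b₂ h4
  refine ⟨-k ^ 3 + 4 * k * W.b₄ - 8 * W.b₆, ?_⟩
  rw [WeierstrassCurve.c₆, hk]
  ring

lemma cubeClass_of_supersingular {W : WeierstrassCurve ℤ} (hΔ : ¬ (3 : ℤ) ∣ W.Δ)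
    (h4 : (3 : ℤ) ∣ W.c₄) : IsCubeClassThree W.Δ := by
  obtain ⟨k, hk⟩ := three_dvd_b₂ h4
  refine ⟨0, W.Δ, by simp, ?_⟩
  have e : W.Δ = -8 * W.b₄ ^ 3
      + 9 * (-k ^ 2 * W.b₈ - 3 * W.b₆ ^ 2 + 3 * k * W.b₄ * W.b₆) := by
    rw [WeierstrassCurve.Δ, hk]
    ring
  have key : ((W.Δ : ℤ) : ZMod 9) = (W.b₄ : ZMod 9) ^ 3 := by
    have h9 : (9 : ZMod 9) = 0 := by decide
    have h8 : (-8 : ZMod 9) = 1 := by decide
    rw [e]
    push_cast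
    rw [h9, h8]
    ring
  have hb : ¬ (3 : ℤ) ∣ W.b₄ := by
    intro h
    refine hΔ ?_
    rw [e]
    exact dvd_add (dvd_mul_of_dvd_right (dvd_pow h (by norm_num)) _)
      (dvd_mul_of_dvd_left (by norm_num) _)
  have hcube : ∀ x : ZMod 9, x ^ 3 = 0 ∨ x ^ 3 = 1 ∨ x ^ 3 = -1 := by decide
  rcases hcube (W.b₄ : ZMod 9) with h | h | h
  · exfalso
    refine hb (Int.prime_three.dvd_of_dvd_pow (n := 3) (dvd_trans (by norm_num : (3 : ℤ) ∣ 9) ?_))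
    exact (ZMod.intCast_zmod_eq_zero_iff_dvd _ 9).mp (by push_cast; exact h)
  · left
    exact (ZMod.intCast_zmod_eq_zero_iff_dvd _ 9).mp (by push_cast; rw [key, h, sub_self])
  · right
    exact (ZMod.intCast_zmod_eq_zero_iff_dvd _ 9).mp (by push_cast; rw [key, h, neg_add_cancel])

/-- Good supersingular reduction at `3` makes the mod `3` representation irreducible. -/
theorem irreducible_three_of_supersingular {W : WeierstrassCurve ℤ} (hΔ : ¬ (3 : ℤ) ∣ W.Δ)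
    (h4 : (3 : ℤ) ∣ W.c₄) : W.ModRepIsIrreducible 3 := by
  by_contra hred
  have hΔ0 : W.Δ ≠ 0 := fun h => hΔ (h ▸ dvd_zero _)
  set E : WeierstrassCurve ℚ := W.map (Int.castRingHom ℚ) with hE
  have hD : E.Δ = (W.Δ : ℚ) := by simp [hE]
  have hc4 : E.c₄ = (W.c₄ : ℚ) := by simp [hE]
  have hc6 : E.c₆ = (W.c₆ : ℚ) := by simp [hE]
  obtain ⟨t, ht, et⟩ :=
    EC35.exists_three_param_of_reducible (by rw [hD]; exact_mod_cast hΔ0) hred
  have e6 : E.c₆ ^ 2 * t = E.Δ * (t ^ 2 + 18 * t - 27) ^ 2 := by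
    linear_combination et + t * E.c_relation
  rw [hD, hc4] at et
  rw [hD, hc6] at e6
  set a : ℤ := t.num with ha
  set b : ℤ := (t.den : ℤ) with hb
  have hb0 : (b : ℚ) ≠ 0 := by simp [hb]
  have htab : t = (a : ℚ) / b := by simp [ha, hb, t.num_div_den]
  have hcop : ¬ ((3 : ℤ) ∣ a ∧ (3 : ℤ) ∣ b) := by
    rintro ⟨h1, h2⟩
    have h : (3 : ℕ) ∣ 1 := by
      rw [← t.reduced]
      exact Nat.dvd_gcd (Int.natCast_dvd.mp h1) (Int.natCast_dvd_natCast.mp h2)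
    norm_num at h
  rw [htab] at et e6
  field_simp at et e6
  have E4 : W.c₄ ^ 3 * (a * b ^ 3) = W.Δ * ((a + 27 * b) * (a + 3 * b) ^ 3) := by
    have : (W.c₄ : ℚ) ^ 3 * (a * b ^ 3) = W.Δ * ((a + 27 * b) * (a + 3 * b) ^ 3) := by
      linear_combination et
    exact_mod_cast this
  have E6 : W.c₆ ^ 2 * (a * b ^ 3) = W.Δ * (a ^ 2 + 18 * a * b - 27 * b ^ 2) ^ 2 := by
    have : (W.c₆ : ℚ) ^ 2 * (a * b ^ 3) = W.Δ * (a ^ 2 + 18 * a * b - 27 * b ^ 2) ^ 2 := by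
      linear_combination e6
    exact_mod_cast this
  have h3 : Prime (3 : ℤ) := Int.prime_three
  obtain ⟨c, hc⟩ := h4
  obtain ⟨d, hd⟩ := pow_three_dvd_c₆ ⟨c, hc⟩
  have hda : (3 : ℤ) ∣ a := by
    have h : (3 : ℤ) ∣ W.Δ * ((a + 27 * b) * (a + 3 * b) ^ 3) :=
      E4 ▸ ⟨9 * c ^ 3 * (a * b ^ 3), by rw [hc]; ring⟩
    rcases h3.dvd_or_dvd ((h3.dvd_or_dvd h).resolve_left hΔ) with h | h
    · exact (dvd_add_left ⟨9 * b, by ring⟩).mp h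
    · exact (dvd_add_left (dvd_mul_right _ _)).mp (h3.dvd_of_dvd_pow h)
  have hnb : ¬ (3 : ℤ) ∣ b := fun h => hcop ⟨hda, h⟩
  obtain ⟨a₁, ha₁⟩ := hda
  rw [hd, ha₁] at E6
  have hda₁ : (3 : ℤ) ∣ a₁ := by
    have e : W.Δ * (a₁ ^ 2 + 6 * a₁ * b - 3 * b ^ 2) ^ 2 = 3 * (9 * d ^ 2 * a₁ * b ^ 3) := by
      apply mul_left_cancel₀ (show (81 : ℤ) ≠ 0 by norm_num)
      linear_combination -E6
    have h := h3.dvd_of_dvd_pow ((h3.dvd_or_dvd (e ▸ dvd_mul_right 3 _)).resolve_left hΔ)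
    refine h3.dvd_of_dvd_pow (n := 2) ?_
    have h' := dvd_sub h (dvd_mul_right (3 : ℤ) (2 * a₁ * b - b ^ 2))
    rwa [show a₁ ^ 2 + 6 * a₁ * b - 3 * b ^ 2 - 3 * (2 * a₁ * b - b ^ 2) = a₁ ^ 2 by ring] at h'
  obtain ⟨a₂, ha₂⟩ := hda₁
  rw [ha₂] at E6
  have e : W.Δ * (3 * a₂ ^ 2 + 6 * a₂ * b - b ^ 2) ^ 2 = 3 * (3 * d ^ 2 * a₂ * b ^ 3) := by
    apply mul_left_cancel₀ (show (729 : ℤ) ≠ 0 by norm_num)
    linear_combination -E6
  have h := h3.dvd_of_dvd_pow ((h3.dvd_or_dvd (e ▸ dvd_mul_right 3 _)).resolve_left hΔ)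
  refine hnb (h3.dvd_of_dvd_pow (n := 2) ?_)
  have h' := dvd_sub (dvd_mul_right (3 : ℤ) (a₂ ^ 2 + 2 * a₂ * b)) h
  rwa [show 3 * (a₂ ^ 2 + 2 * a₂ * b) - (3 * a₂ ^ 2 + 6 * a₂ * b - b ^ 2) = b ^ 2 by ring] at h'

/-- A supersingular model is admissible. -/
theorem isThreeAdmissible_of_supersingular {W : WeierstrassCurve ℤ} (hW : W.IsSemistableModel)
    (hΔ : ¬ (3 : ℤ) ∣ W.Δ) (h4 : (3 : ℤ) ∣ W.c₄) : IsThreeAdmissible W where
  delta_ne_zero := fun h => hΔ (h ▸ dvd_zero _)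
  semistable := hW
  irreducible := irreducible_three_of_supersingular hΔ h4
  cube := cubeClass_of_supersingular hΔ h4
  local_three := Or.inl ⟨hΔ, h4⟩

/-- A Frey curve with `3 ∤ abc` is good supersingular at `3`, hence admissible. -/
theorem frey_isThreeAdmissible (P : FreyPackage) (h : ¬ (3 : ℤ) ∣ P.a * P.b * P.c) :
    IsThreeAdmissible P.freyCurveInt := by
  refine isThreeAdmissible_of_supersingular (Wiring.freyCurveInt_isSemistableModel P) ?_ ?_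
  · intro hd
    exact h (Wiring.prime_dvd_abc_of_dvd_delta P Nat.prime_three hd)
  · rw [(Wiring.freyCurveInt_invariants P).2]
    have ha : ¬ (3 : ℤ) ∣ P.a ^ P.p := fun h' =>
      h ((((Int.prime_three.dvd_of_dvd_pow h').mul_right P.b)).mul_right P.c)
    have hb : ¬ (3 : ℤ) ∣ P.b ^ P.p := fun h' =>
      h (((dvd_mul_of_dvd_right (Int.prime_three.dvd_of_dvd_pow h') P.a)).mul_right P.c)
    have hc : ¬ (3 : ℤ) ∣ P.a ^ P.p + P.b ^ P.p := fun h' =>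
      h (dvd_mul_of_dvd_right (Int.prime_three.dvd_of_dvd_pow (P.hFLT ▸ h')) _)
    revert ha hb hc
    generalize P.a ^ P.p = A
    generalize P.b ^ P.p = B
    have key : ∀ x y : ZMod 3, x ≠ 0 → y ≠ 0 → x + y ≠ 0 → x ^ 2 + x * y + y ^ 2 = 0 := by
      decide
    intro ha hb hc
    have z : ∀ n : ℤ, ¬ (3 : ℤ) ∣ n → (n : ZMod 3) ≠ 0 := fun n hn h0 =>
      hn ((ZMod.intCast_zmod_eq_zero_iff_dvd n 3).mp h0)
    refine (ZMod.intCast_zmod_eq_zero_iff_dvd _ 3).mp ?_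
    push_cast
    exact key _ _ (z A ha) (z B hb) (by exact_mod_cast z _ hc)

end Fermat.Agent.LT.C0
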