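import Fermat.Agent.ECLocal.Main
import Fermat.Agent.ECLocal.Frey

/-!
# Local facts at `3` and at the bad primes for the Langlands–Tunnell input

* (L1) `3 ∣ b₂`, `3 ∤ Δ` ⇒ `Δ ≡ ±1 (mod 9)`; Frey: `3 ∤ abc` ⇒ `3 ∣ b₂`.
* (L2) an integer `3^(3k)·u` with `u ≡ ±1 (mod 9)` has a cube root fixed by the whole
  decomposition group at any place over `3`.
* (L3) inertia fixing a `p`-th root of `Δ` acts trivially on `p`-torsion (`q ≠ p`), resp. moves it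
  by elements of `E₁` (`q = p`).
-/

set_option autoImplicit false

namespace Fermat.Agent.LT.C0

open WeierstrassCurve
open scoped WeierstrassCurve.Affine
open Fermat.Agent.ECLocal (InKernel NonsingRed)

local notation "Qb" => AlgebraicClosure ℚ

local instance isAlgebraicQbar_ltC0Local : Algebra.IsAlgebraic ℚ Qb :=
  AlgebraicClosure.isAlgebraic ℚ

/-! ### (L1) -/

/-- Supersingular reduction at `3` forces the discriminant to be a cube modulo `9`. -/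
theorem Δ_mod_nine_of_three_dvd_b₂ (W : WeierstrassCurve ℤ) (hb₂ : (3 : ℤ) ∣ W.b₂)
    (hΔ : ¬ (3 : ℤ) ∣ W.Δ) : (9 : ℤ) ∣ W.Δ - 1 ∨ (9 : ℤ) ∣ W.Δ + 1 := by
  obtain ⟨k, hk⟩ := hb₂
  have h9 : W.Δ = -8 * W.b₄ ^ 3 + 9 * (-(k ^ 2) * W.b₈ - 3 * W.b₆ ^ 2 + 3 * k * W.b₄ * W.b₆) := by
    rw [WeierstrassCurve.Δ, hk]; ring
  have key : ∀ x : ZMod 9, x ^ 3 = 0 ∨ x ^ 3 = 1 ∨ x ^ 3 = -1 := by decide
  have hd : (W.Δ : ZMod 9) = (W.b₄ : ZMod 9) ^ 3 := by
    rw [h9]; push_cast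
    rw [show (9 : ZMod 9) = 0 from rfl, show (-8 : ZMod 9) = 1 from rfl]
    ring
  rcases key (W.b₄ : ZMod 9) with h | h | h
  · exfalso
    apply hΔ
    have : (9 : ℤ) ∣ W.Δ := (ZMod.intCast_zmod_eq_zero_iff_dvd _ 9).1 (hd.trans h)
    exact dvd_trans (by norm_num) this
  · exact Or.inl ((ZMod.intCast_zmod_eq_zero_iff_dvd _ 9).1 (by
      push_cast; rw [hd, h]; ring))
  · exact Or.inr ((ZMod.intCast_zmod_eq_zero_iff_dvd _ 9).1 (by
      push_cast; rw [hd, h]; ring))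

/-- A Frey curve with `3 ∤ abc` is supersingular at `3`. -/
theorem three_dvd_freyCurveInt_b₂ (P : FreyPackage) (h3 : ¬ (3 : ℤ) ∣ P.a * P.b * P.c) :
    (3 : ℤ) ∣ P.freyCurveInt.b₂ := by
  obtain ⟨k, hk⟩ := ECLocal.four_dvd_frey_a₂ P
  have hb : P.freyCurveInt.b₂ = P.b ^ P.p - P.a ^ P.p := by
    simp only [FreyPackage.freyCurveInt, WeierstrassCurve.b₂]
    omega
  rw [hb]
  have hne : ∀ z : ℤ, (3 : ℤ) ∣ z → (z = P.a ∨ z = P.b ∨ z = P.c) → False := by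
    intro z hz h
    apply h3
    rcases h with rfl | rfl | rfl
    · exact dvd_mul_of_dvd_left (dvd_mul_of_dvd_left hz _) _
    · exact dvd_mul_of_dvd_left (dvd_mul_of_dvd_right hz _) _
    · exact dvd_mul_of_dvd_right hz _
  have key : ∀ a b : ZMod 3, a ≠ 0 → b ≠ 0 → a + b ≠ 0 → b - a = 0 := by decide
  haveI : Fact (Nat.Prime 3) := ⟨Nat.prime_three⟩
  refine (ZMod.intCast_zmod_eq_zero_iff_dvd _ 3).1 ?_
  push_cast
  have hcast : ∀ z : ℤ, (z = P.a ∨ z = P.b ∨ z = P.c) → (z : ZMod 3) ^ P.p ≠ 0 := fun z hz h =>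
    hne z ((ZMod.intCast_zmod_eq_zero_iff_dvd _ 3).1 (eq_zero_of_pow_eq_zero h)) hz
  refine key _ _ (hcast _ (Or.inl rfl)) (hcast _ (Or.inr (Or.inl rfl))) ?_
  have := congrArg (fun z : ℤ => (z : ZMod 3)) P.hFLT
  push_cast at this
  rw [this]
  exact hcast _ (Or.inr (Or.inr rfl))

/-! ### (L2) -/

/-- The cubic `3w³ + 3w² + w - m` has a unique root in any valuation subring over `3`. -/
theorem existsUnique_cubic_root (m : ℤ) (A : ValuationSubring Qb) (hA : A.LiesOverPrime 3) :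
    ∃ w ∈ A, 3 * w ^ 3 + 3 * w ^ 2 + w = (m : Qb) ∧
      ∀ w' ∈ A, 3 * w' ^ 3 + 3 * w' ^ 2 + w' = (m : Qb) → w' = w := by
  have h3lt : A.valuation (3 : Qb) < 1 := by simpa using ECLocal.valuation_q_lt_one A hA
  have h3mem : (3 : Qb) ∈ A := ECLocal.ofNat_mem A 3
  have hm := ECLocal.intCast_mem_val A m
  suffices ∃ w ∈ A, 3 * w ^ 3 + 3 * w ^ 2 + w = (m : Qb) by
    obtain ⟨w, hw, he⟩ := this
    refine ⟨w, hw, he, fun w' hw' he' => ?_⟩
    by_contra hne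
    have h0 : 1 + 3 * (w' + w + (w' ^ 2 + w' * w + w ^ 2)) = 0 := by
      refine (mul_eq_zero.1 ?_).resolve_left (sub_ne_zero.2 hne)
      linear_combination he' - he
    refine ECLocal.ne_zero_of_v_eq_one (A.valuation.map_one_add_of_lt ?_) h0
    exact ECLocal.v_mul_lt_one h3lt (ECLocal.v_le_one (A.add_mem _ _ (A.add_mem _ _ hw' hw)
      (A.add_mem _ _ (A.add_mem _ _ (pow_mem hw' 2) (A.mul_mem _ _ hw' hw)) (pow_mem hw 2))))
  obtain ⟨w₁, hw₁⟩ := IsAlgClosed.exists_root (k := Qb)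
    (Polynomial.C 3 * Polynomial.X ^ 3 + Polynomial.C 3 * Polynomial.X ^ 2 + Polynomial.X
      - Polynomial.C (m : Qb))
    (by
      rw [show Polynomial.degree (Polynomial.C (3 : Qb) * Polynomial.X ^ 3
        + Polynomial.C 3 * Polynomial.X ^ 2 + Polynomial.X - Polynomial.C (m : Qb)) = 3 by
          compute_degree!; all_goals norm_num]
      norm_num)
  simp only [Polynomial.IsRoot.def, Polynomial.eval_sub, Polynomial.eval_add, Polynomial.eval_mul,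
    Polynomial.eval_pow, Polynomial.eval_C, Polynomial.eval_X] at hw₁
  obtain ⟨w₂, hw₂⟩ := IsAlgClosed.exists_root (k := Qb)
    (Polynomial.X ^ 2 + Polynomial.C (w₁ + 1) * Polynomial.X
      + Polynomial.C (w₁ ^ 2 + w₁ + 1 / 3))
    (by
      rw [show Polynomial.degree (Polynomial.X ^ 2 + Polynomial.C (w₁ + 1) * Polynomial.X
        + Polynomial.C (w₁ ^ 2 + w₁ + 1 / 3)) = 2 by compute_degree!]
      norm_num)
  simp only [Polynomial.IsRoot.def, Polynomial.eval_add, Polynomial.eval_mul, Polynomial.eval_pow,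
    Polynomial.eval_C, Polynomial.eval_X] at hw₂
  obtain ⟨w₃, he1⟩ : ∃ w₃, w₁ + w₂ + w₃ = -1 := ⟨-1 - w₁ - w₂, by ring⟩
  have h3z : (3 : Qb) * (1 / 3) = 1 := by norm_num
  have he2 : 3 * (w₁ * w₂ + (w₁ + w₂) * w₃) = 1 := by
    rw [show w₃ = -1 - w₁ - w₂ by linear_combination he1]
    linear_combination -3 * hw₂ + h3z
  have he3 : 3 * (w₁ * w₂ * w₃) = (m : Qb) := by
    rw [show w₃ = -1 - w₁ - w₂ by linear_combination he1]
    linear_combination -(3 * w₁) * hw₂ + hw₁ + w₁ * h3z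
  have hroot : ∀ w : Qb, (w = w₁ ∨ w = w₂ ∨ w = w₃) → 3 * w ^ 3 + 3 * w ^ 2 + w = (m : Qb) := by
    intro w hw
    have hid : 3 * ((w - w₁) * (w - w₂) * (w - w₃)) = 0 := by
      rcases hw with rfl | rfl | rfl <;> ring
    linear_combination hid + (3 * w ^ 2) * he1 - w * he2 + he3
  by_contra hcon
  have hbig : ∀ w : Qb, (w = w₁ ∨ w = w₂ ∨ w = w₃) → 1 < A.valuation w := fun w hw =>
    ECLocal.one_lt_v fun h => hcon ⟨w, h, hroot w hw⟩
  have hb1 := hbig w₁ (Or.inl rfl)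
  have hb2 := hbig w₂ (Or.inr (Or.inl rfl))
  have hb3 := hbig w₃ (Or.inr (Or.inr rfl))
  -- `|e₂| < |e₃|`, but `|3 e₂| = 1 ≥ |3 e₃|`
  have hsum : A.valuation (w₁ * w₂ + (w₁ + w₂) * w₃) < A.valuation (w₁ * w₂ * w₃) := by
    have h12 : (1 : A.ValueGroup) < A.valuation w₁ * A.valuation w₂ := one_lt_mul_of_lt_of_le hb1 hb2.le
    rw [add_mul, map_mul, map_mul]
    refine A.valuation.map_add_lt ?_ (A.valuation.map_add_lt ?_ ?_) <;> rw [map_mul]
    · exact lt_mul_of_one_lt_right (zero_lt_one.trans h12) hb3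
    · rw [mul_right_comm]
      exact lt_mul_of_one_lt_right (mul_pos (zero_lt_one.trans hb1) (zero_lt_one.trans hb3)) hb2
    · rw [mul_assoc]
      exact lt_mul_of_one_lt_left (mul_pos (zero_lt_one.trans hb2) (zero_lt_one.trans hb3)) hb1
  have h3pos : 0 < A.valuation (3 : Qb) := ECLocal.v_pos (by norm_num)
  have h := mul_lt_mul_of_pos_left hsum h3pos
  rw [← map_mul, ← map_mul, he2, he3, map_one] at h
  exact absurd (ECLocal.v_le_one hm) (not_le.2 h)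

/-- `3^(3k)·u`, `u ≡ ±1 (mod 9)`: a cube root fixed by the decomposition group over `3`. -/
theorem exists_cubeRoot_fixed {δ : ℤ} {k : ℕ} {u : ℤ} (hδ : δ = 3 ^ (3 * k) * u)
    (hu : (9 : ℤ) ∣ u - 1 ∨ (9 : ℤ) ∣ u + 1) (A : ValuationSubring Qb) (hA : A.LiesOverPrime 3) :
    ∃ c : Qb, c ^ 3 = (δ : Qb) ∧ ∀ σ ∈ A.decompositionSubgroup ℚ, σ c = c := by
  obtain ⟨m, e, he, hum⟩ : ∃ (m e : ℤ), e ^ 3 = e ∧ u = e * (1 + 9 * m) := by
    rcases hu with ⟨m, hm⟩ | ⟨m, hm⟩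
    · exact ⟨m, 1, by norm_num, by linear_combination hm⟩
    · exact ⟨-m, -1, by norm_num, by linear_combination hm⟩
  obtain ⟨w, hwA, hw, huniq⟩ := existsUnique_cubic_root m A hA
  have he' : ((e : Qb)) ^ 3 = (e : Qb) := by exact_mod_cast he
  refine ⟨(3 : Qb) ^ k * ((e : Qb) * (1 + 3 * w)), ?_, fun σ hσ => ?_⟩
  · subst hδ hum
    push_cast
    rw [mul_pow, mul_pow, ← pow_mul, mul_comm k 3, he']
    linear_combination ((3 : Qb) ^ (3 * k) * (e : Qb) * 9) * hw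
  · have hσw : σ w = w := huniq _ ((ECLocal.map_mem_iff_of_decomposition hσ w).2 hwA) (by
      have := congrArg σ hw
      simpa only [map_add, map_mul, map_pow, map_ofNat, map_intCast] using this)
    simp only [map_add, map_mul, map_pow, map_ofNat, map_intCast, map_one, hσw]

/-- If `δ` is a cube locally at `3`, decomposition elements fixing the cube roots of unity fix
every cube root of `δ`: `3` splits completely in `F'/F`. -/
theorem cubeRoots_fixed {δ : ℤ} {k : ℕ} {u : ℤ} (hδ : δ = 3 ^ (3 * k) * u)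
    (hu : (9 : ℤ) ∣ u - 1 ∨ (9 : ℤ) ∣ u + 1) {A : ValuationSubring Qb} (hA : A.LiesOverPrime 3)
    {σ : Qb ≃ₐ[ℚ] Qb} (hσ : σ ∈ A.decompositionSubgroup ℚ)
    (hζ : ∀ ζ : Qb, ζ ^ 3 = 1 → σ ζ = ζ) {c : Qb} (hc : c ^ 3 = (δ : Qb)) : σ c = c := by
  obtain ⟨c₀, hc₀, hfix⟩ := exists_cubeRoot_fixed hδ hu A hA
  by_cases h0 : c₀ = 0
  · rw [h0, zero_pow (by norm_num)] at hc₀
    rw [← hc₀] at hc
    rw [eq_zero_of_pow_eq_zero hc, map_zero]
  · rw [show c = c / c₀ * c₀ by field_simp, map_mul, hfix σ hσ, hζ]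
    rw [div_pow, hc, hc₀, div_self]
    rw [← hc₀]; exact pow_ne_zero _ h0

/-! ### (L3) -/

/-- An inertia element at `q ≠ p` fixing a `p`-th root of `Δ` acts trivially on `p`-torsion of a
curve semistable at `q`. -/
theorem smul_eq_self_of_root_fixed (W : WeierstrassCurve ℤ) (hΔ0 : W.Δ ≠ 0) {q p : ℕ}
    (hq : q.Prime) (hp : p.Prime) (hqp : q ≠ p) (hss : (q : ℤ) ∣ W.Δ → ¬ (q : ℤ) ∣ W.c₄)
    {A : ValuationSubring Qb} (hA : A.LiesOverPrime q) {σ : Qb ≃ₐ[ℚ] Qb}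
    (hσ : σ ∈ A.inertiaSubgroupIn ℚ) {c : Qb} (hc : c ^ p = (W.Δ : Qb)) (hσc : σ c = c)
    (x : Submodule.torsionBy ℤ ((W.map (Int.castRingHom ℚ))⁄Qb).Point p) : σ • x = x := by
  have hqp' : ¬ q ∣ p := fun h => hqp ((Nat.prime_dvd_prime_iff_eq hq hp).1 h)
  by_cases hΔ : (q : ℤ) ∣ W.Δ
  · refine Subtype.ext (ECLocal.smul_eq_self_of_fixed
      (ECLocal.multAt_intModel W hΔ0 hq hΔ (hss hΔ) A hA) hσ hp
      (ECLocal.valuation_natCast_eq_one hq hqp' A hA) hσc ?_ (ECLocal.nsmul_coe_torsionBy x))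
    rw [← map_pow, hc, ECLocal.intModel_Δ]
  · exact ECLocal.galoisRepUnramifiedAt_of_good W hq hΔ hqp' A hA σ hσ x

/-- The same at `q = p`: the difference lies in the kernel of reduction. -/
theorem inKernel_smul_sub_of_root_fixed (W : WeierstrassCurve ℤ) (hΔ0 : W.Δ ≠ 0) {p : ℕ}
    (hp : p.Prime) (hΔ : (p : ℤ) ∣ W.Δ) (hc₄ : ¬ (p : ℤ) ∣ W.c₄)
    {A : ValuationSubring Qb} (hA : A.LiesOverPrime p) {σ : Qb ≃ₐ[ℚ] Qb}
    (hσ : σ ∈ A.inertiaSubgroupIn ℚ) {c : Qb} (hc : c ^ p = (W.Δ : Qb)) (hσc : σ c = c)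
    (x : Submodule.torsionBy ℤ ((W.map (Int.castRingHom ℚ))⁄Qb).Point p) :
    InKernel A ((σ • x - x : Submodule.torsionBy ℤ
      ((W.map (Int.castRingHom ℚ))⁄Qb).Point p) : ((W.map (Int.castRingHom ℚ))⁄Qb).Point) := by
  refine ECLocal.inKernel_smul_sub_of_fixed
    (ECLocal.multAt_intModel W hΔ0 hp hΔ hc₄ A hA) hσ hp hσc ?_ (ECLocal.nsmul_coe_torsionBy x)
  rw [← map_pow, hc, ECLocal.intModel_Δ]

/-- For a semistable curve whose discriminant is a cube at `3`, inertia at `3` moves `3`-torsion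
by elements of the kernel of reduction (the multiplicative case). -/
theorem inKernel_smul_sub_at_three (W : WeierstrassCurve ℤ) (hΔ0 : W.Δ ≠ 0)
    (hΔ : (3 : ℤ) ∣ W.Δ) (hc₄ : ¬ (3 : ℤ) ∣ W.c₄) {k : ℕ} {u : ℤ}
    (hδ : W.Δ = 3 ^ (3 * k) * u) (hu : (9 : ℤ) ∣ u - 1 ∨ (9 : ℤ) ∣ u + 1)
    {A : ValuationSubring Qb} (hA : A.LiesOverPrime 3) {σ : Qb ≃ₐ[ℚ] Qb}
    (hσ : σ ∈ A.inertiaSubgroupIn ℚ)
    (x : Submodule.torsionBy ℤ ((W.map (Int.castRingHom ℚ))⁄Qb).Point (3 : ℕ)) :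
    InKernel A ((σ • x - x : Submodule.torsionBy ℤ
      ((W.map (Int.castRingHom ℚ))⁄Qb).Point (3 : ℕ)) :
        ((W.map (Int.castRingHom ℚ))⁄Qb).Point) := by
  obtain ⟨c, hc, hfix⟩ := exists_cubeRoot_fixed hδ hu A hA
  exact inKernel_smul_sub_of_root_fixed W hΔ0 Nat.prime_three (by exact_mod_cast hΔ)
    (by exact_mod_cast hc₄) hA hσ hc (hfix σ (ECLocal.decomposition_of_inertia hσ)) x

end Fermat.Agent.LT.C0
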