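import Fermat.Agent.LT.C0.CubeRootDelta
import Fermat.Agent.LT.C0.Local
import Fermat.Agent.TWGal.Tame
import Fermat.Agent.WeilPairing.Det
import Fermat.Agent.Galois.Unramified
import Fermat.Prelude.Def_FLTPrelim_ModularRep
import Fermat.Prelude.Def_GaloisRep_ComplexConjugation

/-!
# Surjectivity of the mod `3` representation of a semistable curve

A semistable integral model with irreducible mod `3` representation has image all of `GL₂(𝔽₃)`:
either some element fixing the cube roots of unity moves a cube root of `Δ`, which gives a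
transvection, or the image is a `2`-group which is unramified outside `3`, hence cyclic by
tameness, hence reducible because of complex conjugation.
-/

set_option autoImplicit false

noncomputable section

open WeierstrassCurve WeierstrassCurve.Affine WeierstrassCurve.Affine.Point
open scoped WeierstrassCurve.Affine
open scoped Pointwise
open Fermat.Agent.Galois (Qbar GalQ)

namespace Fermat.Agent.LT.C0

local instance isAlgebraicQbar_ltC0Surjective : Algebra.IsAlgebraic ℚ (AlgebraicClosure ℚ) :=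
  AlgebraicClosure.isAlgebraic ℚ

/-! ### Matrices over `𝔽₃` -/

theorem det_one_cases : ∀ a b c d : ZMod 3, a * d - b * c = 1 →
    (!![a, b; c, d] = 1 ∨ !![a, b; c, d] = -1 ∨ !![a, b; c, d] * !![a, b; c, d] = -1 ∨
      (!![a, b; c, d] ^ 4 ≠ 1 ∧ (!![a, b; c, d] ^ 4 - 1) * (!![a, b; c, d] ^ 4 - 1) = 0)) := by
  decide

theorem zmod_three_facts :
    (-1 : ZMod 3) ^ 2 ≠ 2 ∧ (1 : ZMod 3) ≠ 2 ∧ (∀ z : ZMod 3, z ≠ 0 → z = 1 ∨ z = 2) ∧
      (2 : ZMod 3) * 2 = 1 := by
  decide

theorem mem_of_elementary {S : Submonoid (Matrix (Fin 2) (Fin 2) (ZMod 3))} {a b : ZMod 3}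
    (ha : a ≠ 0) (hb : b ≠ 0) (hU : !![1, a; 0, 1] ∈ S) (hL : !![1, 0; b, 1] ∈ S)
    {M : Matrix (Fin 2) (Fin 2) (ZMod 3)} (hM : M.det = 1) : M ∈ S := by
  have hU2 : ∀ x : ZMod 3, !![1, x; 0, 1] ∈ S := by
    intro x
    have h : ∀ a x : ZMod 3, a ≠ 0 → ∃ k : Fin 3, !![1, x; 0, 1] = !![1, a; 0, 1] ^ k.val := by
      decide
    obtain ⟨k, hk⟩ := h a x ha
    rw [hk]
    exact pow_mem hU _
  have hL2 : ∀ x : ZMod 3, !![1, 0; x, 1] ∈ S := by
    intro x
    have h : ∀ b x : ZMod 3, b ≠ 0 → ∃ k : Fin 3, !![1, 0; x, 1] = !![1, 0; b, 1] ^ k.val := by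
      decide
    obtain ⟨k, hk⟩ := h b x hb
    rw [hk]
    exact pow_mem hL _
  have h : ∀ p q r s : ZMod 3, p * s - q * r = 1 → ∃ y x z w : ZMod 3,
      !![p, q; r, s] = !![1, 0; y, 1] * !![1, x; 0, 1] * !![1, 0; z, 1] * !![1, w; 0, 1] := by
    decide
  rw [M.det_fin_two] at hM
  obtain ⟨y, x, z, w, e⟩ := h _ _ _ _ hM
  rw [M.eta_fin_two, e]
  exact S.mul_mem (S.mul_mem (S.mul_mem (hL2 _) (hU2 _)) (hL2 _)) (hU2 _)

section Curve

variable (W : WeierstrassCurve ℤ)

set_option quotPrecheck false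

local notation "E₃" => Submodule.torsionBy ℤ ((W.map (Int.castRingHom ℚ))⁄Qbar).Point (3 : ℕ)
local notation "rho" => galoisRep (S := ℚ) (K := Qbar) (W.map (Int.castRingHom ℚ)).toAffine 3

variable {W}

theorem det_rho (hΔ : W.Δ ≠ 0) {σ : GalQ} {n : ℕ} (hσ : ∀ ζ : Qbar, ζ ^ 3 = 1 → σ ζ = ζ ^ n) :
    LinearMap.det (rho σ).toLinearMap = (n : ZMod 3) := by
  haveI : Fact (Nat.Prime 3) := ⟨Nat.prime_three⟩
  have h := WeilPairing.det_galoisRep_eq_natCast (S := ℚ) (K := Qbar)
    (W.map (Int.castRingHom ℚ)).toAffine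
    (ECTorsion.algebraMap_qbar_Δ_ne_zero _ (ECTorsion.map_castRingHom_Δ_ne_zero W hΔ)) 3
    (by norm_num) σ hσ
  rwa [LinearEquiv.coe_det] at h

/-- Every Galois element acts on the cube roots of unity by `ζ ↦ ζ` or `ζ ↦ ζ²`. -/
theorem exists_pow_cubeRoots (σ : GalQ) :
    (∀ ζ : Qbar, ζ ^ 3 = 1 → σ ζ = ζ ^ 1) ∨ (∀ ζ : Qbar, ζ ^ 3 = 1 → σ ζ = ζ ^ 2) := by
  obtain ⟨ω, hω⟩ := HasEnoughRootsOfUnity.exists_primitiveRoot Qbar 3
  have h : σ ω ^ 3 = 1 := by rw [← map_pow, hω.pow_eq_one, map_one]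
  obtain ⟨i, hi, he⟩ := hω.eq_pow_of_pow_eq_one h
  have hne : i ≠ 0 := by
    rintro rfl
    rw [pow_zero] at he
    exact hω.ne_one (by norm_num) (σ.injective (by rw [← he, map_one]))
  have key : ∀ ζ : Qbar, ζ ^ 3 = 1 → σ ζ = ζ ^ i := by
    intro ζ hζ
    obtain ⟨j, -, rfl⟩ := hω.eq_pow_of_pow_eq_one hζ
    rw [map_pow, ← he, ← pow_mul, ← pow_mul, mul_comm]
  interval_cases i
  · exact absurd rfl hne
  · exact Or.inl key
  · exact Or.inr key

theorem complexConjugation_apply_cubeRoot {ζ : Qbar} (hζ : ζ ^ 3 = 1) :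
    complexConjugation ζ = ζ ^ 2 := by
  refine complexEmbedding.injective ?_
  change complexEmbedding (complexConjugation ζ) = complexEmbedding (ζ ^ 2)
  rw [complexEmbedding_complexConjugation]
  have h3 : complexEmbedding ζ ^ 3 = 1 := by rw [← map_pow, hζ, map_one]
  rw [← Complex.inv_eq_conj (Complex.norm_eq_one_of_pow_eq_one h3 (by norm_num)), map_pow]
  exact inv_eq_of_mul_eq_one_right (by rw [← pow_succ', h3])

theorem det_rho_complexConjugation (hΔ : W.Δ ≠ 0) :
    LinearMap.det (rho complexConjugation).toLinearMap = 2 := by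
  rw [det_rho hΔ (n := 2) fun ζ hζ => complexConjugation_apply_cubeRoot hζ]
  rfl

/-- A commutative image is reducible, because of complex conjugation. -/
theorem not_forall_commute (hΔ : W.Δ ≠ 0) (hirr : W.ModRepIsIrreducible 3) :
    ¬ ∀ σ τ : GalQ, rho σ * rho τ = rho τ * rho σ := by
  intro hcomm
  haveI : Fact (Nat.Prime 3) := ⟨Nat.prime_three⟩
  set c := rho complexConjugation with hc
  have hdet := det_rho_complexConjugation hΔ
  have hcc : ∀ x : E₃, c (c x) = x := by
    intro x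
    rw [hc, ← LinearEquiv.mul_apply, ← map_mul, complexConjugation_mul_self, map_one]
    rfl
  let N : Submodule (ZMod 3) E₃ := LinearMap.ker (c.toLinearMap - 1)
  have hN : ∀ x : E₃, x ∈ N ↔ c x = x := fun x => by
    simp only [N, LinearMap.mem_ker, LinearMap.sub_apply, LinearEquiv.coe_coe,
      Module.End.one_apply, sub_eq_zero]
  have hstab : IsGaloisStable ℚ N := by
    intro σ x hx
    rw [hN] at hx ⊢
    change (c * rho σ) x = rho σ x
    rw [hc, hcomm, ← hc, LinearEquiv.mul_apply, hx]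
  rcases hirr.2 N hstab with h | h
  · -- no fixed vector: `c = -1` has determinant `1`
    have hneg : c.toLinearMap = (-1 : ZMod 3) • LinearMap.id := by
      refine LinearMap.ext fun x => ?_
      have hmem : x + c x ∈ N := (hN _).2 (by rw [map_add, hcc, add_comm])
      rw [h, Submodule.mem_bot, add_comm] at hmem
      simpa using eq_neg_of_add_eq_zero_left hmem
    rw [hneg, LinearMap.det_smul, LinearMap.det_id, mul_one,
      ECTorsion.finrank_torsionBy_qbar _ (ECTorsion.map_castRingHom_Δ_ne_zero W hΔ) 3] at hdet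
    exact zmod_three_facts.1 hdet
  · have hone : c.toLinearMap = LinearMap.id := LinearMap.ext fun x =>
      (hN x).1 (h ▸ Submodule.mem_top)
    rw [hone, LinearMap.det_id] at hdet
    exact zmod_three_facts.2.1 hdet

/-- The transfer of `fixes_cubeRoots_Δ_iff` to `E[3]`. -/
theorem rho_of_fixes_cubeRoots (hΔ : W.Δ ≠ 0) (σ : GalQ) :
    (∀ c : Qbar, c ^ 3 = (W.Δ : Qbar) → σ c = c) ↔
      ((∀ x : E₃, rho σ x = x) ∨ (∀ x : E₃, rho σ x = -x) ∨
        (∀ x : E₃, rho σ (rho σ x) = -x)) := by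
  have hD : ((W.map (Int.castRingHom ℚ))⁄Qbar).Δ = (W.Δ : Qbar) := by
    show ((W.map (Int.castRingHom ℚ)).map (algebraMap ℚ Qbar)).Δ = _
    rw [WeierstrassCurve.map_Δ, WeierstrassCurve.map_Δ]
    simp
  have hD0 : ((W.map (Int.castRingHom ℚ))⁄Qbar).Δ ≠ 0 := by
    rw [hD]; exact_mod_cast hΔ
  have h := fixes_cubeRoots_Δ_iff (S := ℚ) (W.map (Int.castRingHom ℚ)) hD0 (by norm_num) σ
  rw [hD] at h
  rw [h]
  have hto : ∀ x : E₃, (3 : ℕ) • (x : ((W.map (Int.castRingHom ℚ))⁄Qbar).Point) = 0 := fun x =>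
    ECLocal.nsmul_coe_torsionBy x
  have hof : ∀ T : ((W.map (Int.castRingHom ℚ))⁄Qbar).Point, (3 : ℕ) • T = 0 → T ∈ E₃ :=
    fun T hT => by rw [Submodule.mem_torsionBy_iff, natCast_zsmul]; exact hT
  refine or_congr ?_ (or_congr ?_ ?_) <;>
    refine ⟨fun h' x => Subtype.ext (h' _ (hto x)), fun h' T hT => ?_⟩ <;>
    exact congrArg Subtype.val (h' ⟨T, hof T hT⟩)

/-- If all elements fixing the cube roots of unity fix those of `Δ`, the image is commutative. -/
theorem commute_of_fixes (hΔ : W.Δ ≠ 0) (hss : W.IsSemistableModel)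
    (hfix : ∀ σ : GalQ, (∀ ζ : Qbar, ζ ^ 3 = 1 → σ ζ = ζ) →
      ∀ c : Qbar, c ^ 3 = (W.Δ : Qbar) → σ c = c) :
    ∀ σ τ : GalQ, rho σ * rho τ = rho τ * rho σ := by
  haveI : Fact (Nat.Prime 3) := ⟨Nat.prime_three⟩
  haveI : Fact (Nat.Prime 2) := ⟨Nat.prime_two⟩
  obtain ⟨F, hF, hlev⟩ := ECTorsion.exists_finite_level (S := ℚ) (K := Qbar)
    (W := W.map (Int.castRingHom ℚ)) (n := 3)
    (ECTorsion.algebraMap_qbar_Δ_ne_zero _ (ECTorsion.map_castRingHom_Δ_ne_zero W hΔ))
    (by norm_num)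
  haveI := hF
  have hkerF : ∀ σ : GalQ, (∀ x ∈ F, σ x = x) → rho σ = 1 := fun σ hσ =>
    LinearEquiv.ext fun x => hlev σ hσ x
  have h8 : ∀ σ : GalQ, rho σ ^ 8 = 1 := by
    intro σ
    have hσ2 : ∀ ζ : Qbar, ζ ^ 3 = 1 → (σ * σ) ζ = ζ := by
      intro ζ hζ
      rw [AlgEquiv.mul_apply]
      rcases exists_pow_cubeRoots σ with h | h
      · rw [h ζ hζ, pow_one, h ζ hζ, pow_one]
      · rw [h ζ hζ, map_pow, h ζ hζ, ← pow_mul, show 2 * 2 = 3 + 1 from rfl, pow_add, hζ,
          one_mul, pow_one]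
    refine LinearEquiv.ext fun x => ?_
    have h := (rho_of_fixes_cubeRoots hΔ (σ * σ)).1 (hfix _ hσ2)
    have e : rho σ ^ 8 = rho (σ * σ) * rho (σ * σ) * (rho (σ * σ) * rho (σ * σ)) := by
      simp only [← map_mul, ← map_pow]
      congr 1
    rw [e, LinearEquiv.mul_apply, LinearEquiv.mul_apply, LinearEquiv.mul_apply]
    rcases h with h | h | h
    · simp only [h]
      rfl
    · simp only [h, neg_neg]
      rfl
    · rw [h, h, neg_neg]
      rfl
  obtain ⟨A₀, hA₀⟩ := Galois.exists_liesOverPrime (L := Qbar) Nat.prime_three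
  obtain ⟨τ₀, -, hgen, -⟩ := TWGal.exists_tame_generator hA₀ Nat.prime_three
    ((rho).comp (A₀.decompositionSubgroup ℚ).subtype) F (fun σ hσ => hkerF σ.1 hσ)
    (fun σ _ k hk => by
      have h := pow_gcd_eq_one.2 ⟨hk, h8 σ.1⟩
      rwa [Nat.Coprime.gcd_eq_one ((Nat.Coprime.pow k 3 (by norm_num : Nat.Coprime 3 2))),
        pow_one] at h)
  -- the image is a finite `2`-group
  haveI : Finite E₃ := ECTorsion.finite_torsionBy_qbar _
    (ECTorsion.map_castRingHom_Δ_ne_zero W hΔ) (by norm_num)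
  haveI : Finite (E₃ ≃ₗ[ZMod 3] E₃) :=
    Finite.of_injective (fun f : E₃ ≃ₗ[ZMod 3] E₃ => (f : E₃ → E₃)) DFunLike.coe_injective
  have hP : IsPGroup 2 (rho).range := fun g => ⟨3, by
    obtain ⟨σ, hσ⟩ := g.2
    refine Subtype.ext ?_
    change g.1 ^ 2 ^ 3 = 1
    rw [← hσ]
    exact h8 σ⟩
  have htop : Subgroup.zpowers ((rho).rangeRestrict τ₀.1) = ⊤ := by
    by_contra hne
    obtain ⟨M, hM, hle⟩ := (eq_top_or_exists_le_coatom _).resolve_left hne
    haveI : M.Normal := by
      haveI := hP.isNilpotent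
      exact Subgroup.NormalizerCondition.normal_of_coatom M normalizerCondition_of_isNilpotent hM
    refine hM.1 ?_
    have hpre : M.comap (rho).rangeRestrict = ⊤ := by
      refine Galois.eq_top_of_forall_inertiaLE _ ⟨F, hF, fun σ hσ => ?_⟩ fun q hq A hA σ hσ => ?_
      · have h1 : (rho).rangeRestrict σ = 1 := Subtype.ext
          (hkerF σ fun x hx => (IntermediateField.mem_fixingSubgroup_iff _ _).1 hσ x hx)
        rw [Subgroup.mem_comap, h1]
        exact one_mem _
      by_cases hq3 : q = 3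
      · subst hq3
        obtain ⟨τ, rfl⟩ := Galois.exists_smul_eq hA₀ hA hq
        rw [Galois.mem_inertia_smul_iff] at hσ
        have h1 := hgen ⟨_, Galois.inertia_le_decomposition A₀ hσ⟩ hσ
        have h2 : (rho).rangeRestrict (τ⁻¹ * σ * τ) ∈ M := hle (by
          obtain ⟨n, hn⟩ := Subgroup.mem_zpowers_iff.1 h1
          exact Subgroup.mem_zpowers_iff.2 ⟨n, Subtype.ext (by simpa using hn)⟩)
        have h3 := Subgroup.Normal.conj_mem inferInstance _ h2 ((rho).rangeRestrict τ)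
        rw [← map_inv, ← map_mul, ← map_mul,
          show τ * (τ⁻¹ * σ * τ) * τ⁻¹ = σ by group] at h3
        exact h3
      · obtain ⟨c, hc⟩ := IsAlgClosed.exists_pow_nat_eq (W.Δ : Qbar) (n := 3) (by norm_num)
        have hσc : σ c = c := hfix σ (fun ζ hζ => Galois.inertia_apply_rootOfUnity hA hq hσ
          (fun h => hq3 ((Nat.prime_dvd_prime_iff_eq hq Nat.prime_three).1 h)) hζ) c hc
        have h1 : (rho).rangeRestrict σ = 1 := Subtype.ext (LinearEquiv.ext fun x =>
          smul_eq_self_of_root_fixed W hΔ hq Nat.prime_three hq3 (hss q hq) hA hσ hc hσc x)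
        rw [Subgroup.mem_comap, h1]
        exact one_mem _
    refine eq_top_iff.2 fun g _ => ?_
    obtain ⟨σ, rfl⟩ := (rho).rangeRestrict_surjective g
    exact Subgroup.mem_comap.1 (hpre ▸ Subgroup.mem_top σ)
  intro σ τ
  have hmem : ∀ μ : GalQ, (rho).rangeRestrict μ ∈ Subgroup.zpowers ((rho).rangeRestrict τ₀.1) :=
    fun μ => htop ▸ Subgroup.mem_top _
  obtain ⟨i, hi⟩ := Subgroup.mem_zpowers_iff.1 (hmem σ)
  obtain ⟨j, hj⟩ := Subgroup.mem_zpowers_iff.1 (hmem τ)
  have h : (rho).rangeRestrict σ * (rho).rangeRestrict τ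
      = (rho).rangeRestrict τ * (rho).rangeRestrict σ := by
    rw [← hi, ← hj, ← zpow_add, ← zpow_add, add_comm]
  exact congrArg Subtype.val h

/-- The mod `3` representation of a semistable curve is surjective as soon as it is irreducible. -/
theorem rho_three_surjective (hΔ : W.Δ ≠ 0) (hss : W.IsSemistableModel)
    (hirr : W.ModRepIsIrreducible 3) : Function.Surjective rho := by
  haveI : Fact (Nat.Prime 3) := ⟨Nat.prime_three⟩
  haveI : Finite E₃ := ECTorsion.finite_torsionBy_qbar _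
    (ECTorsion.map_castRingHom_Δ_ne_zero W hΔ) (by norm_num)
  have hrank := ECTorsion.finrank_torsionBy_qbar (W.map (Int.castRingHom ℚ))
    (ECTorsion.map_castRingHom_Δ_ne_zero W hΔ) 3
  obtain ⟨σ₀, hζ₀, hσ₀⟩ : ∃ σ : GalQ, (∀ ζ : Qbar, ζ ^ 3 = 1 → σ ζ = ζ) ∧
      ¬ ∀ c : Qbar, c ^ 3 = (W.Δ : Qbar) → σ c = c := by
    by_contra h
    exact not_forall_commute hΔ hirr (commute_of_fixes hΔ hss fun σ hσ c hc => by
      by_contra hne
      exact h ⟨σ, hσ, fun hall => hne (hall c hc)⟩)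
  rw [rho_of_fixes_cubeRoots hΔ] at hσ₀
  push_neg at hσ₀
  -- a transvection
  obtain ⟨N, hN2, hN0, hu⟩ : ∃ N : Module.End (ZMod 3) E₃, N * N = 0 ∧ N ≠ 0 ∧
      (rho (σ₀ ^ 4)).toLinearMap = 1 + N := by
    let B := Module.finBasisOfFinrankEq (ZMod 3) E₃ hrank
    let m := LinearMap.toMatrixAlgEquiv B
    set g := m (rho σ₀).toLinearMap with hg
    have hdet : g.det = 1 := by
      rw [hg, show m (rho σ₀).toLinearMap = LinearMap.toMatrix B B (rho σ₀).toLinearMap from rfl,
        LinearMap.det_toMatrix, det_rho hΔ (n := 1) fun ζ hζ => by rw [hζ₀ ζ hζ, pow_one]]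
      rfl
    rw [Matrix.det_fin_two] at hdet
    have hcases := det_one_cases _ _ _ _ hdet
    rw [← g.eta_fin_two] at hcases
    have hpow : (rho (σ₀ ^ 4)).toLinearMap = (rho σ₀).toLinearMap ^ 4 := by
      ext x
      simp [pow_succ]
    rcases hcases with h | h | h | ⟨h1, h2⟩
    · exfalso
      obtain ⟨x, hx⟩ := hσ₀.1
      exact hx (LinearMap.congr_fun (m.injective (h.trans (map_one m).symm)) x)
    · exfalso
      obtain ⟨x, hx⟩ := hσ₀.2.1
      exact hx (LinearMap.congr_fun (m.injective (h.trans (by rw [map_neg, map_one]))) x)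
    · exfalso
      obtain ⟨x, hx⟩ := hσ₀.2.2
      exact hx (LinearMap.congr_fun (g := (-1 : Module.End (ZMod 3) E₃))
        (m.injective (((map_mul m (rho σ₀).toLinearMap (rho σ₀).toLinearMap).trans h).trans
          (by rw [map_neg, map_one]))) x)
    · refine ⟨(rho σ₀).toLinearMap ^ 4 - 1, m.injective ?_, fun h0 => h1 ?_, by
        rw [hpow]; abel⟩
      · rw [map_mul, map_sub, map_pow, map_one, _root_.map_zero]
        exact h2
      · rw [hg, ← map_pow, sub_eq_zero.1 h0, map_one]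
  obtain ⟨w, hw⟩ : ∃ w, N w ≠ 0 := by
    by_contra h
    push_neg at h
    exact hN0 (LinearMap.ext h)
  set P := N w with hP
  have hNP : N P = 0 := LinearMap.congr_fun hN2 w
  obtain ⟨η, hη⟩ : ∃ η : GalQ, rho η P ∉ Submodule.span (ZMod 3) {P} := by
    by_contra h
    push_neg at h
    have hstab : IsGaloisStable ℚ (Submodule.span (ZMod 3) {P}) := by
      intro σ x hx
      obtain ⟨r, rfl⟩ := Submodule.mem_span_singleton.1 hx
      change rho σ (r • P) ∈ _
      rw [map_smul]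
      exact Submodule.smul_mem _ r (h σ)
    rcases hirr.2 _ hstab with h' | h'
    · exact hw (Submodule.span_singleton_eq_bot.1 h')
    · have h'' : Module.finrank (ZMod 3) (Submodule.span (ZMod 3) {P}) = 1 :=
        finrank_span_singleton hw
      rw [h', finrank_top, hrank] at h''
      exact absurd h'' (by norm_num)
  set Q := rho η P with hQ
  have hli : LinearIndependent (ZMod 3) ![P, Q] := (LinearIndependent.pair_iff' hw).2 fun r h =>
    hη (Submodule.mem_span_singleton.2 ⟨r, h⟩)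
  let B : Module.Basis (Fin 2) (ZMod 3) E₃ :=
    basisOfLinearIndependentOfCardEqFinrank hli (by rw [Fintype.card_fin, hrank])
  have hB0 : B 0 = P := by simp [B]
  have hB1 : B 1 = Q := by simp [B]
  let m := LinearMap.toMatrixAlgEquiv B
  let φ : GalQ →* Matrix (Fin 2) (Fin 2) (ZMod 3) :=
    { toFun := fun σ => m (rho σ).toLinearMap
      map_one' := by rw [map_one, ← map_one m]; rfl
      map_mul' := fun σ τ => by rw [map_mul, ← map_mul m]; rfl }
  have hexp : ∀ x : E₃, ∃ α β : ZMod 3, x = α • P + β • Q := fun x => ⟨B.repr x 0, B.repr x 1, by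
    conv_lhs => rw [← B.sum_repr x]
    rw [Fin.sum_univ_two, hB0, hB1]⟩
  have hmat : ∀ (f : Module.End (ZMod 3) E₃) (a b c d : ZMod 3), f P = a • P + c • Q →
      f Q = b • P + d • Q → m f = !![a, b; c, d] := by
    intro f a b c d h1 h2
    ext i j
    rw [LinearMap.toMatrixAlgEquiv_apply]
    fin_cases j
    · change B.repr (f (B 0)) i = _
      rw [hB0, h1, ← hB0, ← hB1, map_add, map_smul, map_smul, B.repr_self, B.repr_self]
      fin_cases i <;> simp
    · change B.repr (f (B 1)) i = _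
      rw [hB1, h2, ← hB0, ← hB1, map_add, map_smul, map_smul, B.repr_self, B.repr_self]
      fin_cases i <;> simp
  obtain ⟨α, β, hαβ⟩ := hexp w
  have hβ : β • N Q = P := by
    rw [hP]
    conv_rhs => rw [hαβ, map_add, map_smul, map_smul, hNP, smul_zero, zero_add]
  have hβ0 : β ≠ 0 := by
    rintro rfl
    rw [zero_smul] at hβ
    exact hw hβ.symm
  let N' : Module.End (ZMod 3) E₃ :=
    (rho η).toLinearMap * N * (rho η⁻¹).toLinearMap
  have hηinv : ∀ x, rho η⁻¹ (rho η x) = x := fun x => by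
    rw [← LinearEquiv.mul_apply, ← map_mul, inv_mul_cancel, map_one]
    rfl
  have hN'Q : N' Q = 0 := by
    simp [N', hQ, hηinv, hNP]
  obtain ⟨γ, δ, hγδ⟩ := hexp (rho η w)
  have hγ : γ • N' P = Q := by
    have h : N' (rho η w) = Q := by simp [N', hηinv, hQ, hP]
    rwa [hγδ, map_add, map_smul, map_smul, hN'Q, smul_zero, add_zero] at h
  have hγ0 : γ ≠ 0 := by
    rintro rfl
    rw [zero_smul] at hγ
    refine hw ((rho η).injective ?_)
    rw [_root_.map_zero, hγ]
  have hU : !![1, β⁻¹; 0, 1] ∈ (MonoidHom.mrange φ) := ⟨σ₀ ^ 4, by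
    change m (rho (σ₀ ^ 4)).toLinearMap = _
    rw [hu]
    refine hmat _ 1 β⁻¹ 0 1 ?_ ?_
    · simp [hNP]
    · rw [LinearMap.add_apply, Module.End.one_apply, one_smul, add_comm]
      congr 1
      rw [eq_inv_smul_iff₀ hβ0, hβ]⟩
  have hL : !![1, 0; γ⁻¹, 1] ∈ (MonoidHom.mrange φ) := ⟨η * σ₀ ^ 4 * η⁻¹, by
    change m (rho (η * σ₀ ^ 4 * η⁻¹)).toLinearMap = _
    have e : (rho (η * σ₀ ^ 4 * η⁻¹)).toLinearMap = 1 + N' := by
      refine LinearMap.ext fun x => ?_
      have h := LinearMap.congr_fun hu (rho η⁻¹ x)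
      simp only [LinearMap.add_apply, Module.End.one_apply, LinearEquiv.coe_coe] at h
      have hx : rho η (rho η⁻¹ x) = x := by
        rw [← LinearEquiv.mul_apply, ← map_mul, mul_inv_cancel, map_one]
        rfl
      simp only [map_mul, LinearEquiv.mul_apply, LinearEquiv.coe_coe, h, map_add, hx,
        LinearMap.add_apply, Module.End.one_apply, N', Module.End.mul_apply]
    rw [e]
    refine hmat _ 1 0 γ⁻¹ 1 ?_ ?_
    · rw [LinearMap.add_apply, Module.End.one_apply, one_smul]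
      congr 1
      rw [eq_inv_smul_iff₀ hγ0, hγ]
    · simp [hN'Q]⟩
  have hsl : ∀ M : Matrix (Fin 2) (Fin 2) (ZMod 3), M.det = 1 → M ∈ (MonoidHom.mrange φ) := fun M hM =>
    mem_of_elementary (inv_ne_zero hβ0) (inv_ne_zero hγ0) hU hL hM
  have hdetφ : ∀ σ, (φ σ).det = LinearMap.det (rho σ).toLinearMap := fun σ =>
    LinearMap.det_toMatrix B _
  intro f
  have hmem : m f.toLinearMap ∈ (MonoidHom.mrange φ) := by
    have hf : LinearMap.det f.toLinearMap ≠ 0 := by
      rw [← LinearEquiv.coe_det]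
      exact Units.ne_zero _
    rcases zmod_three_facts.2.2.1 _ hf with h | h
    · exact hsl _ ((LinearMap.det_toMatrix B _).trans h)
    · have h2 : (φ complexConjugation * m f.toLinearMap).det = 1 := by
        rw [Matrix.det_mul, hdetφ, det_rho_complexConjugation hΔ,
          show (m f.toLinearMap).det = 2 from (LinearMap.det_toMatrix B _).trans h]
        exact zmod_three_facts.2.2.2
      have h3 := (MonoidHom.mrange φ).mul_mem ⟨complexConjugation, rfl⟩ (hsl _ h2)
      rwa [← mul_assoc, ← map_mul φ, complexConjugation_mul_self, map_one, one_mul] at h3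
  obtain ⟨σ, hσ⟩ := hmem
  exact ⟨σ, LinearEquiv.toLinearMap_injective (m.injective hσ)⟩

end Curve

end Fermat.Agent.LT.C0
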