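import Fermat.Agent.LT.C0.Defs
import Fermat.Agent.LT.C0.Surjective
import Fermat.Agent.ECFormal.Ordinary

/-!
# The local and global facts about an admissible curve

For `IsThreeAdmissible W`, with `F = ℚ(√-3)` (the fixed field of the elements fixing the cube
roots of unity) and `F' = F(∛Δ)` (those fixing in addition the cube roots of `Δ`):
* the mod `3` representation is surjective;
* `3` splits completely in `F'/F`, and inertia at `q ≠ 3` with `3 ∣ v_q(Δ)` fixes `F'`;
* inertia inside `G_{F'}` at `q ≠ 3` acts trivially on `W[3]`, at multiplicative `3` by elements of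
  the kernel of reduction;
* the image of `G_{F'}` is `{±1} ∪ {g : g² = -1}` inside `SL₂(𝔽₃)`.
-/

set_option autoImplicit false

noncomputable section

open WeierstrassCurve WeierstrassCurve.Affine WeierstrassCurve.Affine.Point
open scoped WeierstrassCurve.Affine
open scoped Pointwise
open Fermat.Agent.Galois (Qbar GalQ)
open Fermat.Agent.ECLocal (InKernel)

namespace Fermat.Agent.LT.C0

local instance isAlgebraicQbar_ltC0Admissible : Algebra.IsAlgebraic ℚ (AlgebraicClosure ℚ) :=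
  AlgebraicClosure.isAlgebraic ℚ

/-- Inertia at `q ≠ 3` fixes every cube root of an integer whose `q`-valuation is divisible
by `3`. -/
theorem inertia_fixes_cubeRoots {δ u : ℤ} {q k : ℕ} (hq : q.Prime) (hq3 : q ≠ 3)
    (hδ : δ = (q : ℤ) ^ (3 * k) * u) (hu : ¬ (q : ℤ) ∣ u) {A : ValuationSubring Qbar}
    (hA : A.LiesOverPrime q) {σ : GalQ} (hσ : σ ∈ A.inertiaSubgroupIn ℚ) {c : Qbar}
    (hc : c ^ 3 = (δ : Qbar)) : σ c = c := by
  have hq3' : ¬ q ∣ 3 := fun h => hq3 ((Nat.prime_dvd_prime_iff_eq hq Nat.prime_three).1 h)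
  have hq0 : (q : Qbar) ≠ 0 := Nat.cast_ne_zero.2 hq.ne_zero
  obtain ⟨d, rfl⟩ : ∃ d, c = (q : Qbar) ^ k * d :=
    ⟨c / (q : Qbar) ^ k, by field_simp⟩
  have hd : d ^ 3 = (u : Qbar) := by
    refine mul_left_cancel₀ (pow_ne_zero (3 * k) hq0) ?_
    rw [hδ] at hc
    push_cast at hc
    rw [← hc, mul_pow, ← pow_mul, mul_comm k 3]
  have hv : A.valuation d = 1 := by
    refine (pow_eq_one_iff.mp ?_).resolve_right (by norm_num : ¬ (3 = 0))
    rw [← map_pow, hd]
    exact ECLocal.valuation_intCast_eq_one hq hu A hA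
  have hd0 : d ≠ 0 := ECLocal.ne_zero_of_v_eq_one hv
  have hmem : d ∈ A := (A.valuation_le_one_iff d).1 hv.le
  have h1 : σ d / d = 1 := by
    refine Galois.rootOfUnity_eq_of_sub_mem_nonunits hA hq hq3' ?_ (one_pow 3) ?_
    · rw [div_pow, ← map_pow, hd, map_intCast, div_self]
      rw [← hd]
      exact pow_ne_zero _ hd0
    · have h := Galois.inertia_sub_mem_nonunits hσ hmem
      rw [A.mem_nonunits_iff] at h ⊢
      change A.valuation (σ d / d - 1) < 1
      rw [div_sub_one hd0, map_div₀, hv, div_one]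
      exact h
  rw [map_mul, map_pow, map_natCast, (div_eq_one_iff_eq hd0).1 h1]

variable {W : WeierstrassCurve ℤ}

set_option quotPrecheck false

local notation "E₃" => Submodule.torsionBy ℤ ((W.map (Int.castRingHom ℚ))⁄Qbar).Point (3 : ℕ)
local notation "rho" => galoisRep (S := ℚ) (K := Qbar) (W.map (Int.castRingHom ℚ)).toAffine 3

/-- The mod `3` representation of an admissible curve is surjective. -/
theorem IsThreeAdmissible.rho_surjective (hW : IsThreeAdmissible W) :
    Function.Surjective rho :=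
  rho_three_surjective hW.delta_ne_zero hW.semistable hW.irreducible

/-- `3` splits completely in `F'/F`. -/
theorem IsThreeAdmissible.cubeRoots_fixed_above_three (hW : IsThreeAdmissible W)
    {A : ValuationSubring Qbar} (hA : A.LiesOverPrime 3) {σ : GalQ}
    (hσ : σ ∈ A.decompositionSubgroup ℚ) (hζ : ∀ ζ : Qbar, ζ ^ 3 = 1 → σ ζ = ζ) {c : Qbar}
    (hc : c ^ 3 = (W.Δ : Qbar)) : σ c = c := by
  obtain ⟨m, u, h, hu⟩ := hW.cube
  exact cubeRoots_fixed h hu hA hσ hζ hc

/-- Inertia at `q ≠ 3` fixing the cube roots of `Δ` acts trivially on `W[3]`. -/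
theorem IsThreeAdmissible.smul_eq_self_away_three (hW : IsThreeAdmissible W) {q : ℕ}
    (hq : q.Prime) (hq3 : q ≠ 3) {A : ValuationSubring Qbar} (hA : A.LiesOverPrime q) {σ : GalQ}
    (hσ : σ ∈ A.inertiaSubgroupIn ℚ) {c : Qbar} (hc : c ^ 3 = (W.Δ : Qbar)) (hσc : σ c = c)
    (x : E₃) : σ • x = x :=
  smul_eq_self_of_root_fixed W hW.delta_ne_zero hq Nat.prime_three hq3 (hW.semistable q hq) hA hσ
    hc hσc x

/-- At multiplicative `3` inertia moves `W[3]` by elements of the kernel of reduction. -/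
theorem IsThreeAdmissible.inKernel_smul_sub_above_three (hW : IsThreeAdmissible W)
    (h3 : (3 : ℤ) ∣ W.Δ) {A : ValuationSubring Qbar} (hA : A.LiesOverPrime 3) {σ : GalQ}
    (hσ : σ ∈ A.inertiaSubgroupIn ℚ) (x : E₃) :
    InKernel A ((σ • x - x : E₃) : ((W.map (Int.castRingHom ℚ))⁄Qbar).Point) := by
  obtain ⟨m, u, h, hu⟩ := hW.cube
  exact inKernel_smul_sub_at_three W hW.delta_ne_zero h3
    (by simpa using hW.semistable 3 Nat.prime_three (by exact_mod_cast h3)) h hu hA hσ x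

/-- At multiplicative `3` the decomposition group of `F` acts on `W[3]` by `±1`. -/
theorem IsThreeAdmissible.rho_scalar_above_three (hW : IsThreeAdmissible W) (h3 : (3 : ℤ) ∣ W.Δ)
    {A : ValuationSubring Qbar} (hA : A.LiesOverPrime 3) {σ : GalQ}
    (hσ : σ ∈ A.decompositionSubgroup ℚ) (hζ : ∀ ζ : Qbar, ζ ^ 3 = 1 → σ ζ = ζ) :
    (∀ x : E₃, rho σ x = x) ∨ (∀ x : E₃, rho σ x = -x) := by
  have hΔ := hW.delta_ne_zero
  have hp : Nat.Prime 3 := Nat.prime_three
  have hd : ((3 : ℕ) : ℤ) ∣ W.Δ := by exact_mod_cast h3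
  have hc := hW.semistable 3 hp hd
  rcases (rho_of_fixes_cubeRoots hΔ σ).1 fun c hc' =>
    hW.cubeRoots_fixed_above_three hA hσ hζ hc' with h | h | h
  · exact Or.inl h
  · exact Or.inr h
  exfalso
  obtain ⟨z, hz, -, hzq⟩ := ECFormal.exists_sign_tors W hΔ hA hp (by norm_num) hd hc hσ
  obtain ⟨P, hP, hord⟩ := ECFormal.exists_inKernel_tors W hΔ hA hp (by norm_num) (fun _ => hc) 1
  have hact := ECFormal.smul_eq_cyclotomic_mul_sign W hΔ hA hp (by norm_num) (fun _ => hc)
    (ECFormal.ordinary_of_mult W hΔ hA hp (by norm_num) hd hc) hσ hz hzq (a := 1)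
    (fun μ hμ => by rw [hζ μ (by simpa using hμ), pow_one]) P hP
  have hsq : σ • σ • P = -P := h P
  have h2 : P + P = 0 := by
    rcases hz with rfl | rfl <;>
      · simp only [Nat.cast_one, one_mul, one_zsmul, neg_zsmul, one_smul, neg_smul, mul_neg] at hact
        simp only [hact, smul_neg, neg_neg] at hsq
        exact add_eq_zero_iff_eq_neg.2 hsq
  have hdvd : 3 ^ 1 ∣ 2 := hord ▸ addOrderOf_dvd_of_nsmul_eq_zero (by rw [two_nsmul, h2])
  norm_num at hdvd

/-- The image of `G_{F'}` is `{±1} ∪ {g : g ^ 2 = -1}` inside `SL₂(𝔽₃)`. -/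
theorem IsThreeAdmissible.rho_fixing_iff (hW : IsThreeAdmissible W) (f : E₃ ≃ₗ[ZMod 3] E₃) :
    (∃ σ : GalQ, (∀ ζ : Qbar, ζ ^ 3 = 1 → σ ζ = ζ) ∧
        (∀ c : Qbar, c ^ 3 = (W.Δ : Qbar) → σ c = c) ∧ rho σ = f) ↔
      LinearMap.det f.toLinearMap = 1 ∧
        ((∀ x, f x = x) ∨ (∀ x, f x = -x) ∨ (∀ x, f (f x) = -x)) := by
  constructor
  · rintro ⟨σ, hζ, hc, rfl⟩
    refine ⟨?_, (rho_of_fixes_cubeRoots hW.delta_ne_zero σ).1 hc⟩
    rw [det_rho hW.delta_ne_zero (n := 1) fun ζ hζ' => by rw [hζ ζ hζ', pow_one]]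
    exact Nat.cast_one
  · rintro ⟨hdet, hf⟩
    obtain ⟨σ, rfl⟩ := hW.rho_surjective f
    refine ⟨σ, ?_, (rho_of_fixes_cubeRoots hW.delta_ne_zero σ).2 hf, rfl⟩
    rcases exists_pow_cubeRoots σ with h | h
    · exact fun ζ hζ => by rw [h ζ hζ, pow_one]
    · exfalso
      rw [det_rho hW.delta_ne_zero (n := 2) h] at hdet
      exact zmod_three_facts.2.1 hdet.symm

end Fermat.Agent.LT.C0
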