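import Fermat.Agent.LT.Data.Galois
import Fermat.Agent.LT.C0.Admissible
import Fermat.Agent.ECFrob.Main
import Fermat.Agent.ECTorsion.Galois
import Fermat.Agent.WeilPairing.Det

/-!
# The mod `3` representation as an input of the descent

`torsRep b` is the matrix form of the action on `E[3]` in a basis `b`; for an admissible curve it
satisfies `IsThreeRep` as soon as it is surjective.
-/

set_option autoImplicit false

noncomputable section

namespace Fermat.Agent.LT.C0

open WeierstrassCurve WeierstrassCurve.Affine.Point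
open Fermat.Agent.Galois (Qbar GalQ)
open scoped WeierstrassCurve.Affine MatrixGroups

attribute [local instance] Nat.fact_prime_three

/-- The `3`-torsion over `ℚ̄`. -/
abbrev Tors3 (W : WeierstrassCurve ℤ) :=
  Submodule.torsionBy ℤ ((W.map (Int.castRingHom ℚ))⁄Qbar).Point ((3 : ℕ) : ℤ)

variable {W : WeierstrassCurve ℤ}

/-- The mod `3` representation in a basis. -/
def torsRep (b : Module.Basis (Fin 2) (ZMod 3) (Tors3 W)) : GalQ →* GL (Fin 2) (ZMod 3) :=
  MonoidHom.toHomUnits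
    ((LinearMap.toMatrixAlgEquiv b).toMonoidHom.comp
      (galoisRepModuleEnd (K := Qbar) ℚ (W.map (Int.castRingHom ℚ)) 3))

variable (b : Module.Basis (Fin 2) (ZMod 3) (Tors3 W))

theorem coe_torsRep (σ : GalQ) :
    (torsRep b σ : Matrix (Fin 2) (Fin 2) (ZMod 3)) =
      LinearMap.toMatrixAlgEquiv b
        (galoisRepModuleEnd (K := Qbar) ℚ (W.map (Int.castRingHom ℚ)) 3 σ) :=
  rfl

theorem torsRep_eq_one_iff (σ : GalQ) : torsRep b σ = 1 ↔ ∀ x : Tors3 W, σ • x = x := by
  constructor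
  · intro h x
    have h' : (torsRep b σ : Matrix (Fin 2) (Fin 2) (ZMod 3)) = 1 := by rw [h]; rfl
    rw [coe_torsRep, map_eq_one_iff _ (LinearMap.toMatrixAlgEquiv b).injective] at h'
    exact LinearMap.congr_fun h' x
  · intro h
    refine Units.ext ?_
    rw [coe_torsRep, Units.val_one, map_eq_one_iff _ (LinearMap.toMatrixAlgEquiv b).injective]
    exact LinearMap.ext h

theorem torsRep_eq_neg_one (σ : GalQ) (h : ∀ x : Tors3 W, σ • x = -x) :
    (torsRep b σ : Matrix (Fin 2) (Fin 2) (ZMod 3)) = -1 := by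
  rw [coe_torsRep, show galoisRepModuleEnd (K := Qbar) ℚ (W.map (Int.castRingHom ℚ)) 3 σ =
    (-1 : Module.End (ZMod 3) (Tors3 W)) from LinearMap.ext h, map_neg, map_one]

theorem sq_torsRep_eq_neg_one (σ : GalQ) (h : ∀ x : Tors3 W, σ • σ • x = -x) :
    (torsRep b σ : Matrix (Fin 2) (Fin 2) (ZMod 3)) * torsRep b σ = -1 := by
  rw [coe_torsRep, ← map_mul,
    show galoisRepModuleEnd (K := Qbar) ℚ (W.map (Int.castRingHom ℚ)) 3 σ *
        galoisRepModuleEnd (K := Qbar) ℚ (W.map (Int.castRingHom ℚ)) 3 σ =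
      (-1 : Module.End (ZMod 3) (Tors3 W)) from LinearMap.ext h, map_neg, map_one]

theorem factors_torsRep (hΔ : W.Δ ≠ 0) : GaloisFactorsThroughFiniteLevel (torsRep b) := by
  obtain ⟨L, hL, h⟩ := ECTorsion.galoisFactorsThroughFiniteLevel_galoisRepModuleEnd
    (W.map (Int.castRingHom ℚ)) (ECTorsion.map_castRingHom_Δ_ne_zero W hΔ)
    (n := 3) (by norm_num)
  exact ⟨L, hL, fun σ hσ => (torsRep_eq_one_iff b σ).mpr (LinearMap.congr_fun (h σ hσ))⟩

theorem det_torsRep (hΔ : W.Δ ≠ 0) (σ : GalQ) :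
    Matrix.GeneralLinearGroup.det (torsRep b σ) = modThreeCyclotomicChar σ := by
  have h := WeilPairing.galoisRepDetEqCyclotomic_qbar (W.map (Int.castRingHom ℚ))
    (ECTorsion.map_castRingHom_Δ_ne_zero W hΔ) 3
    (IsAlgClosed.card_rootsOfUnity_eq (AlgebraicClosure ℚ) 3) σ
  rw [galoisRepDet_apply] at h
  refine Units.ext ?_
  rw [modThreeCyclotomicChar_apply, ← h, Matrix.GeneralLinearGroup.val_det_apply, coe_torsRep,
    LinearEquiv.coe_det]
  exact LinearMap.det_toMatrix b _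

theorem good_torsRep {ℓ : ℕ} (hℓ : ℓ.Prime) (hgood : W.IsGoodPrimeFor ℓ) (h3 : ℓ ≠ 3)
    {A : ValuationSubring Qbar} (hA : A.LiesOverPrime ℓ) :
    (∀ σ ∈ A.inertiaSubgroupIn ℚ, torsRep b σ = 1) ∧
      ∀ σ, A.IsFrobeniusAt σ ℓ →
        (torsRep b σ : Matrix (Fin 2) (Fin 2) (ZMod 3)).trace = (W.apOfModel ℓ : ZMod 3) := by
  refine ⟨fun σ hσ => (torsRep_eq_one_iff b σ).mpr fun x =>
    ECLocal.galoisRepUnramifiedAt_of_good W hℓ hgood
      (fun h => h3 ((Nat.prime_dvd_prime_iff_eq hℓ Nat.prime_three).mp h)) A hA σ hσ x,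
    fun σ hσ => ?_⟩
  rw [← ECFrob.galoisTrace_eq_apOfModel W hℓ Nat.prime_three h3 hgood A hA σ hσ, galoisTrace_def,
    LinearMap.trace_eq_matrix_trace (ZMod 3) b, coe_torsRep]
  rfl

theorem unipotent_torsRep (hW : W.IsSemistableModel) (hΔ : W.Δ ≠ 0) {q : ℕ} (hq : q.Prime)
    (h3 : q ≠ 3) {A : ValuationSubring Qbar} (hA : A.LiesOverPrime q) {σ : GalQ}
    (hσ : σ ∈ A.inertiaSubgroupIn ℚ) :
    ((torsRep b σ : Matrix (Fin 2) (Fin 2) (ZMod 3)) - 1) ^ 2 = 0 := by
  rw [coe_torsRep, ← map_one (LinearMap.toMatrixAlgEquiv b), ← map_sub, ← map_pow,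
    map_eq_zero_iff _ (LinearMap.toMatrixAlgEquiv b).injective, pow_two]
  refine LinearMap.ext fun x => ?_
  exact sub_eq_zero.mpr (ECLocal.smul_smul_sub_eq_of_semistable W hΔ hq (hW q hq)
    (fun h => h3 ((Nat.prime_dvd_prime_iff_eq hq Nat.prime_three).mp h)) hA hσ hσ x)

theorem fixes_roots_of_char_eq_one {σ : GalQ} (hχ : modThreeCyclotomicChar σ = 1) (ζ : Qbar)
    (hζ : ζ ^ 3 = 1) : σ ζ = ζ := by
  have hu' : IsUnit ζ := IsUnit.of_pow_eq_one hζ (by norm_num)
  have := modularCyclotomicCharacter.spec Qbar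
    (IsAlgClosed.card_rootsOfUnity_eq (AlgebraicClosure ℚ) 3) (σ : Qbar ≃+* Qbar)
    (t := hu'.unit) ((mem_rootsOfUnity _ _).mpr (Units.ext (by simpa using hζ)))
  rw [modThreeCyclotomicChar_apply] at hχ
  rw [hχ] at this
  simpa [ZMod.val_one] using this

/-- A decomposition element at `3` with trivial cyclotomic character fixes the cube roots of
`Δ`, hence acts by `±1` or squares to `-1`. -/
theorem decomposition_three_cases (hW : IsThreeAdmissible W) {A : ValuationSubring Qbar}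
    (hA : A.LiesOverPrime 3) {σ : GalQ} (hσ : σ ∈ A.decompositionSubgroup ℚ)
    (hχ : modThreeCyclotomicChar σ = 1) :
    (∀ x : Tors3 W, σ • x = x) ∨ (∀ x : Tors3 W, σ • x = -x) ∨
      (∀ x : Tors3 W, σ • σ • x = -x) :=
  (rho_of_fixes_cubeRoots hW.delta_ne_zero σ).1 fun _ hc =>
    hW.cubeRoots_fixed_above_three hA hσ (fixes_roots_of_char_eq_one hχ) hc

theorem inQuat_of_cases : ∀ a b c d : ZMod 3,
    ((a = 1 ∧ b = 0 ∧ c = 0 ∧ d = 1) ∨ (a = -1 ∧ b = 0 ∧ c = 0 ∧ d = -1) ∨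
      (a * a + b * c = -1 ∧ a * b + b * d = 0 ∧ c * a + d * c = 0 ∧ c * b + d * d = -1)) →
    InQuat a b c d := by
  decide +kernel

theorem split_three_torsRep (hW : IsThreeAdmissible W) {A : ValuationSubring Qbar}
    (hA : A.LiesOverPrime 3) {σ : GalQ} (hσ : σ ∈ A.decompositionSubgroup ℚ)
    (hχ : modThreeCyclotomicChar σ = 1) : torsRep b σ ∈ quatSubgroup := by
  rw [mem_quatSubgroup]
  refine inQuat_of_cases _ _ _ _ ?_
  rcases decomposition_three_cases hW hA hσ hχ with h | h | h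
  · left
    rw [(torsRep_eq_one_iff b σ).mpr h]
    simp
  · right; left
    rw [torsRep_eq_neg_one b σ h]
    simp
  · right; right
    have h' := sq_torsRep_eq_neg_one b σ h
    refine ⟨?_, ?_, ?_, ?_⟩
    · simpa [Matrix.mul_apply, Fin.sum_univ_two, Matrix.one_apply] using congr_fun (congr_fun h' 0) 0
    · simpa [Matrix.mul_apply, Fin.sum_univ_two, Matrix.one_apply] using congr_fun (congr_fun h' 0) 1
    · simpa [Matrix.mul_apply, Fin.sum_univ_two, Matrix.one_apply] using congr_fun (congr_fun h' 1) 0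
    · simpa [Matrix.mul_apply, Fin.sum_univ_two, Matrix.one_apply] using congr_fun (congr_fun h' 1) 1

theorem scalar_three_torsRep (hW : IsThreeAdmissible W) (hd : (3 : ℤ) ∣ W.Δ)
    {A : ValuationSubring Qbar} (hA : A.LiesOverPrime 3) {σ : GalQ}
    (hσ : σ ∈ A.decompositionSubgroup ℚ) (hχ : modThreeCyclotomicChar σ = 1) :
    (torsRep b σ : Matrix (Fin 2) (Fin 2) (ZMod 3)) = 1 ∨
      (torsRep b σ : Matrix (Fin 2) (Fin 2) (ZMod 3)) = -1 := by
  rcases hW.rho_scalar_above_three hd hA hσ (fixes_roots_of_char_eq_one hχ) with h | h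
  · left; rw [(torsRep_eq_one_iff b σ).mpr h]; rfl
  · right; exact torsRep_eq_neg_one b σ h

theorem unram_three_torsRep (hW : IsThreeAdmissible W) (hd : (3 : ℤ) ∣ W.Δ)
    {A : ValuationSubring Qbar} (hA : A.LiesOverPrime 3) {σ : GalQ}
    (hσ : σ ∈ A.inertiaSubgroupIn ℚ) (hχ : modThreeCyclotomicChar σ = 1) : torsRep b σ = 1 := by
  have hdec := ECLocal.decomposition_of_inertia hσ
  have hζ := fixes_roots_of_char_eq_one hχ
  rcases hW.rho_scalar_above_three hd hA hdec hζ with h | h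
  · exact (torsRep_eq_one_iff b σ).mpr h
  exfalso
  have hd' : ((3 : ℕ) : ℤ) ∣ W.Δ := by exact_mod_cast hd
  have hc := hW.semistable 3 Nat.prime_three hd'
  have hΔ := hW.delta_ne_zero
  obtain ⟨z, hz, hz1, hzq⟩ :=
    ECFormal.exists_sign_tors W hΔ hA Nat.prime_three (by norm_num) hd' hc hdec
  obtain ⟨P, hP, hord⟩ :=
    ECFormal.exists_inKernel_tors W hΔ hA Nat.prime_three (by norm_num) (fun _ => hc) 1
  have hact := ECFormal.smul_eq_cyclotomic_mul_sign W hΔ hA Nat.prime_three (by norm_num)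
    (fun _ => hc) (ECFormal.ordinary_of_mult W hΔ hA Nat.prime_three (by norm_num) hd' hc) hdec hz
    hzq (a := 1) (fun μ hμ => by rw [hζ μ (by simpa using hμ), pow_one]) P hP
  rw [hz1 hσ] at hact
  have hact' : σ • P = P := by simpa using hact
  have hneg : σ • P = -P := h P
  have h2 : P + P = 0 := add_eq_zero_iff_eq_neg.2 (hact'.symm.trans hneg)
  have hdvd : 3 ^ 1 ∣ 2 := hord ▸ addOrderOf_dvd_of_nsmul_eq_zero (by rw [two_nsmul, h2])
  norm_num at hdvd

/-- The properties used by the descent, given surjectivity. -/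
theorem isThreeRep_torsRep (hW : IsThreeAdmissible W)
    (hsurj : Function.Surjective (torsRep b)) : IsThreeRep W (torsRep b) where
  factors := factors_torsRep b hW.delta_ne_zero
  surjective := hsurj
  det := det_torsRep b hW.delta_ne_zero
  good ℓ hℓ hgood h3 A hA := good_torsRep b hℓ hgood h3 hA
  unipotent q hq h3 A hA σ hσ := unipotent_torsRep b hW.semistable hW.delta_ne_zero hq h3 hA hσ
  split_three A hA σ hσ hχ := split_three_torsRep b hW hA hσ hχ
  scalar_three hd A hA σ hσ hχ := scalar_three_torsRep b hW hd hA hσ hχ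
  unram_three hd A hA σ hσ hχ := unram_three_torsRep b hW hd hA hσ hχ

theorem nonempty_basis_tors3 (hΔ : W.Δ ≠ 0) :
    Nonempty (Module.Basis (Fin 2) (ZMod 3) (Tors3 W)) := by
  obtain ⟨e⟩ := ECTorsion.nonempty_linearEquiv_torsionBy_baseChange
    (K := Qbar) (W := W.map (Int.castRingHom ℚ)) (n := 3)
    (ECTorsion.algebraMap_qbar_Δ_ne_zero _ (ECTorsion.map_castRingHom_Δ_ne_zero W hΔ))
    (by norm_num)
  exact ⟨Module.Basis.ofEquivFun e⟩

theorem torsRep_surjective (hW : IsThreeAdmissible W) : Function.Surjective (torsRep b) := by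
  intro g
  obtain ⟨σ, hσ⟩ := hW.rho_surjective (LinearMap.GeneralLinearGroup.generalLinearEquiv _ _
    (Units.map (LinearMap.toMatrixAlgEquiv b).symm.toMonoidHom g))
  refine ⟨σ, Units.ext ?_⟩
  rw [coe_torsRep]
  apply (LinearMap.toMatrixAlgEquiv b).symm.injective
  rw [AlgEquiv.symm_apply_apply]
  exact LinearMap.ext fun x => LinearEquiv.congr_fun hσ x

/-- The mod `3` representation of an admissible curve. -/
theorem exists_isThreeRep (hW : IsThreeAdmissible W) :
    ∃ ρ : GalQ →* GL (Fin 2) (ZMod 3), IsThreeRep W ρ := by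
  obtain ⟨b⟩ := nonempty_basis_tors3 hW.delta_ne_zero
  exact ⟨torsRep b, isThreeRep_torsRep b hW (torsRep_surjective b hW)⟩

end Fermat.Agent.LT.C0
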