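import Fermat.Agent.LT.Interface
import Fermat.Agent.LT.C0.Supersingular
import Fermat.Agent.LT.C0.SwitchThree
import Fermat.Agent.LT.C0.Irreducible
import Fermat.Agent.LT.C0.Congruence
import Fermat.Agent.LT.C0.Rep

/-!
# C0: the switched curve of a Frey package
-/

set_option autoImplicit false

open WeierstrassCurve

namespace Fermat.Agent.LT.C0

/-- If `3 ∣ abc` some member of the family is admissible and multiplicative at `3`. -/
theorem exists_switched (W : WeierstrassCurve ℤ) (hW : W.IsSemistableModel) (hΔ : W.Δ ≠ 0)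
    (h3 : (3 : ℤ) ^ 10 ∣ W.Δ) :
    ∃ W' : WeierstrassCurve ℤ, IsThreeAdmissible W' ∧ (3 : ℤ) ∣ W'.Δ ∧
      ∀ ℓ : ℕ, ℓ.Prime → W.IsGoodPrimeFor ℓ → W'.IsGoodPrimeFor ℓ → ℓ ≠ 5 →
        (5 : ℤ) ∣ W'.apOfModel ℓ - W.apOfModel ℓ := by
  obtain ⟨a, b₀, N, ha, hN, hk⟩ := exists_switch_three W hW hΔ h3
  choose W' e4 e6 hΔ' hss hD3 h43 hcube using fun k : ℕ => hk k
  have hC4 : ¬ (3 : ℤ) ∣ W.c₄ :=
    hW 3 Nat.prime_three ((dvd_pow_self (3 : ℤ) (by norm_num)).trans h3)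
  have hC6 : W.c₆ ≠ 0 := by
    intro h
    have e := W.c_relation
    rw [h, zero_pow two_ne_zero, sub_zero] at e
    refine hC4 (Int.prime_three.dvd_of_dvd_pow (n := 3) (e ▸ ?_))
    exact dvd_mul_of_dvd_left (by norm_num) _
  have hd : W.c₄ ^ 3 ≠ W.c₆ ^ 2 := by
    intro h
    have e := W.c_relation
    rw [h, sub_self, mul_eq_zero] at e
    exact hΔ (e.resolve_left (by norm_num))
  obtain ⟨k, hirr⟩ := exists_irreducible_member hd ha hN (l := 3 ^ 10) W' hΔ'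
    (fun k => by rw [← e4 k, ← pow_mul]) (fun k => by rw [← e6 k, ← pow_mul])
  refine ⟨W' k, ⟨hΔ' k, hss k, hirr, hcube k, Or.inr ⟨hD3 k, h43 k⟩⟩, hD3 k, ?_⟩
  intro ℓ hℓ hg hg' h5
  exact apOfModel_congr_five W (W' k) hΔ (fun h => hC4 (h ▸ dvd_zero _)) hC6 (hΔ' k)
    (l := 3 ^ 5) (pow_ne_zero _ (by norm_num)) (by rw [← e4 k, ← pow_mul])
    (by rw [← e6 k, ← pow_mul]) hℓ hg hg' h5

/-- C0 holds. -/
theorem stmtC0 : StmtC0 := by
  intro P
  have hss := Wiring.freyCurveInt_isSemistableModel P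
  have hΔ := Wiring.freyCurveInt_delta_ne_zero P
  by_cases h : (3 : ℤ) ∣ P.a * P.b * P.c
  · have h10 : (3 : ℤ) ^ 10 ∣ P.freyCurveInt.Δ := by
      have hc : IsCoprime ((3 : ℤ) ^ 10) 256 := by
        rw [Int.isCoprime_iff_gcd_eq_one]; norm_num
      refine hc.dvd_of_dvd_mul_left ?_
      rw [Wiring.freyCurveInt_delta P]
      exact (pow_dvd_pow (3 : ℤ) (show 10 ≤ 2 * P.p by have := P.hp5; omega)).trans
        (pow_dvd_pow_of_dvd h _)
    obtain ⟨W', hW', hD3, hcong⟩ := exists_switched P.freyCurveInt hss hΔ h10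
    obtain ⟨ρ, hρ⟩ := exists_isThreeRep hW'
    exact ⟨W', ρ, hW'.delta_ne_zero, hW'.semistable, hW'.irreducible, hρ, Or.inr hD3, hcong⟩
  · have hW := frey_isThreeAdmissible P h
    obtain ⟨ρ, hρ⟩ := exists_isThreeRep hW
    refine ⟨P.freyCurveInt, ρ, hW.delta_ne_zero, hW.semistable, hW.irreducible, hρ, ?_,
      fun ℓ _ _ _ _ => by simp⟩
    exact Or.inl (hW.local_three.resolve_right
      (fun hh => h (Wiring.prime_dvd_abc_of_dvd_delta P Nat.prime_three hh.1)))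

end Fermat.Agent.LT.C0
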