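import Fermat.Prelude.Def_FLTPrelim_ModularRep
import Fermat.Agent.EC35.Reducible
import Fermat.Agent.Descent.NegDisc
import Fermat.Agent.Wiring.FreyModel
import Fermat.Agent.ECTorsion.Galois

/-!
The mod 5 representation of an elliptic curve over `ℚ` with square discriminant is irreducible
(rational points of a twist of `X₀(20)`); in particular this holds for Frey curves.
-/

set_option autoImplicit false

open WeierstrassCurve WeierstrassCurve.Affine WeierstrassCurve.Affine.Point

namespace Fermat.Agent.LT.C0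

theorem irreducible_five_of_sq_disc (E : WeierstrassCurve ℚ) {s : ℚ} (hs : s ≠ 0)
    (hΔ : E.Δ = s ^ 2) :
    GaloisRepIsIrreducible (K := AlgebraicClosure ℚ) ℚ E 5 := by
  by_contra h
  obtain ⟨r, hr, e⟩ := EC35.exists_five_param_of_reducible (by rw [hΔ]; exact pow_ne_zero _ hs) h
  have hq : r ^ 2 + 4 * r - 1 ≠ 0 := by
    intro h0
    -- `5` is not the square of a rational number
    have h5 : (r + 2) ^ 2 = ((5 : ℤ) : ℚ) := by push_cast; linarith
    obtain ⟨m, hm⟩ := Descent.rat_isInt_of_sq h5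
    rw [hm] at h5
    have h5' : m ^ 2 = 5 := by exact_mod_cast h5
    have h1 : m ≤ 2 := by nlinarith
    have h2 : -2 ≤ m := by nlinarith
    interval_cases m <;> simp at h5'
  have hc6 : E.c₆ ^ 2 * r = E.Δ * ((r ^ 2 + 22 * r + 125) * (r ^ 2 + 4 * r - 1) ^ 2) := by
    linear_combination e + r * E.c_relation
  rw [hΔ] at hc6
  refine hr (Descent.x20 r (E.c₆ * r / (s * (r ^ 2 + 4 * r - 1))) ?_)
  rw [div_pow, div_eq_iff (pow_ne_zero 2 (mul_ne_zero hs hq))]
  linear_combination r * hc6

/-- The mod 5 representation of a Frey curve is irreducible. -/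
theorem frey_irreducible_five (P : FreyPackage) : P.freyCurveInt.ModRepIsIrreducible 5 := by
  rw [WeierstrassCurve.ModRepIsIrreducible, Wiring.freyCurveInt_map]
  refine irreducible_five_of_sq_disc P.freyCurve
    (s := (P.a : ℚ) ^ P.p * (P.b : ℚ) ^ P.p * (P.c : ℚ) ^ P.p / 16)
    (fun h => ECTorsion.freyCurve_Δ_ne_zero P ?_) ?_
  · rw [ECTorsion.freyCurve_Δ_eq]
    linear_combination ((P.a : ℚ) ^ P.p * (P.b : ℚ) ^ P.p * (P.c : ℚ) ^ P.p / 16) * h
  · rw [ECTorsion.freyCurve_Δ_eq]; ring

end Fermat.Agent.LT.C0
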