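import Fermat.Agent.Switch35.Forms

set_option autoImplicit false

namespace Fermat.Agent.LT.C0

open Fermat.Agent.Switch35

variable {R : Type*} [CommRing R]

def cuspPoly (C₄ C₆ a b : R) : R :=
    ((((1) * (b ^ 12)
    + ((- 66 * C₄) * (a ^ 2 * b ^ 10)
    + (440 * C₆) * (a ^ 3 * b ^ 9)))
    + ((- 1485 * C₄ ^ 2) * (a ^ 4 * b ^ 8)
    + ((3168 * C₄ * C₆) * (a ^ 5 * b ^ 7)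
    + (- 10560 * C₆ ^ 2 + 5940 * C₄ ^ 3) * (a ^ 6 * b ^ 6))))
    + (((4752 * C₄ ^ 2 * C₆) * (a ^ 7 * b ^ 5)
    + ((63360 * C₄ * C₆ ^ 2 - 66825 * C₄ ^ 4) * (a ^ 8 * b ^ 4)
    + (- 140800 * C₆ ^ 3 + 142560 * C₄ ^ 3 * C₆) * (a ^ 9 * b ^ 3)))
    + ((133056 * C₄ ^ 2 * C₆ ^ 2 - 133650 * C₄ ^ 5) * (a ^ 10 * b ^ 2)
    + ((- 61440 * C₄ * C₆ ^ 3 + 61560 * C₄ ^ 4 * C₆) * (a ^ 11 * b ^ 1)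
    + (102400 * C₆ ^ 4 - 193536 * C₄ ^ 3 * C₆ ^ 2 + 91125 * C₄ ^ 6) * (a ^ 12)))))

def fourExplicit (C₄ C₆ a b : R) : R :=
    (((((1 * C₄) * (b ^ 20)
    + (- 20 * C₆) * (a ^ 1 * b ^ 19))
    + ((190 * C₄ ^ 2) * (a ^ 2 * b ^ 18)
    + ((- 1140 * C₄ * C₆) * (a ^ 3 * b ^ 17)
    + (5700 * C₆ ^ 2 - 855 * C₄ ^ 3) * (a ^ 4 * b ^ 16))))
    + (((- 15504 * C₄ ^ 2 * C₆) * (a ^ 5 * b ^ 15)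
    + (- 63840 * C₄ * C₆ ^ 2 + 102600 * C₄ ^ 4) * (a ^ 6 * b ^ 14))
    + ((182400 * C₆ ^ 3 - 259920 * C₄ ^ 3 * C₆) * (a ^ 7 * b ^ 13)
    + ((1126320 * C₄ ^ 2 * C₆ ^ 2 - 1000350 * C₄ ^ 5) * (a ^ 8 * b ^ 12)
    + (- 7904000 * C₄ * C₆ ^ 3 + 7736040 * C₄ ^ 4 * C₆) * (a ^ 9 * b ^ 11)))))
    + ((((15808000 * C₆ ^ 4 - 5619744 * C₄ ^ 3 * C₆ ^ 2 - 10003500 * C₄ ^ 6) * (a ^ 10 * b ^ 10)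
    + (- 54853760 * C₄ ^ 2 * C₆ ^ 3 + 54685800 * C₄ ^ 5 * C₆) * (a ^ 11 * b ^ 9))
    + ((37939200 * C₄ * C₆ ^ 4 + 7202520 * C₄ ^ 4 * C₆ ^ 2 - 45015750 * C₄ ^ 7) * (a ^ 12 * b ^ 8)
    + ((- 58368000 * C₆ ^ 5 + 23201280 * C₄ ^ 3 * C₆ ^ 3 + 35089200 * C₄ ^ 6 * C₆) * (a ^ 13 * b ^ 7)
    + (287462400 * C₄ ^ 2 * C₆ ^ 4 - 495188640 * C₄ ^ 5 * C₆ ^ 2 + 207765000 * C₄ ^ 8) * (a ^ 14 * b ^ 6))))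
    + (((- 466944000 * C₄ * C₆ ^ 5 + 882458496 * C₄ ^ 4 * C₆ ^ 3 - 415530000 * C₄ ^ 7 * C₆) * (a ^ 15 * b ^ 5)
    + ((583680000 * C₆ ^ 6 - 1220474880 * C₄ ^ 3 * C₆ ^ 4 + 714711600 * C₄ ^ 6 * C₆ ^ 2 - 77911875 * C₄ ^ 9) * (a ^ 16 * b ^ 4)
    + (- 361881600 * C₄ ^ 2 * C₆ ^ 5 + 715080960 * C₄ ^ 5 * C₆ ^ 3 - 353200500 * C₄ ^ 8 * C₆) * (a ^ 17 * b ^ 3)))
    + ((- 622592000 * C₄ * C₆ ^ 6 + 2026391040 * C₄ ^ 4 * C₆ ^ 4 - 2182917600 * C₄ ^ 7 * C₆ ^ 2 + 779118750 * C₄ ^ 10) * (a ^ 18 * b ^ 2)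
    + ((655360000 * C₆ ^ 7 - 2005401600 * C₄ ^ 3 * C₆ ^ 5 + 2044414080 * C₄ ^ 6 * C₆ ^ 3 - 694372500 * C₄ ^ 9 * C₆) * (a ^ 19 * b ^ 1)
    + (- 180224000 * C₄ ^ 2 * C₆ ^ 6 + 544997376 * C₄ ^ 5 * C₆ ^ 4 - 549301500 * C₄ ^ 8 * C₆ ^ 2 + 184528125 * C₄ ^ 11) * (a ^ 20))))))

def sixExplicit (C₄ C₆ a b : R) : R :=
    (((((1 * C₆) * (b ^ 30)
    + ((- 30 * C₄ ^ 2) * (a ^ 1 * b ^ 29)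
    + (435 * C₄ * C₆) * (a ^ 2 * b ^ 28)))
    + (((- 2900 * C₆ ^ 2 - 1160 * C₄ ^ 3) * (a ^ 3 * b ^ 27)
    + (27405 * C₄ ^ 2 * C₆) * (a ^ 4 * b ^ 26))
    + ((- 46980 * C₄ * C₆ ^ 2 - 95526 * C₄ ^ 4) * (a ^ 5 * b ^ 25)
    + (156600 * C₆ ^ 3 + 437175 * C₄ ^ 3 * C₆) * (a ^ 6 * b ^ 24))))
    + ((((- 3915000 * C₄ ^ 2 * C₆ ^ 2 + 1879200 * C₄ ^ 5) * (a ^ 7 * b ^ 23)
    + (14407200 * C₄ * C₆ ^ 3 - 8554275 * C₄ ^ 4 * C₆) * (a ^ 8 * b ^ 22))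
    + ((- 32016000 * C₆ ^ 4 + 42021000 * C₄ ^ 3 * C₆ ^ 2 - 24312150 * C₄ ^ 6) * (a ^ 9 * b ^ 21)
    + (- 216588240 * C₄ ^ 2 * C₆ ^ 3 + 246633255 * C₄ ^ 5 * C₆) * (a ^ 10 * b ^ 20)))
    + (((1459929600 * C₄ * C₆ ^ 4 - 1352475900 * C₄ ^ 4 * C₆ ^ 2 - 162081000 * C₄ ^ 7) * (a ^ 11 * b ^ 19)
    + (- 2433216000 * C₆ ^ 5 - 1612005600 * C₄ ^ 3 * C₆ ^ 3 + 4131714825 * C₄ ^ 6 * C₆) * (a ^ 12 * b ^ 18))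
    + ((12044419200 * C₄ ^ 2 * C₆ ^ 4 - 5235216300 * C₄ ^ 5 * C₆ ^ 2 - 6928962750 * C₄ ^ 8) * (a ^ 13 * b ^ 17)
    + (- 43045111800 * C₄ ^ 4 * C₆ ^ 3 + 43190534475 * C₄ ^ 7 * C₆) * (a ^ 14 * b ^ 16)))))
    + (((((79420170240 * C₄ ^ 3 * C₆ ^ 4 - 79575287760 * C₄ ^ 6 * C₆ ^ 2) * (a ^ 15 * b ^ 15)
    + (- 297825638400 * C₄ ^ 2 * C₆ ^ 5 + 474659611200 * C₄ ^ 5 * C₆ ^ 3 - 176688550125 * C₄ ^ 8 * C₆) * (a ^ 16 * b ^ 14))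
    + ((700766208000 * C₄ * C₆ ^ 6 - 935084908800 * C₄ ^ 4 * C₆ ^ 4 - 77604382800 * C₄ ^ 7 * C₆ ^ 2 + 311803323750 * C₄ ^ 10) * (a ^ 17 * b ^ 13)
    + (- 778629120000 * C₆ ^ 7 - 303665356800 * C₄ ^ 3 * C₆ ^ 5 + 2776512362400 * C₄ ^ 6 * C₆ ^ 3 - 1694131392375 * C₄ ^ 9 * C₆) * (a ^ 18 * b ^ 12)))
    + (((4290656256000 * C₄ ^ 2 * C₆ ^ 6 - 8100765158400 * C₄ ^ 5 * C₆ ^ 4 + 3481840250100 * C₄ ^ 8 * C₆ ^ 2 + 328214025000 * C₄ ^ 11) * (a ^ 19 * b ^ 11)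
    + (- 3442360320000 * C₄ * C₆ ^ 7 + 3892110842880 * C₄ ^ 4 * C₆ ^ 5 + 2424887357760 * C₄ ^ 7 * C₆ ^ 3 - 2874607835625 * C₄ ^ 10 * C₆) * (a ^ 20 * b ^ 10))
    + ((3278438400000 * C₆ ^ 8 - 5125838438400 * C₄ ^ 3 * C₆ ^ 6 + 2709129888000 * C₄ ^ 6 * C₆ ^ 4 - 3077188825500 * C₄ ^ 9 * C₆ ^ 2 + 2215444668750 * C₄ ^ 12) * (a ^ 21 * b ^ 9)
    + (- 4573421568000 * C₄ ^ 2 * C₆ ^ 7 + 7701051801600 * C₄ ^ 5 * C₆ ^ 5 - 1724509423800 * C₄ ^ 8 * C₆ ^ 3 - 1403114956875 * C₄ ^ 11 * C₆) * (a ^ 22 * b ^ 8))))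
    + ((((- 6157762560000 * C₄ * C₆ ^ 8 + 30337884979200 * C₄ ^ 4 * C₆ ^ 6 - 49888700928000 * C₄ ^ 7 * C₆ ^ 4 + 33414470973000 * C₄ ^ 10 * C₆ ^ 2 - 7705894500000 * C₄ ^ 13) * (a ^ 23 * b ^ 7)
    + (5131468800000 * C₆ ^ 9 - 22779445248000 * C₄ ^ 3 * C₆ ^ 7 + 35246094796800 * C₄ ^ 6 * C₆ ^ 5 - 22687218914400 * C₄ ^ 9 * C₆ ^ 3 + 5089101159375 * C₄ ^ 12 * C₆) * (a ^ 24 * b ^ 6))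
    + ((18216714240000 * C₄ ^ 2 * C₆ ^ 8 - 71274600677376 * C₄ ^ 5 * C₆ ^ 6 + 105528606261120 * C₄ ^ 8 * C₆ ^ 4 - 70097953635000 * C₄ ^ 11 * C₆ ^ 2 + 17627233668750 * C₄ ^ 14) * (a ^ 25 * b ^ 5)
    + (- 41051750400000 * C₄ * C₆ ^ 9 + 163803539865600 * C₄ ^ 4 * C₆ ^ 7 - 245438120632320 * C₄ ^ 7 * C₆ ^ 5 + 163672057566000 * C₄ ^ 10 * C₆ ^ 3 - 40985726371875 * C₄ ^ 13 * C₆) * (a ^ 26 * b ^ 4)))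
    + (((30408704000000 * C₆ ^ 10 - 111934439424000 * C₄ ^ 3 * C₆ ^ 8 + 143803576074240 * C₄ ^ 6 * C₆ ^ 6 - 63806176396800 * C₄ ^ 9 * C₆ ^ 4 - 8104032382500 * C₄ ^ 12 * C₆ ^ 2 + 9632368125000 * C₄ ^ 15) * (a ^ 27 * b ^ 3)
    + (- 21438136320000 * C₄ ^ 2 * C₆ ^ 9 + 85731449241600 * C₄ ^ 5 * C₆ ^ 7 - 128580522647040 * C₄ ^ 8 * C₆ ^ 5 + 85719228804000 * C₄ ^ 11 * C₆ ^ 3 - 21432019078125 * C₄ ^ 14 * C₆) * (a ^ 28 * b ^ 2))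
    + ((- 5033164800000 * C₄ * C₆ ^ 10 + 31344427008000 * C₄ ^ 4 * C₆ ^ 8 - 75042714746880 * C₄ ^ 7 * C₆ ^ 6 + 87394892457600 * C₄ ^ 10 * C₆ ^ 4 - 49873523512500 * C₄ ^ 13 * C₆ ^ 2 + 11210083593750 * C₄ ^ 16) * (a ^ 29 * b ^ 1)
    + (3355443200000 * C₆ ^ 11 - 17532190720000 * C₄ ^ 3 * C₆ ^ 9 + 36574189977600 * C₄ ^ 6 * C₆ ^ 7 - 38083944628224 * C₄ ^ 9 * C₆ ^ 5 + 19796866155000 * C₄ ^ 12 * C₆ ^ 3 - 4110363984375 * C₄ ^ 15 * C₆) * (a ^ 30))))))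

theorem map_cuspPoly {S : Type*} [CommRing S] (f : R →+* S) (C₄ C₆ a b : R) :
    f (cuspPoly C₄ C₆ a b) = cuspPoly (f C₄) (f C₆) (f a) (f b) := by
  simp [cuspPoly, map_ofNat]

theorem map_fourExplicit {S : Type*} [CommRing S] (f : R →+* S) (C₄ C₆ a b : R) :
    f (fourExplicit C₄ C₆ a b) = fourExplicit (f C₄) (f C₆) (f a) (f b) := by
  simp [fourExplicit, map_ofNat]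

theorem map_sixExplicit {S : Type*} [CommRing S] (f : R →+* S) (C₄ C₆ a b : R) :
    f (sixExplicit C₄ C₆ a b) = sixExplicit (f C₄) (f C₆) (f a) (f b) := by
  simp [sixExplicit, map_ofNat]

end Fermat.Agent.LT.C0
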