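import Fermat.Agent.ECTorsion.Count
import Fermat.Agent.ECTorsion.Galois
import Fermat.Prelude.Def_FLTPrelim_GaloisRep
import Mathlib

/-!
# The cube roots of `Δ` and the `3`-torsion

If `x₀, …, x₃` are the roots of `Ψ₃`, the three numbers `b₄ - 3 (xₐ x_b + x_c x_d)` are the three
cube roots of `Δ`. Hence a Galois element fixes all cube roots of `Δ` iff it acts on the four
lines of `E[3]` through the Klein group, iff it acts on `E[3]` as `±1` or as a square root of `-1`
(the quaternion group inside `SL₂(𝔽₃)`).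
-/

set_option autoImplicit false

namespace Fermat.Agent.LT.C0

open WeierstrassCurve
open scoped WeierstrassCurve.Affine

/-! ### The resolvent cubic -/

section Resolvent

variable {F : Type*} [Field F]

/-- A cubic polynomial with four distinct roots has zero coefficients. -/
theorem cubic_coeff_eq_zero {A B C D : F} (t : Fin 4 → F) (ht : Function.Injective t)
    (h : ∀ i, A * t i ^ 3 + B * t i ^ 2 + C * t i + D = 0) : A = 0 ∧ B = 0 ∧ C = 0 ∧ D = 0 := by
  have q : ∀ i j, i ≠ j → A * (t i ^ 2 + t i * t j + t j ^ 2) + B * (t i + t j) + C = 0 :=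
    fun i j hij => (mul_eq_zero.1 (show (t i - t j) *
      (A * (t i ^ 2 + t i * t j + t j ^ 2) + B * (t i + t j) + C) = 0 by
        linear_combination h i - h j)).resolve_left (sub_ne_zero.2 (ht.ne hij))
  have l : ∀ i j k, i ≠ j → i ≠ k → j ≠ k → A * (t i + t j + t k) + B = 0 :=
    fun i j k hij hik hjk => (mul_eq_zero.1 (show (t j - t k) *
      (A * (t i + t j + t k) + B) = 0 by
        linear_combination q i j hij - q i k hik)).resolve_left (sub_ne_zero.2 (ht.ne hjk))
  have hA : A = 0 := (mul_eq_zero.1 (show (t 2 - t 3) * A = 0 by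
    linear_combination l 0 1 2 (by decide) (by decide) (by decide)
      - l 0 1 3 (by decide) (by decide) (by decide))).resolve_left
        (sub_ne_zero.2 (ht.ne (by decide)))
  have hB : B = 0 := by
    linear_combination l 0 1 2 (by decide) (by decide) (by decide) - (t 0 + t 1 + t 2) * hA
  have hC : C = 0 := by
    linear_combination q 0 1 (by decide) - (t 0 ^ 2 + t 0 * t 1 + t 1 ^ 2) * hA
      - (t 0 + t 1) * hB
  exact ⟨hA, hB, hC, by linear_combination h 0 - t 0 ^ 3 * hA - t 0 ^ 2 * hB - t 0 * hC⟩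

/-- Vieta for `Ψ₃`. -/
theorem Ψ₃_vieta (V : WeierstrassCurve F) (x : Fin 4 → F) (hinj : Function.Injective x)
    (hroot : ∀ i, V.Ψ₃.eval (x i) = 0) :
    V.b₂ = -3 * (x 0 + x 1 + x 2 + x 3) ∧
    3 * V.b₄ = 3 * (x 0 * x 1 + x 0 * x 2 + x 0 * x 3 + x 1 * x 2 + x 1 * x 3 + x 2 * x 3) ∧
    3 * V.b₆ = -3 * (x 0 * x 1 * x 2 + x 0 * x 1 * x 3 + x 0 * x 2 * x 3 + x 1 * x 2 * x 3) ∧
    V.b₈ = 3 * (x 0 * x 1 * x 2 * x 3) := by
  have h : ∀ i, (V.b₂ + 3 * (x 0 + x 1 + x 2 + x 3)) * x i ^ 3
      + (3 * V.b₄ - 3 * (x 0 * x 1 + x 0 * x 2 + x 0 * x 3 + x 1 * x 2 + x 1 * x 3 + x 2 * x 3))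
        * x i ^ 2
      + (3 * V.b₆ + 3 * (x 0 * x 1 * x 2 + x 0 * x 1 * x 3 + x 0 * x 2 * x 3 + x 1 * x 2 * x 3))
        * x i
      + (V.b₈ - 3 * (x 0 * x 1 * x 2 * x 3)) = 0 := by
    intro i
    have hr := hroot i
    simp only [WeierstrassCurve.Ψ₃, Polynomial.eval_add, Polynomial.eval_mul, Polynomial.eval_pow,
      Polynomial.eval_X, Polynomial.eval_C, Polynomial.eval_ofNat] at hr
    have hp : (x i - x 0) * (x i - x 1) * (x i - x 2) * (x i - x 3) = 0 := by
      fin_cases i <;> simp
    linear_combination hr - 3 * hp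
  obtain ⟨h1, h2, h3, h4⟩ := cubic_coeff_eq_zero x hinj h
  exact ⟨by linear_combination h1, by linear_combination h2, by linear_combination h3,
    by linear_combination h4⟩

/-- The index of the pairing containing `{a, b}`. -/
def pairIdx (a b : Fin 4) : ℕ := (a.val ^^^ b.val) - 1

/-- A root of the resolvent cubic, through the pair `{a, b}`. -/
def resolventRoot (V : WeierstrassCurve F) (x : Fin 4 → F) (a b : Fin 4) : F :=
  -2 * V.b₄ + 3 * ((x a + x b) * (x 0 + x 1 + x 2 + x 3 - x a - x b))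

variable (V : WeierstrassCurve F) (x : Fin 4 → F)

theorem resolventRoot_eq_of_pairIdx {a b : Fin 4} (hab : a ≠ b) :
    (pairIdx a b = 0 → resolventRoot V x a b = resolventRoot V x 0 1) ∧
    (pairIdx a b = 1 → resolventRoot V x a b = resolventRoot V x 0 2) ∧
    (pairIdx a b = 2 → resolventRoot V x a b = resolventRoot V x 0 3) := by
  fin_cases a <;> fin_cases b <;>
    first
    | exact absurd rfl hab
    | (refine ⟨fun h => ?_, fun h => ?_, fun h => ?_⟩ <;>
        simp [pairIdx] at h ⊢ <;> (simp only [resolventRoot]; ring))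

variable {V x}

/-- Each resolvent root is a cube root of the discriminant. -/
theorem resolventRoot_cube (h3 : (3 : F) ≠ 0) (hinj : Function.Injective x)
    (hroot : ∀ i, V.Ψ₃.eval (x i) = 0) :
    resolventRoot V x 0 1 ^ 3 = V.Δ ∧ resolventRoot V x 0 2 ^ 3 = V.Δ ∧
      resolventRoot V x 0 3 ^ 3 = V.Δ := by
  obtain ⟨h2, h4', h6', h8⟩ := Ψ₃_vieta V x hinj hroot
  have h4 := mul_left_cancel₀ h3 h4'
  have h6 : V.b₆ = -(x 0 * x 1 * x 2 + x 0 * x 1 * x 3 + x 0 * x 2 * x 3 + x 1 * x 2 * x 3) :=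
    mul_left_cancel₀ h3 (by linear_combination h6')
  have hrel := V.b_relation
  rw [h2, h4, h6, h8] at hrel
  refine ⟨?_, ?_, ?_⟩ <;> simp only [resolventRoot, WeierstrassCurve.Δ, h2, h4, h6, h8]
  · linear_combination 9 * ((x 0 + x 1) * (x 2 + x 3)) * hrel
  · linear_combination 9 * ((x 0 + x 2) * (x 1 + x 3)) * hrel
  · linear_combination 9 * ((x 0 + x 3) * (x 1 + x 2)) * hrel

/-- The three resolvent roots are distinct. -/
theorem resolventRoot_ne (h3 : (3 : F) ≠ 0) (hinj : Function.Injective x) :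
    resolventRoot V x 0 1 ≠ resolventRoot V x 0 2 ∧
      resolventRoot V x 0 1 ≠ resolventRoot V x 0 3 ∧
      resolventRoot V x 0 2 ≠ resolventRoot V x 0 3 := by
  have d : ∀ i j : Fin 4, i ≠ j → x i - x j ≠ 0 := fun i j h => sub_ne_zero.2 (hinj.ne h)
  refine ⟨?_, ?_, ?_⟩ <;> intro h <;> rw [← sub_eq_zero] at h <;> simp only [resolventRoot] at h
  · exact mul_ne_zero (mul_ne_zero h3 (d 0 3 (by decide))) (d 2 1 (by decide))
      (by linear_combination h)
  · exact mul_ne_zero (mul_ne_zero h3 (d 0 2 (by decide))) (d 3 1 (by decide))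
      (by linear_combination h)
  · exact mul_ne_zero (mul_ne_zero h3 (d 0 1 (by decide))) (d 3 2 (by decide))
      (by linear_combination h)

/-- Every cube root of the discriminant is a resolvent root. -/
theorem cubeRoot_eq_resolventRoot (h3 : (3 : F) ≠ 0) (hinj : Function.Injective x)
    (hroot : ∀ i, V.Ψ₃.eval (x i) = 0) {c : F} (hc : c ^ 3 = V.Δ) :
    c = resolventRoot V x 0 1 ∨ c = resolventRoot V x 0 2 ∨ c = resolventRoot V x 0 3 := by
  obtain ⟨k1, k2, k3⟩ := resolventRoot_cube h3 hinj hroot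
  obtain ⟨d12, d13, d23⟩ := resolventRoot_ne (V := V) h3 hinj
  generalize resolventRoot V x 0 1 = r₁ at *
  generalize resolventRoot V x 0 2 = r₂ at *
  generalize resolventRoot V x 0 3 = r₃ at *
  have q : ∀ {u w : F}, u ^ 3 = V.Δ → w ^ 3 = V.Δ → u ≠ w → u ^ 2 + u * w + w ^ 2 = 0 :=
    fun {u w} hu hw huw => (mul_eq_zero.1 (show (u - w) * (u ^ 2 + u * w + w ^ 2) = 0 by
      linear_combination hu - hw)).resolve_left (sub_ne_zero.2 huw)
  have hsum : r₁ + r₂ + r₃ = 0 := (mul_eq_zero.1 (show (r₂ - r₃) * (r₁ + r₂ + r₃) = 0 by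
    linear_combination q k1 k2 d12 - q k1 k3 d13)).resolve_left (sub_ne_zero.2 d23)
  by_cases h1 : c = r₁
  · exact Or.inl h1
  have := q hc k1 h1
  rcases mul_eq_zero.1 (show (c - r₂) * (c + r₂ + r₁) = 0 by
    linear_combination this - q k1 k2 d12) with h | h
  · exact Or.inr (Or.inl (sub_eq_zero.1 h))
  · exact Or.inr (Or.inr (by linear_combination h - hsum))

/-- A ring endomorphism permuting the roots fixes all cube roots of `Δ` iff the permutation lies
in the Klein group. -/
theorem fixes_cubeRoots_iff (h3 : (3 : F) ≠ 0) (hinj : Function.Injective x)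
    (hroot : ∀ i, V.Ψ₃.eval (x i) = 0) (τ : F →+* F) (hb₄ : τ V.b₄ = V.b₄)
    (π : Fin 4 → Fin 4) (hπ : Function.Injective π) (hτ : ∀ i, τ (x i) = x (π i)) :
    (∀ c : F, c ^ 3 = V.Δ → τ c = c) ↔ ∃ k : Fin 4, ∀ i, (π i).val = i.val ^^^ k.val := by
  have hS : x (π 0) + x (π 1) + x (π 2) + x (π 3) = x 0 + x 1 + x 2 + x 3 := by
    have h1 := Fintype.sum_bijective π ((Finite.injective_iff_bijective).1 hπ)
      (fun i => x (π i)) x (fun _ => rfl)
    simpa [Fin.sum_univ_four] using h1
  have himg : ∀ a b, τ (resolventRoot V x a b) = resolventRoot V x (π a) (π b) := by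
    intro a b
    simp only [resolventRoot, map_add, map_mul, map_sub, map_neg, map_ofNat, hτ, hb₄, hS]
  obtain ⟨k1, k2, k3⟩ := resolventRoot_cube h3 hinj hroot
  obtain ⟨d12, d13, d23⟩ := resolventRoot_ne (V := V) h3 hinj
  constructor
  · intro hfix
    have e1 := (himg 0 1).symm.trans (hfix _ k1)
    have e2 := (himg 0 2).symm.trans (hfix _ k2)
    have n1 := resolventRoot_eq_of_pairIdx V x (hπ.ne (show (0 : Fin 4) ≠ 1 by decide))
    have n2 := resolventRoot_eq_of_pairIdx V x (hπ.ne (show (0 : Fin 4) ≠ 2 by decide))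
    have hlt : ∀ a b : Fin 4, pairIdx a b = 0 ∨ pairIdx a b = 1 ∨ pairIdx a b = 2 := by decide
    have i1 : pairIdx (π 0) (π 1) = 0 := by
      rcases hlt (π 0) (π 1) with h | h | h
      · exact h
      · exact absurd (e1.symm.trans (n1.2.1 h)) d12
      · exact absurd (e1.symm.trans (n1.2.2 h)) d13
    have i2 : pairIdx (π 0) (π 2) = 1 := by
      rcases hlt (π 0) (π 2) with h | h | h
      · exact absurd (e2.symm.trans (n2.1 h)) d12.symm
      · exact h
      · exact absurd (e2.symm.trans (n2.2.2 h)) d23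
    have key : ∀ a b c d : Fin 4, a ≠ b → a ≠ c → a ≠ d → b ≠ c → b ≠ d → c ≠ d →
        pairIdx a b = 0 → pairIdx a c = 1 →
        ∃ k : Fin 4, a.val = 0 ^^^ k.val ∧ b.val = 1 ^^^ k.val ∧ c.val = 2 ^^^ k.val ∧
          d.val = 3 ^^^ k.val := by decide
    obtain ⟨k, h0, h1, h2, h3'⟩ := key (π 0) (π 1) (π 2) (π 3) (hπ.ne (by decide))
      (hπ.ne (by decide)) (hπ.ne (by decide)) (hπ.ne (by decide)) (hπ.ne (by decide))
      (hπ.ne (by decide)) i1 i2
    refine ⟨k, fun i => ?_⟩
    fin_cases i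
    exacts [h0, h1, h2, h3']
  · rintro ⟨k, hk⟩ c hc
    have key : ∀ k a b : Fin 4, ∀ a' b' : Fin 4, a'.val = a.val ^^^ k.val →
        b'.val = b.val ^^^ k.val → pairIdx a' b' = pairIdx a b := by decide
    rcases cubeRoot_eq_resolventRoot h3 hinj hroot hc with rfl | rfl | rfl <;> rw [himg]
    · exact (resolventRoot_eq_of_pairIdx V x (hπ.ne (by decide))).1
        ((key k 0 1 _ _ (hk 0) (hk 1)).trans (by decide))
    · exact (resolventRoot_eq_of_pairIdx V x (hπ.ne (by decide))).2.1
        ((key k 0 2 _ _ (hk 0) (hk 2)).trans (by decide))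
    · exact (resolventRoot_eq_of_pairIdx V x (hπ.ne (by decide))).2.2
        ((key k 0 3 _ _ (hk 0) (hk 3)).trans (by decide))

end Resolvent

/-! ### Endomorphisms of a group of type `(3, 3)` -/

section Lines

variable {M : Type*} [AddCommGroup M] {P Q : M}

/-- Representatives of the four lines. -/
def lineRep (P Q : M) : Fin 4 → M := ![P, Q, P + Q, P - Q]

/-- An additive endomorphism fixing the four lines is `±1`. -/
theorem eq_or_eq_neg_of_fixes_lines (hind : ∀ a b : ℤ, a • P + b • Q = 0 → 3 ∣ a ∧ 3 ∣ b)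
    (g : M →+ M) (h : ∀ i, g (lineRep P Q i) = lineRep P Q i ∨ g (lineRep P Q i) = -lineRep P Q i) :
    (g P = P ∧ g Q = Q) ∨ (g P = -P ∧ g Q = -Q) := by
  have h0 := h 0
  have h1 := h 1
  have h2 := h 2
  simp only [lineRep, Matrix.cons_val_zero, Matrix.cons_val_one, Matrix.cons_val] at h0 h1 h2
  rw [map_add] at h2
  rcases h0 with hP | hP <;> rcases h1 with hQ | hQ
  · exact Or.inl ⟨hP, hQ⟩
  · exfalso
    rw [hP, hQ] at h2
    rcases h2 with h2 | h2
    · have := (hind 0 (-2) (by rw [← sub_eq_zero] at h2; linear_combination (norm := module) h2)).2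
      norm_num at this
    · have := (hind 2 0 (by rw [← sub_eq_zero] at h2; linear_combination (norm := module) h2)).1
      norm_num at this
  · exfalso
    rw [hP, hQ] at h2
    rcases h2 with h2 | h2
    · have := (hind (-2) 0 (by rw [← sub_eq_zero] at h2; linear_combination (norm := module) h2)).1
      norm_num at this
    · have := (hind 0 2 (by rw [← sub_eq_zero] at h2; linear_combination (norm := module) h2)).2
      norm_num at this
  · exact Or.inr ⟨hP, hQ⟩

end Lines

/-! ### Galois elements fixing the cube roots of `Δ` -/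

section Galois

variable {R S K : Type*} [CommRing R] [Field S] [Field K] [DecidableEq K] [Algebra R S]
  [Algebra R K] [Algebra S K] [IsScalarTower R S K]

/-- The `x`-coordinate (`0` at infinity). -/
def xCoord {F : Type*} [CommRing F] {W : Affine F} : W.Point → F
  | .zero => 0
  | .some x _ _ => x

omit [DecidableEq K] in
theorem algEquiv_b₄ (W : WeierstrassCurve R) (σ : K ≃ₐ[S] K) :
    σ (W⁄K).b₄ = (W⁄K).b₄ := by
  rw [show (W⁄K).b₄ = algebraMap R K W.b₄ from W.map_b₄ (algebraMap R K),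
    IsScalarTower.algebraMap_apply R S K, σ.commutes]

theorem xCoord_smul {W : WeierstrassCurve R} (σ : K ≃ₐ[S] K) {T : (W⁄K).Point} (hT : T ≠ 0) :
    xCoord (σ • T) = σ (xCoord T) := by
  match T, hT with
  | .zero, hT => exact absurd rfl hT
  | .some _ _ _, _ => rfl

/-- `σ` fixes all cube roots of `Δ` iff it acts on `E[3]` as `±1` or as a square root of `-1`. -/
theorem fixes_cubeRoots_Δ_iff [IsAlgClosed K] (W : WeierstrassCurve R) (hΔ : (W⁄K).Δ ≠ 0)
    (h3 : (3 : K) ≠ 0) (σ : K ≃ₐ[S] K) :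
    (∀ c : K, c ^ 3 = (W⁄K).Δ → σ c = c) ↔
      ((∀ T : (W⁄K).Point, (3 : ℕ) • T = 0 → σ • T = T) ∨
       (∀ T : (W⁄K).Point, (3 : ℕ) • T = 0 → σ • T = -T) ∨
       (∀ T : (W⁄K).Point, (3 : ℕ) • T = 0 → σ • σ • T = -T)) := by
  have h3' : ((3 : ℕ) : K) ≠ 0 := by exact_mod_cast h3
  obtain ⟨P, Q, hP, hQ, hind⟩ := ECTorsion.exists_independent_torsion_pair (W := (W⁄K).toAffine)
    hΔ h3'
  simp only [Nat.cast_ofNat] at hP hQ hind
  -- every `3`-torsion point is a combination
  have hspan : ∀ T : (W⁄K).Point, (3 : ℕ) • T = 0 →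
      ∃ a b : Fin 3, T = (a.val : ℤ) • P + (b.val : ℤ) • Q := by
    have hfin : Nat.card (Submodule.torsionBy ℤ (W⁄K).toAffine.Point (3 : ℕ)) = 3 ^ 2 :=
      ECTorsion.natCard_torsionBy hΔ h3'
    let e : Fin 3 × Fin 3 → Submodule.torsionBy ℤ (W⁄K).toAffine.Point (3 : ℕ) := fun ab =>
      ⟨(ab.1.val : ℤ) • P + (ab.2.val : ℤ) • Q, by
        rw [Submodule.mem_torsionBy_iff, smul_add, smul_comm, Nat.cast_ofNat, hP, smul_zero,
          smul_comm, hQ, smul_zero, add_zero]⟩
    have he : Function.Injective e := by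
      intro ab cd h
      have h' := congrArg Subtype.val h
      obtain ⟨h1, h2⟩ := hind ((ab.1.val : ℤ) - cd.1.val) ((ab.2.val : ℤ) - cd.2.val) (by
        rw [sub_smul, sub_smul, sub_add_sub_comm]
        exact sub_eq_zero.2 h')
      have := ab.1.isLt; have := ab.2.isLt; have := cd.1.isLt; have := cd.2.isLt
      exact Prod.ext (Fin.ext (by omega)) (Fin.ext (by omega))
    haveI : Finite (Submodule.torsionBy ℤ (W⁄K).toAffine.Point (3 : ℕ)) :=
      Nat.finite_of_card_ne_zero (by rw [hfin]; norm_num)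
    have hsurj := (Nat.bijective_iff_injective_and_card e).2
      ⟨he, by rw [hfin, Nat.card_prod, Nat.card_fin]; norm_num⟩
    intro T hT
    obtain ⟨⟨a, b⟩, hab⟩ := hsurj.2 ⟨T, by
      rw [Submodule.mem_torsionBy_iff, natCast_zsmul]; exact hT⟩
    exact ⟨a, b, (congrArg Subtype.val hab).symm⟩
  set L := lineRep P Q with hL
  have hL0 : L 0 = P := rfl
  have hL1 : L 1 = Q := rfl
  have hL3 : ∀ i, (3 : ℕ) • L i = 0 := by
    intro i
    rw [← natCast_zsmul, Nat.cast_ofNat]
    fin_cases i
    · exact hP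
    · exact hQ
    · show (3 : ℤ) • (P + Q) = 0
      rw [smul_add, hP, hQ, add_zero]
    · show (3 : ℤ) • (P - Q) = 0
      rw [smul_sub, hP, hQ, sub_zero]
  have hcoef : ∀ i, ∃ a b : ℤ, L i = a • P + b • Q ∧ (a, b) =
      (![((1 : ℤ), (0 : ℤ)), (0, 1), (1, 1), (1, -1)] i) := by
    intro i
    fin_cases i
    · exact ⟨1, 0, by simp [hL, lineRep], rfl⟩
    · exact ⟨0, 1, by simp [hL, lineRep], rfl⟩
    · exact ⟨1, 1, by simp [hL, lineRep], rfl⟩
    · exact ⟨1, -1, by simp [hL, lineRep, sub_eq_add_neg], rfl⟩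
  have hLne : ∀ i, L i ≠ 0 := by
    intro i h0
    obtain ⟨a, b, e, hab⟩ := hcoef i
    obtain ⟨ha, hb⟩ := hind a b (e.symm.trans h0)
    fin_cases i <;> simp at hab <;> obtain ⟨rfl, rfl⟩ := hab <;> omega
  have hLinj : ∀ i j, L i = L j ∨ L i = -L j → i = j := by
    intro i j hij
    obtain ⟨a, b, e, hab⟩ := hcoef i
    obtain ⟨c, d, e', hcd⟩ := hcoef j
    have hdiv : (3 ∣ a - c ∧ 3 ∣ b - d) ∨ (3 ∣ a + c ∧ 3 ∣ b + d) := by
      rcases hij with h | h
      · exact Or.inl (hind _ _ (by
          rw [sub_smul, sub_smul, sub_add_sub_comm, ← e, ← e', sub_eq_zero]; exact h))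
      · exact Or.inr (hind _ _ (by
          rw [add_smul, add_smul, add_add_add_comm, ← e, ← e', h, neg_add_cancel]))
    fin_cases i <;> fin_cases j <;> simp at hab hcd ⊢ <;>
      obtain ⟨rfl, rfl⟩ := hab <;> obtain ⟨rfl, rfl⟩ := hcd <;> omega
  have hcover : ∀ T : (W⁄K).Point, (3 : ℕ) • T = 0 → T ≠ 0 → ∃ i, T = L i ∨ T = -L i := by
    intro T hT hT0
    obtain ⟨a, b, rfl⟩ := hspan T hT
    fin_cases a <;> fin_cases b <;> (try (norm_num at hT0; done)) <;> norm_num
    · exact ⟨1, Or.inl rfl⟩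
    · exact ⟨1, Or.inr (by rw [hL1]; linear_combination (norm := module) hQ)⟩
    · exact ⟨0, Or.inl rfl⟩
    · exact ⟨2, Or.inl rfl⟩
    · exact ⟨3, Or.inl (by
        show P + (2 : ℤ) • Q = P - Q
        linear_combination (norm := module) hQ)⟩
    · exact ⟨0, Or.inr (by rw [hL0]; linear_combination (norm := module) hP)⟩
    · exact ⟨3, Or.inr (by
        show (2 : ℤ) • P + Q = -(P - Q)
        linear_combination (norm := module) hP)⟩
    · exact ⟨2, Or.inr (by
        show (2 : ℤ) • P + (2 : ℤ) • Q = -(P + Q)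
        linear_combination (norm := module) hP + hQ)⟩
  -- the four roots of `Ψ₃`
  let x : Fin 4 → K := fun i => xCoord (L i)
  have hroot : ∀ i, (W⁄K).Ψ₃.eval (x i) = 0 := by
    intro i
    have hne := hLne i
    have h30 := hL3 i
    show (W⁄K).Ψ₃.eval (xCoord (L i)) = 0
    generalize L i = T at hne h30 ⊢
    match T, hne, h30 with
    | .zero, hne, _ => exact absurd rfl hne
    | .some a b h, _, h30 =>
      have h' := (ECTorsion.zsmul_some_eq_zero_iff h 3).1 (by exact_mod_cast h30)
      rwa [WeierstrassCurve.ψ_three, Polynomial.evalEval_C] at h'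
  have hxL : ∀ i (T : (W⁄K).Point), T ≠ 0 → xCoord T = x i → T = L i ∨ T = -L i := by
    intro i T hT hTx
    have hne := hLne i
    change xCoord T = xCoord (L i) at hTx
    generalize L i = U at hne hTx ⊢
    match T, U, hT, hne, hTx with
    | .zero, _, hT, _, _ => exact absurd rfl hT
    | .some _ _ _, .zero, _, hne, _ => exact absurd rfl hne
    | .some a b h, .some c d h', _, _, hTx =>
      exact Affine.Point.X_eq_iff.1 hTx
  have hinj : Function.Injective x := fun i j h => hLinj i j (hxL j _ (hLne i) h)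
  -- the permutation of the lines
  have hσne : ∀ i, σ • L i ≠ 0 := fun i h => hLne i (by rwa [smul_eq_zero_iff_eq] at h)
  have hπex : ∀ i, ∃ j, σ • L i = L j ∨ σ • L i = -L j := fun i =>
    hcover _ (by rw [smul_comm, hL3 i, smul_zero]) (hσne i)
  choose π hπ using hπex
  have hπx : ∀ i, σ (x i) = x (π i) := by
    intro i
    show σ (xCoord (L i)) = xCoord (L (π i))
    rw [← xCoord_smul σ (hLne i)]
    rcases hπ i with h | h <;> rw [h]
    generalize L (π i) = U
    match U with
    | .zero => rfl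
    | .some _ _ _ => rfl
  have hπinj : Function.Injective π := fun i j h => hinj (σ.injective (by rw [hπx, hπx, h]))
  let g : (W⁄K).Point →+ (W⁄K).Point :=
    DistribSMul.toAddMonoidHom (W⁄K).Point σ
  refine (fixes_cubeRoots_iff h3 hinj hroot (σ : K →+* K) (algEquiv_b₄ W σ) π hπinj
    hπx).trans ?_
  have ext3 : ∀ (f f' : (W⁄K).Point →+ (W⁄K).Point), f P = f' P → f Q = f' Q →
      ∀ T : (W⁄K).Point, (3 : ℕ) • T = 0 → f T = f' T := by
    intro f f' h1 h2 T hT
    obtain ⟨a, b, rfl⟩ := hspan T hT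
    rw [map_add, map_add, map_zsmul, map_zsmul, map_zsmul, map_zsmul, h1, h2]
  constructor
  · rintro ⟨k, hk⟩
    have hinv : ∀ i, π (π i) = i := by
      intro i
      refine Fin.ext ?_
      rw [hk, hk, Nat.xor_assoc, Nat.xor_self, Nat.xor_zero]
    have hsq : ∀ i, (g.comp g) (L i) = L i ∨ (g.comp g) (L i) = -L i := by
      intro i
      show σ • σ • L i = L i ∨ σ • σ • L i = -L i
      have h' := hπ (π i)
      rw [hinv i] at h'
      rcases hπ i with h | h <;> rw [h] <;> rcases h' with h' | h' <;> simp [h', smul_neg]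
    by_cases hk0 : k = 0
    · subst hk0
      have hid : ∀ i, π i = i := fun i => Fin.ext (by rw [hk]; simp)
      have hfix : ∀ i, g (L i) = L i ∨ g (L i) = -L i := fun i => by
        have := hπ i
        rwa [hid i] at this
      rcases eq_or_eq_neg_of_fixes_lines hind g hfix with ⟨h1, h2⟩ | ⟨h1, h2⟩
      · exact Or.inl fun T hT => ext3 g (AddMonoidHom.id _) h1 h2 T hT
      · exact Or.inr (Or.inl fun T hT => ext3 g (-AddMonoidHom.id _) h1 h2 T hT)
    · have hmove : ∀ i, π i ≠ i := by
        intro i h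
        apply hk0
        have := hk i
        rw [h] at this
        refine Fin.ext ?_
        have h' : i.val ^^^ i.val = i.val ^^^ (i.val ^^^ k.val) := by rw [← this]
        rw [Nat.xor_self, ← Nat.xor_assoc, Nat.xor_self, Nat.zero_xor] at h'
        exact h'.symm
      rcases eq_or_eq_neg_of_fixes_lines hind (g.comp g) hsq with ⟨h1, h2⟩ | ⟨h1, h2⟩
      · -- an involution without fixed lines does not exist in odd characteristic
        exfalso
        have hg : g (g P) = P := h1
        by_cases h0 : P + g P = 0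
        · refine hmove 0 (hLinj _ _ ?_)
          have hgP : σ • L 0 = -L 0 := by
            rw [hL0]; exact eq_neg_of_add_eq_zero_right h0
          rcases hπ 0 with h | h <;> rw [hgP] at h
          · exact Or.inr h.symm
          · exact Or.inl (neg_inj.1 h).symm
        · obtain ⟨i, hi⟩ := hcover (P + g P) (by
            have h30 := hL3 0
            rw [hL0] at h30
            rw [smul_add, h30, zero_add, ← map_nsmul, h30, map_zero]) h0
          have hfx : g (P + g P) = P + g P := by rw [map_add, hg, add_comm]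
          refine hmove i (hLinj _ _ ?_)
          have hgi : σ • L i = L i := by
            rcases hi with hi | hi
            · rw [hi] at hfx; exact hfx
            · rw [hi, map_neg, neg_inj] at hfx; exact hfx
          rcases hπ i with h | h <;> rw [hgi] at h
          · exact Or.inl h.symm
          · exact Or.inr (by rw [h, neg_neg])
      · exact Or.inr (Or.inr fun T hT => ext3 (g.comp g) (-AddMonoidHom.id _) h1 h2 T hT)
  · intro hor
    have hne2 : ∀ i, L i ≠ -L i := fun i h => hLne i (by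
      have h2 : L i + L i = 0 := by
        nth_rewrite 2 [h]
        exact add_neg_cancel _
      have h' := hL3 i
      rw [show (3 : ℕ) • L i = (L i + L i) + L i by abel, h2, zero_add] at h'
      exact h')
    have hid : (∀ i, σ • L i = L i ∨ σ • L i = -L i) →
        ∃ k : Fin 4, ∀ i, (π i).val = i.val ^^^ k.val := by
      intro h
      refine ⟨0, fun i => ?_⟩
      have : π i = i := hLinj _ _ (by
        rcases hπ i with h1 | h1 <;> rcases h i with h2 | h2 <;> rw [h1] at h2
        · exact Or.inl h2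
        · exact Or.inr h2
        · exact Or.inr (neg_eq_iff_eq_neg.1 h2)
        · exact Or.inl (neg_inj.1 h2))
      rw [this]
      simp
    rcases hor with h | h | h
    · exact hid fun i => Or.inl (h _ (hL3 i))
    · exact hid fun i => Or.inr (h _ (hL3 i))
    · have hinv : ∀ i, π (π i) = i := by
        intro i
        refine hLinj _ _ ?_
        have hh := h _ (hL3 i)
        rcases hπ i with h1 | h1 <;> rw [h1] at hh <;> rcases hπ (π i) with h2 | h2 <;>
          simp only [smul_neg, h2, neg_neg, neg_inj] at hh <;>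
          first
          | exact Or.inl hh
          | exact Or.inr hh
          | exact Or.inr (neg_eq_iff_eq_neg.1 hh)
      have hmove : ∀ i, π i ≠ i := by
        intro i hfx
        have hh := h _ (hL3 i)
        have h1 := hπ i
        rw [hfx] at h1
        rcases h1 with h1 | h1
        · rw [h1, h1] at hh; exact hne2 i hh
        · rw [h1, smul_neg, h1, neg_neg] at hh; exact hne2 i hh
      have key : ∀ a b c d : Fin 4, a ≠ 0 → b ≠ 1 → c ≠ 2 → d ≠ 3 →
          (![a, b, c, d] a = 0 ∧ ![a, b, c, d] b = 1 ∧ ![a, b, c, d] c = 2 ∧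
            ![a, b, c, d] d = 3) →
          ∃ k : Fin 4, a.val = 0 ^^^ k.val ∧ b.val = 1 ^^^ k.val ∧ c.val = 2 ^^^ k.val ∧
            d.val = 3 ^^^ k.val := by decide
      have hπv : ![π 0, π 1, π 2, π 3] = π := by funext i; fin_cases i <;> rfl
      obtain ⟨k, k0, k1, k2, k3⟩ := key (π 0) (π 1) (π 2) (π 3) (hmove 0) (hmove 1) (hmove 2)
        (hmove 3) (by rw [hπv]; exact ⟨hinv 0, hinv 1, hinv 2, hinv 3⟩)
      refine ⟨k, fun i => ?_⟩
      fin_cases i
      exacts [k0, k1, k2, k3]

end Galois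

end Fermat.Agent.LT.C0
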