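import Fermat.Agent.LT.C0.Explicit

/-!
# The explicit polynomials of the twisted `X(5)` family

`fourExplicit`, `sixExplicit` and `cuspPoly` are killed by the derivation on invariants, hence
agree with the deformed forms.
-/

set_option autoImplicit false

noncomputable section

namespace Fermat.Agent.LT.C0

open MvPolynomial Fermat.Agent.Switch35

/-- The derivation induced by `deformDer` on `ℚ[c₄, c₆, b, a]`. -/
def invDer : Derivation ℚ R4 R4 :=
  mkDerivation ℚ ![-20 * X 1, -30 * X 0 ^ 2, -11 * X 0 * X 3, -X 2]

theorem deformDer_invMap (G : R4) : deformDer (invMap G) = invMap (invDer G) := by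
  induction G using MvPolynomial.induction_on with
  | C r => simp
  | add p q hp hq => simp only [map_add, hp, hq]
  | mul_X p i hp =>
    rw [map_mul, Derivation.leibniz, Derivation.leibniz, smul_eq_mul, smul_eq_mul, smul_eq_mul,
      smul_eq_mul, map_add, map_mul, map_mul, hp]
    congr 2
    fin_cases i
    · simp [invMap, invDer, deformDer_fourForm, map_ofNat]
    · simp [invMap, invDer, deformDer_sixForm, map_ofNat]
    · simp [invMap, invDer, deformDer, map_ofNat]
    · simp [invMap, invDer, deformDer]

/-- The deformation derivation is injective on multiples of `a`. -/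
theorem eq_zero_of_deformDer_eq_zero {G : R4} (h0 : kill 3 G = 0) (hG : deformDer G = 0) :
    G = 0 := by
  have key : ∀ n : ℕ, ∃ H : R4, G = X 3 ^ (n + 1) * H := by
    intro n
    induction n with
    | zero =>
      obtain ⟨H, hH⟩ := dvd_sub_kill 3 G
      exact ⟨H, by rw [h0, sub_zero] at hH; simpa using hH⟩
    | succ n ih =>
      obtain ⟨H, hH⟩ := ih
      have e := congrArg deformDer hH
      rw [hG, Derivation.leibniz, Derivation.leibniz_pow] at e
      simp only [show deformDer (X 3) = -X 2 by simp [deformDer], smul_eq_mul, nsmul_eq_mul,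
        Nat.add_sub_cancel] at e
      have e' : X 3 ^ n * (X 3 * deformDer H - ((n + 1 : ℕ) : R4) * (X 2 * H)) = 0 := by
        linear_combination -e
      have e'' := congrArg (kill 3) ((mul_eq_zero.mp e').resolve_left
        (pow_ne_zero _ (MvPolynomial.X_ne_zero _)))
      rw [map_sub, map_mul, map_mul, map_mul, map_natCast, map_zero,
        show kill 3 (X 3 : R4) = 0 by simp [kill],
        show kill 3 (X 2 : R4) = X 2 by simp [kill], zero_mul, zero_sub, neg_eq_zero] at e''
      have hH0 : kill 3 H = 0 :=
        (mul_eq_zero.mp ((mul_eq_zero.mp e'').resolve_left (Nat.cast_ne_zero.mpr n.succ_ne_zero))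
          ).resolve_left (MvPolynomial.X_ne_zero _)
      obtain ⟨H', hH'⟩ := dvd_sub_kill 3 H
      exact ⟨H', by rw [hH, show H = X 3 * H' by rw [← hH', hH0, sub_zero], pow_succ]; ring⟩
  obtain ⟨H, hH⟩ := key (inLast G).natDegree
  by_contra hne
  have hH0 : inLast H ≠ 0 := fun h => hne (by
    rw [hH, ← eval_inLast H, h, Polynomial.eval_zero, mul_zero])
  have h1 := congrArg inLast hH
  rw [map_mul, map_pow, show inLast (X 3 : R4) = Polynomial.X by simp [inLast]] at h1
  have := congrArg Polynomial.natDegree h1
  rw [mul_comm, Polynomial.natDegree_mul_X_pow _ hH0] at this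
  omega

theorem invDer_ofNat (n : ℕ) [n.AtLeastTwo] : invDer (ofNat(n) : R4) = 0 :=
  (by simpa using invDer.map_algebraMap (n : ℚ) : invDer ((n : ℕ) : R4) = 0)

theorem invDer_fourExplicit : invDer (fourExplicit (X 0 : R4) (X 1) (X 3) (X 2)) = 0 := by
  simp only [fourExplicit, map_add, map_sub, map_neg, Derivation.leibniz, Derivation.leibniz_pow,
    Derivation.map_one_eq_zero, invDer_ofNat, smul_eq_mul, nsmul_eq_mul]
  simp only [invDer, mkDerivation_X, Matrix.cons_val, Nat.cast_ofNat, Nat.cast_one, mul_zero,
    add_zero]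
  ring

theorem invDer_sixExplicit : invDer (sixExplicit (X 0 : R4) (X 1) (X 3) (X 2)) = 0 := by
  simp only [sixExplicit, map_add, map_sub, map_neg, Derivation.leibniz, Derivation.leibniz_pow,
    Derivation.map_one_eq_zero, invDer_ofNat, smul_eq_mul, nsmul_eq_mul]
  simp only [invDer, mkDerivation_X, Matrix.cons_val, Nat.cast_ofNat, Nat.cast_one, mul_zero,
    add_zero]
  ring

theorem invDer_cuspPoly : invDer (cuspPoly (X 0 : R4) (X 1) (X 3) (X 2)) = 0 := by
  simp only [cuspPoly, map_add, map_sub, map_neg, Derivation.leibniz, Derivation.leibniz_pow,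
    Derivation.map_one_eq_zero, invDer_ofNat, smul_eq_mul, nsmul_eq_mul]
  simp only [invDer, mkDerivation_X, Matrix.cons_val, Nat.cast_ofNat, Nat.cast_one, mul_zero,
    add_zero]
  ring

theorem invMap_fourExplicit :
    invMap (fourExplicit (X 0 : R4) (X 1) (X 3) (X 2)) =
      fourForm (utForm (X 0) (X 1) (X 3) (X 2)) (vtForm (X 0) (X 1) (X 3) (X 2)) := by
  rw [← sub_eq_zero]
  refine eq_zero_of_deformDer_eq_zero ?_ ?_
  · rw [map_sub, kill_comm 3 (.inr rfl)]
    show invMap ((kill 3).toRingHom _) - (kill 3).toRingHom _ = 0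
    rw [map_fourExplicit, map_fourForm, map_utForm, map_vtForm]
    simp [kill, fourExplicit, invMap, utForm_zero, vtForm_zero, fourForm_scale]
    ring
  · rw [map_sub, deformDer_invMap, invDer_fourExplicit, map_zero, deformDer_fourForm_deform,
      sub_zero]

theorem invMap_sixExplicit :
    invMap (sixExplicit (X 0 : R4) (X 1) (X 3) (X 2)) =
      sixForm (utForm (X 0) (X 1) (X 3) (X 2)) (vtForm (X 0) (X 1) (X 3) (X 2)) := by
  rw [← sub_eq_zero]
  refine eq_zero_of_deformDer_eq_zero ?_ ?_
  · rw [map_sub, kill_comm 3 (.inr rfl)]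
    show invMap ((kill 3).toRingHom _) - (kill 3).toRingHom _ = 0
    rw [map_sixExplicit, map_sixForm, map_utForm, map_vtForm]
    simp [kill, sixExplicit, invMap, utForm_zero, vtForm_zero, sixForm_scale]
    ring
  · rw [map_sub, deformDer_invMap, invDer_sixExplicit, map_zero, deformDer_sixForm_deform,
      sub_zero]

theorem deformDer_discForm : deformDer (discForm (X 0 : R4) (X 1)) = 0 := by
  have h := congrArg deformDer (forms_relation (X 0 : R4) (X 1))
  simp only [map_sub, Derivation.leibniz, Derivation.leibniz_pow, deformDer_fourForm,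
    deformDer_sixForm, deformDer_ofNat, smul_eq_mul, nsmul_eq_mul] at h
  push_cast at h
  ring_nf at h
  simpa using h.symm

theorem deformDer_discForm_deform : deformDer (discForm (utForm (X 0 : R4) (X 1) (X 3) (X 2))
    (vtForm (X 0) (X 1) (X 3) (X 2))) = 0 := by
  generalize hu : utForm (X 0 : R4) (X 1) (X 3) (X 2) = u
  generalize hv : vtForm (X 0 : R4) (X 1) (X 3) (X 2) = v
  have h1 : deformDer u = 0 := hu ▸ deformDer_utForm
  have h2 : deformDer v = 0 := hv ▸ deformDer_vtForm
  simp [discForm, cuspForm2, Derivation.leibniz, Derivation.leibniz_pow, deformDer_ofNat, h1, h2]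

theorem discForm_deform_eq :
    discForm (X 0 : R4) (X 1) * invMap (cuspPoly (X 0) (X 1) (X 3) (X 2)) ^ 5 =
      discForm (utForm (X 0) (X 1) (X 3) (X 2)) (vtForm (X 0) (X 1) (X 3) (X 2)) := by
  rw [← sub_eq_zero]
  refine eq_zero_of_deformDer_eq_zero ?_ ?_
  · rw [map_sub, map_mul, map_pow, kill_comm 3 (.inr rfl)]
    show (kill 3).toRingHom _ * invMap ((kill 3).toRingHom _) ^ 5 - (kill 3).toRingHom _ = 0
    rw [map_cuspPoly]
    simp [kill, cuspPoly, invMap, discForm, cuspForm2, utForm, vtForm, evenFive, oddFive]
    ring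
  · rw [map_sub, Derivation.leibniz, Derivation.leibniz_pow, deformDer_discForm, deformDer_invMap,
      invDer_cuspPoly, map_zero, deformDer_discForm_deform]
    simp

variable {K : Type*} [CommRing K] [Algebra ℚ K]

/-- The explicit `c₄` is the deformed `c₄`. -/
theorem fourExplicit_forms (U V a b : K) :
    fourExplicit (fourForm U V) (sixForm U V) a b =
      fourForm (utForm U V a b) (vtForm U V a b) := by
  have h := congrArg (aeval ![U, V, b, a]).toRingHom invMap_fourExplicit
  rw [map_fourForm, map_utForm, map_vtForm] at h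
  simp only [AlgHom.toRingHom_eq_coe, RingHom.coe_coe] at h
  rw [aeval_invMap] at h
  change (aeval ![fourForm U V, sixForm U V, b, a]).toRingHom _ = _ at h
  rw [map_fourExplicit] at h
  simpa using h

/-- The explicit `c₆` is the deformed `c₆`. -/
theorem sixExplicit_forms (U V a b : K) :
    sixExplicit (fourForm U V) (sixForm U V) a b =
      sixForm (utForm U V a b) (vtForm U V a b) := by
  have h := congrArg (aeval ![U, V, b, a]).toRingHom invMap_sixExplicit
  rw [map_sixForm, map_utForm, map_vtForm] at h
  simp only [AlgHom.toRingHom_eq_coe, RingHom.coe_coe] at h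
  rw [aeval_invMap] at h
  change (aeval ![fourForm U V, sixForm U V, b, a]).toRingHom _ = _ at h
  rw [map_sixExplicit] at h
  simpa using h

/-- The discriminant of the deformation is a fifth power times the discriminant. -/
theorem discForm_deform (U V a b : K) :
    discForm (utForm U V a b) (vtForm U V a b) =
      discForm U V * cuspPoly (fourForm U V) (sixForm U V) a b ^ 5 := by
  have h := congrArg (aeval ![U, V, b, a]).toRingHom discForm_deform_eq
  simp only [map_mul, map_pow, AlgHom.toRingHom_eq_coe, RingHom.coe_coe, aeval_invMap] at h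
  change _ * ((aeval ![fourForm U V, sixForm U V, b, a]).toRingHom _) ^ 5 = _ at h
  rw [map_cuspPoly] at h
  simpa [discForm, cuspForm2, utForm, vtForm, evenFive, oddFive, map_ofNat] using h.symm

end Fermat.Agent.LT.C0
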